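import Fermat.Agent.TitsAlternative.PingPong
import Mathlib.GroupTheory.FreeGroup.NielsenSchreier
import Mathlib.GroupTheory.Perm.Closure
import Mathlib.GroupTheory.Perm.Fin
import Mathlib.GroupTheory.Solvable
import Mathlib.GroupTheory.Index
import Mathlib.LinearAlgebra.Matrix.GeneralLinearGroup.Defs
import Mathlib.Algebra.Order.Ring.Abs
import Mathlib.Algebra.Order.Field.Rat

/-!
# The two alternatives exclude each other and both occur

A subgroup of finite index of a free group of rank two is free and not abelian, so it maps onto
`S₅`. Sanov's matrices generate a free group.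
-/

set_option autoImplicit false

noncomputable section

open Matrix

namespace FA.TitsAlternative

/-- The elementary matrices. -/
def elementary (i : Fin 2) (a : ℚ) : GL (Fin 2) ℚ :=
  ⟨if i = 0 then !![1, a; 0, 1] else !![1, 0; a, 1],
    if i = 0 then !![1, -a; 0, 1] else !![1, 0; -a, 1],
    by fin_cases i <;> simp [Matrix.one_fin_two], by fin_cases i <;> simp [Matrix.one_fin_two]⟩

theorem elementary_add (i : Fin 2) (a b : ℚ) :
    elementary i (a + b) = elementary i a * elementary i b := by
  refine Units.ext ?_
  fin_cases i <;> simp [elementary, add_comm]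

theorem elementary_pow (i : Fin 2) (a : ℚ) (k : ℕ) : elementary i a ^ k = elementary i (k * a) := by
  induction k with
  | zero => refine Units.ext ?_; fin_cases i <;> simp [elementary, Matrix.one_fin_two]
  | succ k ih => rw [pow_succ, ih, ← elementary_add]; push_cast; ring_nf

theorem elementary_inv (i : Fin 2) (a : ℚ) : (elementary i a)⁻¹ = elementary i (-a) :=
  inv_eq_of_mul_eq_one_right (by
    rw [← elementary_add]
    refine Units.ext ?_
    fin_cases i <;> simp [elementary, Matrix.one_fin_two])

/-- **Sanov**: the elementary matrices with `2` generate a free group. -/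
theorem sanov : Function.Injective (FreeGroup.lift fun i => elementary i 2) := by
  let := vecAction (Units.coeHom (Matrix (Fin 2) (Fin 2) ℚ))
  refine free_of_ping_pong (fun i => elementary i 2)
    ![{z : Fin 2 → ℚ | |z 1| < |z 0|}, {z : Fin 2 → ℚ | |z 0| < |z 1|}] (fun i => ?_) ?_ ?_
  · fin_cases i
    · exact ⟨![1, 0], by simp⟩
    · exact ⟨![0, 1], by simp⟩
  · exact Set.disjoint_left.2 fun z (h : |z 1| < |z 0|) (h' : |z 0| < |z 1|) => lt_asymm h h'
  · intro i j hij k hk
    have hk' : (1 : ℚ) ≤ k := by exact_mod_cast hk
    have key : ∀ a : ℚ, 2 ≤ |a| → ∀ s t : ℚ, |s| < |t| → |t| < |s + a * t| := by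
      intro a ha s t h
      have h1 : |a * t| ≤ |s + a * t| + |s| := by
        simpa using abs_sub (s + a * t) s
      rw [abs_mul] at h1
      nlinarith [abs_nonneg t]
    have hbig : ∀ a : ℚ, |a| = 2 → 2 ≤ |(k : ℚ) * a| := fun a ha => by
      rw [abs_mul, ha, Nat.abs_cast]
      linarith
    rw [elementary_inv, elementary_pow, elementary_pow]
    fin_cases i <;> fin_cases j
    · exact absurd rfl hij
    · constructor <;> refine Set.smul_set_subset_iff.2 fun z (hz : |z 0| < |z 1|) => ?_ <;>
        show |(_ *ᵥ z) 1| < |(_ *ᵥ z) 0|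
      · simpa [elementary, mulVec, dotProduct, vecHead, vecTail]
          using key _ (hbig 2 (by simp)) _ _ hz
      · simpa [elementary, mulVec, dotProduct, vecHead, vecTail]
          using key _ (hbig (-2) (by simp)) _ _ hz
    · constructor <;> refine Set.smul_set_subset_iff.2 fun z (hz : |z 1| < |z 0|) => ?_ <;>
        show |(_ *ᵥ z) 0| < |(_ *ᵥ z) 1|
      · simpa [elementary, mulVec, dotProduct, vecHead, vecTail, add_comm]
          using key _ (hbig 2 (by simp)) _ _ hz
      · simpa [elementary, mulVec, dotProduct, vecHead, vecTail, add_comm]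
          using key _ (hbig (-2) (by simp)) _ _ hz
    · exact absurd rfl hij

/-- **A free group of rank two is not virtually solvable.** -/
theorem not_isSolvable_of_finiteIndex (H : Subgroup (FreeGroup (Fin 2))) [H.FiniteIndex] :
    ¬ Group.IsSolvable H := by
  classical
  intro hs
  rcases subsingleton_or_nontrivial (IsFreeGroup.Generators H) with hsub | hnt
  · obtain ⟨i, hi, -, hx⟩ := H.exists_pow_mem_of_index_ne_zero Subgroup.FiniteIndex.index_ne_zero
      (FreeGroup.of (0 : Fin 2))
    obtain ⟨j, hj, -, hy⟩ := H.exists_pow_mem_of_index_ne_zero Subgroup.FiniteIndex.index_ne_zero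
      (FreeGroup.of (1 : Fin 2))
    have hcommS : ∀ a b : H, a * b = b * a := by
      intro a b
      have hof : ∀ s t : IsFreeGroup.Generators H,
          Commute (IsFreeGroup.of s) (IsFreeGroup.of t : H) :=
        fun s t => by rw [Subsingleton.elim s t]
      obtain ⟨a', rfl⟩ := (IsFreeGroup.mulEquiv H).surjective a
      obtain ⟨b', rfl⟩ := (IsFreeGroup.mulEquiv H).surjective b
      rw [← map_mul, ← map_mul]
      congr 1
      induction a' using FreeGroup.induction_on with
      | C1 => rw [one_mul, mul_one]
      | of x =>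
        induction b' using FreeGroup.induction_on with
        | C1 => rw [one_mul, mul_one]
        | of y => rw [Subsingleton.elim x y]
        | inv_of y _ => rw [Subsingleton.elim x y, mul_inv_cancel, inv_mul_cancel]
        | mul u w hu hw => exact Commute.mul_right (a := FreeGroup.of x) hu hw
      | inv_of x hx => exact Commute.inv_left (a := FreeGroup.of x) hx
      | mul u w hu hw => exact Commute.mul_left (c := b') hu hw
    have h1 := congrArg
      (fun a : H => FreeGroup.lift (fun i => elementary i 2) (a : FreeGroup (Fin 2)))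
      (hcommS ⟨_, hx⟩ ⟨_, hy⟩)
    simp only [Subgroup.coe_mul, map_mul, map_pow, FreeGroup.lift_apply_of, elementary_pow] at h1
    have h2 := congrArg (fun u : GL (Fin 2) ℚ => (u : Matrix (Fin 2) (Fin 2) ℚ) 0 0) h1
    simp [elementary] at h2
    omega
  · obtain ⟨s, t, hst⟩ := exists_pair_ne (IsFreeGroup.Generators H)
    set ψ : H →* Equiv.Perm (Fin 5) := IsFreeGroup.lift fun u =>
      if u = s then finRotate 5 else if u = t then Equiv.swap 0 1 else 1
    have htop : ψ.range = ⊤ := by
      rw [eq_top_iff, ← Equiv.Perm.closure_prime_cycle_swap (σ := finRotate 5)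
        (τ := Equiv.swap (0 : Fin 5) 1) (by simpa using Nat.prime_five) isCycle_finRotate
        support_finRotate ⟨0, 1, by decide, rfl⟩, Subgroup.closure_le]
      rintro _ (rfl | rfl)
      · exact ⟨IsFreeGroup.of s, by simp [ψ, IsFreeGroup.lift_of]⟩
      · exact ⟨IsFreeGroup.of t, by simp [ψ, IsFreeGroup.lift_of, hst.symm]⟩
    exact Equiv.Perm.not_isSolvable_fin_5
      (Group.isSolvable_of_surjective (MonoidHom.range_eq_top.1 htop))

/-- **The alternatives exclude each other.** -/
theorem not_free_and_virtually_solvable {G : Type*} [Group G]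
    (hH : ∃ H : Subgroup G, H.FiniteIndex ∧ Group.IsSolvable H) :
    ¬ ∃ f : FreeGroup (Fin 2) →* G, Function.Injective f := by
  rintro ⟨f, hf⟩
  obtain ⟨H, hfi, hs⟩ := hH
  have : (H.comap f).FiniteIndex := by
    refine ⟨fun h => ?_⟩
    rw [Subgroup.index_comap] at h
    have h0 := Subgroup.relIndex_eq_zero_of_le_right (le_top (a := f.range)) h
    rw [Subgroup.relIndex_top_right] at h0
    exact hfi.index_ne_zero h0
  refine not_isSolvable_of_finiteIndex (H.comap f) ?_
  exact Group.isSolvable_of_isSolvable_injective
    (f := (f.comp (H.comap f).subtype).codRestrict H fun x => x.2)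
    fun a b h => Subtype.ext (hf (congrArg Subtype.val h :))

end FA.TitsAlternative

end
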