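import Fermat.Agent.LinearGroups.Selberg
import Mathlib.NumberTheory.Padics.Complex
import Mathlib.LinearAlgebra.Matrix.Charpoly.Eigs
import Mathlib.LinearAlgebra.Matrix.Charpoly.Basic
import Mathlib.LinearAlgebra.Eigenspace.Matrix

/-!
# Roots of unity near one

A root of unity within `1/p` of `1` in the `p`-adic norm, `p` odd, is `1`. An eigenvalue of a matrix
congruent to `1` modulo `p` is as near; so if all of them are roots of unity the matrix is
unipotent.
-/

set_option autoImplicit false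
set_option linter.style.haveILetI false

noncomputable section

open Finset Matrix Polynomial

namespace FA.TitsAlternative

variable {p : ℕ} [hp : Fact p.Prime]

theorem norm_natCast_le_one (a : ℕ) : ‖(a : PadicAlgCl p)‖ ≤ 1 := by
  rw [← map_natCast (algebraMap ℚ_[p] (PadicAlgCl p)), PadicAlgCl.norm_extends]
  exact_mod_cast Padic.norm_int_le_one (a : ℤ)

theorem norm_natCast_prime : ‖(p : PadicAlgCl p)‖ = (p : ℝ)⁻¹ := by
  rw [← map_natCast (algebraMap ℚ_[p] (PadicAlgCl p)), PadicAlgCl.norm_extends, Padic.norm_p]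

/-- A root of unity within `1/p` of `1` is `1`. -/
theorem eq_one_of_norm_sub_one_le (hp2 : p ≠ 2) {z : PadicAlgCl p} (hz : ‖z - 1‖ ≤ (p : ℝ)⁻¹)
    (hfin : IsOfFinOrder z) : z = 1 := by
  by_contra hne
  have hz1 : ‖z‖ ≤ 1 := by
    have h := IsUltrametricDist.norm_add_le_max (z - 1) (1 : PadicAlgCl p)
    rw [sub_add_cancel, norm_one] at h
    exact h.trans
      (max_le (hz.trans (inv_le_one_of_one_le₀ (by exact_mod_cast hp.out.one_le))) le_rfl)
  obtain ⟨q, hq, hqd⟩ := Nat.exists_prime_and_dvd (n := orderOf z) fun e =>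
    hne (orderOf_eq_one_iff.1 e)
  set w := z ^ (orderOf z / q) with hw
  have hwq : w ^ q = 1 := by rw [← pow_mul, Nat.div_mul_cancel hqd, pow_orderOf_eq_one]
  have hw1 : w ≠ 1 := fun h => by
    have := Nat.le_of_dvd (Nat.div_pos (Nat.le_of_dvd hfin.orderOf_pos hqd) hq.pos)
      (orderOf_dvd_of_pow_eq_one h)
    exact absurd (Nat.div_lt_self hfin.orderOf_pos hq.one_lt) (not_lt.2 this)
  set x := w - 1 with hx
  have hxle : ‖x‖ ≤ (p : ℝ)⁻¹ := by
    rw [hx, hw, ← geom_sum_mul z (orderOf z / q), norm_mul]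
    refine le_trans (mul_le_of_le_one_left (norm_nonneg _) ?_) hz
    exact IsUltrametricDist.norm_sum_le_of_forall_le_of_nonneg zero_le_one fun i _ => by
      rw [norm_pow]
      exact pow_le_one₀ (norm_nonneg _) hz1
  have hx0 : 0 < ‖x‖ := norm_pos_iff.2 (sub_ne_zero.2 hw1)
  have hp1 : (p : ℝ)⁻¹ < 1 := inv_lt_one_of_one_lt₀ (by exact_mod_cast hp.out.one_lt)
  have hp0 : (0 : ℝ) < (p : ℝ)⁻¹ := by have := hp.out.pos; positivity
  have hxlt : ‖x‖ < 1 := hxle.trans_lt hp1
  -- the binomial expansion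
  have hexp : (q : PadicAlgCl p) * x =
      -∑ i ∈ range (q - 1), x ^ (i + 2) * (q.choose (i + 2) : PadicAlgCl p) := by
    have h := add_pow x 1 q
    rw [sub_add_cancel, hwq] at h
    obtain ⟨q', rfl⟩ : ∃ q', q = q' + 1 := ⟨q - 1, by have := hq.pos; omega⟩
    simp only [one_pow, mul_one, sum_range_succ' _ (q' + 1), sum_range_succ' _ q', pow_zero,
      Nat.choose_zero_right, Nat.cast_one, zero_add, pow_one, Nat.choose_one_right] at h
    rw [Nat.add_sub_cancel]
    linear_combination (norm := (ring_nf)) -1 * h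
  have hbound : ∀ i ∈ range (q - 1),
      ‖x ^ (i + 2) * (q.choose (i + 2) : PadicAlgCl p)‖ ≤
        if q = p then ‖x‖ * ((p : ℝ)⁻¹ * (p : ℝ)⁻¹) else ‖x‖ * (p : ℝ)⁻¹ := by
    intro i hi
    rw [norm_mul, norm_pow, pow_add]
    split_ifs with hqp
    · subst hqp
      rw [mem_range] at hi
      rcases eq_or_lt_of_le (show i + 2 ≤ q by omega) with h | h
      · have h3 : 3 ≤ q := lt_of_le_of_ne hp.out.two_le (Ne.symm hp2)
        rw [h, Nat.choose_self, Nat.cast_one, norm_one, mul_one,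
          show i = (i - 1) + 1 by omega, pow_succ]
        calc ‖x‖ ^ (i - 1) * ‖x‖ * ‖x‖ ^ 2 ≤ 1 * ‖x‖ * ((q : ℝ)⁻¹ * (q : ℝ)⁻¹) := by
              gcongr
              · exact pow_le_one₀ hx0.le hxlt.le
              · rw [sq]; gcongr
          _ = _ := by ring
      · obtain ⟨e, he⟩ := hq.dvd_choose_self (show i + 2 ≠ 0 by omega) h
        rw [he, Nat.cast_mul, norm_mul, norm_natCast_prime]
        calc ‖x‖ ^ i * ‖x‖ ^ 2 * ((q : ℝ)⁻¹ * ‖(e : PadicAlgCl q)‖)
            ≤ 1 * (‖x‖ * (q : ℝ)⁻¹) * ((q : ℝ)⁻¹ * 1) := by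
              gcongr
              · exact pow_le_one₀ hx0.le hxlt.le
              · rw [sq]; gcongr
              · exact norm_natCast_le_one e
          _ = _ := by ring
    · calc ‖x‖ ^ i * ‖x‖ ^ 2 * ‖((q.choose (i + 2) : ℕ) : PadicAlgCl p)‖
          ≤ 1 * (‖x‖ * (p : ℝ)⁻¹) * 1 := by
            gcongr
            · exact pow_le_one₀ hx0.le hxlt.le
            · rw [sq]; gcongr
            · exact norm_natCast_le_one _
        _ = _ := by ring
  have hle := IsUltrametricDist.norm_sum_le_of_forall_le_of_nonneg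
    (by split_ifs <;> positivity) hbound
  rw [← norm_neg, ← hexp, norm_mul] at hle
  by_cases hqp : q = p
  · subst hqp
    rw [if_pos rfl, norm_natCast_prime] at hle
    nlinarith [mul_pos hx0 hp0]
  · rw [if_neg hqp] at hle
    have hq1 : ‖(q : PadicAlgCl p)‖ = 1 := by
      rw [← map_natCast (algebraMap ℚ_[p] (PadicAlgCl p)), PadicAlgCl.norm_extends]
      exact (Padic.norm_natCast_eq_one_iff).2 ((Nat.coprime_primes hp.out hq).2 (Ne.symm hqp))
    rw [hq1, one_mul] at hle
    nlinarith [mul_pos hx0 hp0]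

variable {n : ℕ}

/-- The coefficients of `ℤ_p` in the algebraic closure of `ℚ_p`. -/
def toPadicAlgCl (p : ℕ) [Fact p.Prime] : ℤ_[p] →+* PadicAlgCl p :=
  (algebraMap ℚ_[p] (PadicAlgCl p)).comp PadicInt.Coe.ringHom

theorem norm_toPadicAlgCl (x : ℤ_[p]) : ‖toPadicAlgCl p x‖ = ‖x‖ := by
  show ‖algebraMap ℚ_[p] (PadicAlgCl p) (x : ℚ_[p])‖ = _
  rw [PadicAlgCl.norm_extends]
  rfl

/-- An eigenvalue of a matrix congruent to `1` is within `1/p` of `1`. -/
theorem norm_root_sub_one_le {A : Matrix (Fin n) (Fin n) ℤ_[p]}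
    (hA : FA.LinearGroups.Congruent 1 A) {μ : PadicAlgCl p}
    (hμ : ((A.map (toPadicAlgCl p)).charpoly).IsRoot μ) : ‖μ - 1‖ ≤ (p : ℝ)⁻¹ := by
  obtain ⟨B, rfl⟩ := hA
  rw [← Matrix.mem_spectrum_iff_isRoot_charpoly, ← Matrix.spectrum_toLin',
    ← Module.End.hasEigenvalue_iff_mem_spectrum] at hμ
  obtain ⟨v, hv, hv0⟩ := hμ.exists_hasEigenvector
  rw [Module.End.mem_eigenspace_iff, Matrix.toLin'_apply] at hv
  obtain ⟨i, -, hi⟩ := exists_max_image univ (fun i => ‖v i‖) (by
    obtain ⟨i, -⟩ := Function.ne_iff.1 hv0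
    exact ⟨i, mem_univ i⟩)
  have hvi : 0 < ‖v i‖ := by
    obtain ⟨j, hj⟩ := Function.ne_iff.1 hv0
    exact (norm_pos_iff.2 hj).trans_le (hi j (mem_univ j))
  have h := congrFun hv i
  rw [Matrix.map_add _ (map_add _), Matrix.map_one _ (map_zero _) (map_one _), add_mulVec,
    one_mulVec, Pi.add_apply, Pi.smul_apply, smul_eq_mul] at h
  have h1 : (μ - 1) * v i = ((((p : ℤ_[p]) ^ 1 • B).map (toPadicAlgCl p)) *ᵥ v) i := by
    linear_combination -1 * h
  have h2 : ‖(μ - 1) * v i‖ ≤ (p : ℝ)⁻¹ * ‖v i‖ := by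
    rw [h1]
    show ‖∑ j, (((p : ℤ_[p]) ^ 1 • B).map (toPadicAlgCl p)) i j * v j‖ ≤ _
    refine IsUltrametricDist.norm_sum_le_of_forall_le_of_nonneg (by positivity) fun j _ => ?_
    rw [norm_mul]
    refine mul_le_mul ?_ (hi j (mem_univ j)) (norm_nonneg _) (by positivity)
    rw [Matrix.map_apply, norm_toPadicAlgCl, Matrix.smul_apply, smul_eq_mul, pow_one, norm_mul,
      PadicInt.norm_p]
    exact mul_le_of_le_one_right (by positivity) (PadicInt.norm_le_one _)
  rw [norm_mul] at h2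
  exact le_of_mul_le_mul_right h2 hvi

/-- **A congruent matrix whose eigenvalues are roots of unity is unipotent.** -/
theorem isNilpotent_sub_one (hp2 : p ≠ 2) {A : Matrix (Fin n) (Fin n) ℤ_[p]}
    (hA : FA.LinearGroups.Congruent 1 A)
    (h : ∀ μ, ((A.map (toPadicAlgCl p)).charpoly).IsRoot μ → IsOfFinOrder μ) :
    IsNilpotent (A.map (toPadicAlgCl p) - 1) := by
  refine ⟨n, ?_⟩
  set M := A.map (toPadicAlgCl p)
  have hroots : M.charpoly.roots = Multiset.replicate n 1 := by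
    rw [Multiset.eq_replicate, IsAlgClosed.card_roots_eq_natDegree, M.charpoly_natDegree_eq_dim,
      Fintype.card_fin]
    exact ⟨rfl, fun μ hμ => eq_one_of_norm_sub_one_le hp2
      (norm_root_sub_one_le hA (isRoot_of_mem_roots hμ)) (h μ (isRoot_of_mem_roots hμ))⟩
  have hchar : M.charpoly = (X - C 1) ^ n := by
    rw [(IsAlgClosed.splits M.charpoly).eq_prod_roots_of_monic M.charpoly_monic, hroots,
      Multiset.map_replicate, Multiset.prod_replicate]
  have h0 := M.aeval_self_charpoly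
  rwa [hchar, map_pow, map_sub, aeval_X, aeval_C, map_one] at h0

end FA.TitsAlternative

end
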