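import Fermat.Agent.BoundedGeneration.Connected
import Mathlib.LinearAlgebra.Dual.Lemmas

/-!
# Connectedness under extension of the field

A subgroup of finite index with largest vanishing ideal keeps this property when the matrices are
pushed into a larger field, as a polynomial over the larger field vanishes at points of the smaller
one only if its images under all linear functionals do. So there too the polynomial functions form
a domain.
-/

set_option autoImplicit false

noncomputable section

open FA.BoundedGeneration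

namespace FA.TitsAlternative

variable {K : Type*} [Field K] {d : Type*} [Fintype d] [DecidableEq d] {G : Type*} [Group G]

/-- No polynomial vanishes on a subgroup of finite index without vanishing everywhere. -/
def IsDense (m : G →* Matrix d d K) : Prop :=
  ∀ H : Subgroup G, H.FiniteIndex → zeroIdeal m H ≤ zeroIdeal m ⊤

theorem exists_isDense (m : G →* Matrix d d K) :
    ∃ H : Subgroup G, H.FiniteIndex ∧ IsDense (m.comp H.subtype) := by
  obtain ⟨I, ⟨H, hH, rfl⟩, hmax⟩ := set_has_maximal_iff_noetherian.2
    (inferInstance : IsNoetherian (MvPolynomial (d × d) K) (MvPolynomial (d × d) K))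
    ((zeroIdeal m) '' {H | H.FiniteIndex}) ⟨_, ⊤, inferInstanceAs (Subgroup.FiniteIndex ⊤), rfl⟩
  have := (hH : H.FiniteIndex)
  refine ⟨H, hH, fun H' hH' => ?_⟩
  have hfi : (H'.map H.subtype).FiniteIndex := ⟨by
    rw [Subgroup.index_map_subtype]
    exact mul_ne_zero hH'.index_ne_zero this.index_ne_zero⟩
  have heq : zeroIdeal (m.comp H.subtype) H' = zeroIdeal m (H'.map H.subtype) := by
    ext f
    simp [mem_zeroIdeal]
  have htop : zeroIdeal (m.comp H.subtype) ⊤ = zeroIdeal m H := by
    ext f
    simp [mem_zeroIdeal]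
  rw [heq, htop]
  have hle : zeroIdeal m H ≤ zeroIdeal m (H'.map H.subtype) := fun f hf =>
    mem_zeroIdeal.2 fun x hx => mem_zeroIdeal.1 hf x (Subgroup.map_subtype_le H' hx)
  exact (eq_of_le_of_not_lt hle (hmax _ ⟨_, hfi, rfl⟩)).ge

variable {F : Type*} [Field F] (ι : K →+* F)

theorem IsDense.map {m : G →* Matrix d d K} (hm : IsDense m) :
    IsDense (ι.mapMatrix.toMonoidHom.comp m) := by
  intro H hH f hf
  let : Algebra K F := ι.toAlgebra
  rw [mem_zeroIdeal] at hf ⊢
  intro x _
  refine (Module.forall_dual_apply_eq_zero_iff K _).1 fun l => ?_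
  set g : MvPolynomial (d × d) K :=
    ∑ e ∈ f.support, MvPolynomial.monomial e (l (f.coeff e))
  have hg : ∀ y, MvPolynomial.eval (fun p : d × d => m y p.1 p.2) g =
      l (MvPolynomial.eval (fun p : d × d => (ι.mapMatrix.toMonoidHom.comp m) y p.1 p.2) f) := by
    intro y
    conv_rhs => rw [MvPolynomial.eval_eq, map_sum]
    simp only [g, map_sum, MvPolynomial.eval_monomial]
    refine Finset.sum_congr rfl fun e _ => ?_
    rw [show f.coeff e * ∏ i ∈ e.support,
        ((ι.mapMatrix.toMonoidHom.comp m) y i.1 i.2) ^ e i =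
        (∏ i ∈ e.support, (m y i.1 i.2) ^ e i) • f.coeff e by
      rw [Algebra.smul_def, RingHom.algebraMap_toAlgebra, map_prod, mul_comm]
      simp, map_smul, smul_eq_mul, mul_comm]
    rfl
  rw [← hg]
  refine mem_zeroIdeal.1 (hm H hH (mem_zeroIdeal.2 fun y hy => ?_)) x trivial
  rw [hg, hf y hy, map_zero]

/-- **A domain of polynomial functions over every field.** -/
theorem IsDense.exists_domain {m : G →* Matrix d d K} (hm : IsDense m) :
    ∃ 𝒜 : Subalgebra F (G → F), (∀ f ∈ 𝒜, ∀ g ∈ 𝒜, f * g = 0 → f = 0 ∨ g = 0) ∧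
      ∀ i j, (fun x => ι (m x i j)) ∈ 𝒜 := by
  set m' := ι.mapMatrix.toMonoidHom.comp m
  have hprime := isPrime_zeroIdeal (hm.map ι)
  let ev : MvPolynomial (d × d) F →ₐ[F] (G → F) :=
    AlgHom.pi fun x : G => MvPolynomial.aeval fun p => m' x p.1 p.2
  have hev : ∀ f x, ev f x = MvPolynomial.eval (fun p => m' x p.1 p.2) f := fun f x => by
    induction f using MvPolynomial.induction_on with
    | C c => rw [MvPolynomial.eval_C]; exact MvPolynomial.aeval_C _ c
    | add p q hp hq => rw [map_add, map_add, Pi.add_apply, hp, hq]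
    | mul_X p i hp =>
      rw [map_mul, map_mul, Pi.mul_apply, hp, MvPolynomial.eval_X]
      congr 1
      exact MvPolynomial.aeval_X _ i
  refine ⟨ev.range, ?_, fun i j => ⟨MvPolynomial.X (i, j), funext fun x => ?_⟩⟩
  · rintro _ ⟨f, rfl⟩ _ ⟨g, rfl⟩ hfg
    have hmem : f * g ∈ zeroIdeal m' ⊤ := mem_zeroIdeal.2 fun x _ => by
      rw [← hev, map_mul]
      exact congrFun hfg x
    exact (hprime.mem_or_mem hmem).imp
      (fun h => funext fun x => (hev f x).trans (mem_zeroIdeal.1 h x (Subgroup.mem_top x)))
      (fun h => funext fun x => (hev g x).trans (mem_zeroIdeal.1 h x (Subgroup.mem_top x)))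
  · show ev _ x = ι (m x i j)
    rw [hev, MvPolynomial.eval_X]
    rfl

end FA.TitsAlternative

end
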