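import Fermat.Agent.TitsAlternative.GeneralPosition
import Mathlib.LinearAlgebra.FiniteDimensional.Basic
import Mathlib.Topology.Algebra.Monoid
import Mathlib.Analysis.Normed.Field.Lemmas
import Mathlib.GroupTheory.Abelianization.Defs
import Mathlib.LinearAlgebra.Matrix.Determinant.Basic
import Mathlib.Analysis.SpecificLimits.Normed

/-!
# The representation cut out by a matrix coefficient

The translates of the attracting vector modulo those vectors all of whose translates are killed by
the covector carry a representation in which both orbits span, with the same rank one limit. It is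
not one dimensional, as the element is a product of commutators.
-/

set_option autoImplicit false

noncomputable section

open Finset Matrix Filter
open scoped Topology

namespace FA.TitsAlternative

variable {F : Type*} [NormedField F] {C : ℕ} {H : Type*} [Group H]

theorem tendsto_dotProduct (a : Fin C → F) {f : ℕ → Fin C → F} {x : Fin C → F}
    (h : Tendsto f atTop (𝓝 x)) : Tendsto (fun N => a ⬝ᵥ f N) atTop (𝓝 (a ⬝ᵥ x)) :=
  tendsto_finsetSum univ fun i _ => tendsto_const_nhds.mul (tendsto_pi_nhds.1 h i)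

/-- Both orbits spanning, and a rank one limit. -/
structure IsContracting {m : ℕ} (σ : H →* Matrix (Fin m) (Fin m) F) (γ : H) (Λ : F)
    (v φ : Fin m → F) : Prop where
  /-- the pairing -/
  pairing : φ ⬝ᵥ v = 1
  /-- the orbit of the vector spans -/
  orbit : ∀ a, a ≠ 0 → ∃ g, a ⬝ᵥ σ g *ᵥ v ≠ 0
  /-- the orbit of the covector spans -/
  coorbit : ∀ x, x ≠ 0 → ∃ g, φ ⬝ᵥ σ g *ᵥ x ≠ 0
  /-- the limit -/
  limit : ∀ x, Tendsto (fun N : ℕ => (Λ ^ N)⁻¹ • (σ γ ^ N *ᵥ x)) atTop (𝓝 ((φ ⬝ᵥ x) • v))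

/-- **The reduced representation.** -/
theorem exists_contracting {τ : H →* Matrix (Fin C) (Fin C) F} {𝒜 : Subalgebra F (H → F)}
    (hτ : ∀ i j, (fun x => τ x i j) ∈ 𝒜) (hτ' : ∀ i j, (fun x => τ x⁻¹ i j) ∈ 𝒜) {γ : H} {Λ : F}
    {v φ : Fin C → F} (hφv : φ ⬝ᵥ v = 1)
    (hlim : ∀ x, Tendsto (fun N : ℕ => (Λ ^ N)⁻¹ • (τ γ ^ N *ᵥ x)) atTop (𝓝 ((φ ⬝ᵥ x) • v))) :
    ∃ (m : ℕ) (σ : H →* Matrix (Fin m) (Fin m) F) (v' φ' : Fin m → F),
      (∀ i j, (fun x => σ x i j) ∈ 𝒜) ∧ (∀ i j, (fun x => σ x⁻¹ i j) ∈ 𝒜) ∧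
        IsContracting σ γ Λ v' φ' := by
  classical
  set U := Submodule.span F (Set.range fun g : H => τ g *ᵥ v)
  have hvU : v ∈ U := Submodule.subset_span ⟨1, by simp⟩
  have hinv : ∀ g, ∀ x ∈ U, τ g *ᵥ x ∈ U := fun g x hx => by
    induction hx using Submodule.span_induction with
    | mem x hx =>
      obtain ⟨h, rfl⟩ := hx
      exact Submodule.subset_span ⟨g * h, by
        show τ (g * h) *ᵥ v = τ g *ᵥ τ h *ᵥ v
        rw [map_mul, mulVec_mulVec]⟩
    | zero => rw [mulVec_zero]; exact U.zero_mem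
    | add x y _ _ hx hy => rw [mulVec_add]; exact U.add_mem hx hy
    | smul c x _ hx => rw [mulVec_smul]; exact U.smul_mem c hx
  set Z : Submodule F U :=
    LinearMap.ker
      (LinearMap.pi fun g : H => ((dotProductBilin F F φ) ∘ₗ (τ g).mulVecLin) ∘ₗ U.subtype)
  have hZ : ∀ x : U, x ∈ Z ↔ ∀ g, φ ⬝ᵥ τ g *ᵥ (x : Fin C → F) = 0 := fun x => by
    simp [Z, funext_iff]
  set m := Module.finrank F (U ⧸ Z)
  set b : Module.Basis (Fin m) F (U ⧸ Z) := Module.finBasis F (U ⧸ Z)
  choose u hu using fun j => Submodule.Quotient.mk_surjective Z (b j)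
  choose l hl using fun i => LinearMap.exists_extend ((b.coord i) ∘ₗ Z.mkQ)
  set a : Fin m → Fin C → F := fun i σ => l i (Pi.single σ 1)
  have ha : ∀ i, ∀ x : U, a i ⬝ᵥ (x : Fin C → F) = b.repr (Submodule.Quotient.mk x) i :=
    fun i x => by
    have h := LinearMap.congr_fun (hl i) x
    simp only [LinearMap.comp_apply, Submodule.subtype_apply, Module.Basis.coord_apply,
      Submodule.mkQ_apply] at h
    rw [← h]
    conv_rhs => rw [← (Pi.basisFun F (Fin C)).sum_repr (x : Fin C → F)]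
    simp [a, dotProduct, mul_comm]
  set π : (Fin C → F) → Fin m → F := fun x i => a i ⬝ᵥ x
  have hdiff : ∀ x : U, ∀ g, φ ⬝ᵥ τ g *ᵥ (x : Fin C → F) =
      ∑ j, π x j * (φ ⬝ᵥ τ g *ᵥ (u j : Fin C → F)) := fun x g => by
    have h : x - ∑ j, π x j • u j ∈ Z := by
      rw [← Submodule.Quotient.mk_eq_zero, ← Submodule.mkQ_apply, map_sub, map_sum]
      simp only [map_smul, Submodule.mkQ_apply, hu, π, ha, b.sum_repr, sub_self]
    have h0 := (hZ _).1 h g
    simpa [mulVec_sub, mulVec_sum, mulVec_smul, dotProduct_sub, dotProduct_sum, sub_eq_zero]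
      using h0
  -- the coordinates are equivariant
  let M : H → Matrix (Fin m) (Fin m) F :=
    fun g => Matrix.of fun i j => a i ⬝ᵥ τ g *ᵥ (u j : Fin C → F)
  have hπ : ∀ g, ∀ x : U, π (τ g *ᵥ (x : Fin C → F)) = M g *ᵥ π x := fun g x => by
    funext i
    set y : U := ∑ j, π x j • ⟨τ g *ᵥ (u j : Fin C → F), hinv g _ (u j).2⟩
    have h : (⟨τ g *ᵥ (x : Fin C → F), hinv g _ x.2⟩ : U) - y ∈ Z := (hZ _).2 fun g' => by
      have h1 := hdiff x (g' * g)
      rw [map_mul] at h1
      simp [y, mulVec_sub, mulVec_sum, mulVec_smul, dotProduct_sub, dotProduct_sum, h1]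
    have h2 : π (τ g *ᵥ (x : Fin C → F)) i = π (y : Fin C → F) i := by
      show a i ⬝ᵥ _ = a i ⬝ᵥ _
      rw [ha i ⟨_, hinv g _ x.2⟩, ha i y, (Submodule.Quotient.eq Z).2 h]
    rw [h2]
    show a i ⬝ᵥ (y : Fin C → F) = ∑ j, M g i j * π x j
    simp only [y, Submodule.coe_sum, Submodule.coe_smul, dotProduct_sum, dotProduct_smul,
      smul_eq_mul, M, Matrix.of_apply]
    exact sum_congr rfl fun j _ => mul_comm _ _
  have hπu : ∀ j, π (u j) = Pi.single j 1 := fun j => by
    funext i
    simp [π, ha, hu, Finsupp.single_apply, Pi.single_apply, eq_comm]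
  have hπsum : ∀ x : Fin m → F, π ((∑ j, x j • u j : U) : Fin C → F) = x := fun x => by
    funext i
    show a i ⬝ᵥ _ = _
    simp only [Submodule.coe_sum, Submodule.coe_smul, dotProduct_sum, dotProduct_smul, smul_eq_mul]
    rw [sum_eq_single i]
    · rw [show a i ⬝ᵥ (u i : Fin C → F) = 1 by simpa [π] using congrFun (hπu i) i, mul_one]
    · intro j _ hj
      rw [show a i ⬝ᵥ (u j : Fin C → F) = 0 by
        simpa [π, Ne.symm hj] using congrFun (hπu j) i, mul_zero]
    · exact fun hi => absurd (mem_univ i) hi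
  have hcol : ∀ g j, M g *ᵥ Pi.single j 1 = π (τ g *ᵥ (u j : Fin C → F)) := fun g j => by
    rw [hπ, hπu]
  let σ : H →* Matrix (Fin m) (Fin m) F :=
    { toFun := M
      map_one' := Matrix.ext_of_mulVec_single fun j => by
        rw [hcol, map_one, one_mulVec, one_mulVec, hπu]
      map_mul' := fun g h => Matrix.ext_of_mulVec_single fun j => by
        rw [← mulVec_mulVec, hcol, hcol, ← hπ g ⟨_, hinv h _ (u j).2⟩, map_mul,
          mulVec_mulVec] }
  have hpow : ∀ N : ℕ, ∀ x : U, π (τ γ ^ N *ᵥ (x : Fin C → F)) = σ γ ^ N *ᵥ π x := fun N x => by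
    rw [← map_pow, ← map_pow]
    exact hπ _ x
  refine ⟨m, σ, π v, fun j => φ ⬝ᵥ (u j : Fin C → F), fun i j => coeff_mem hτ _ _, fun i j => ?_,
    ?_, fun c hc => ?_, fun x hx => ?_, fun x => ?_⟩
  · have h : (fun x => σ x⁻¹ i j) =
        ∑ p, ∑ q, (a i p * (u j : Fin C → F) q) • fun x => τ x⁻¹ p q := by
      funext x
      show a i ⬝ᵥ τ x⁻¹ *ᵥ (u j : Fin C → F) = _
      simp only [dotProduct, mulVec, Finset.sum_apply, Pi.smul_apply, smul_eq_mul, mul_sum]
      exact sum_congr rfl fun p _ => sum_congr rfl fun q _ => by ring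
    rw [h]
    exact sum_mem fun p _ => sum_mem fun q _ => 𝒜.smul_mem (hτ' p q) _
  · have h := hdiff ⟨v, hvU⟩ 1
    simp only [map_one, one_mulVec, hφv] at h
    rw [dotProduct, h]
    exact sum_congr rfl fun j _ => mul_comm _ _
  · by_contra! h
    have hall : ∀ y (hy : y ∈ U), c ⬝ᵥ π y = 0 := fun y hy => by
      induction hy using Submodule.span_induction with
      | mem y hy =>
        obtain ⟨g, rfl⟩ := hy
        exact (congrArg (c ⬝ᵥ ·) (hπ g ⟨v, hvU⟩)).trans (h g)
      | zero => simp [π, dotProduct]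
      | add y z _ _ hy hz =>
        rw [show π (y + z) = π y + π z from funext fun i => dotProduct_add _ _ _, dotProduct_add,
          hy, hz, add_zero]
      | smul r y _ hy =>
        rw [show π (r • y) = r • π y from funext fun i => dotProduct_smul _ _ _, dotProduct_smul,
          hy, smul_zero]
    refine hc (funext fun j => ?_)
    have := hall _ (u j).2
    simpa [hπu] using this
  · by_contra! h
    set w : U := ∑ j, x j • u j
    have hw : π w = x := hπsum x
    have hwZ : w ∈ Z := (hZ _).2 fun g => by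
      have h1 := h g
      rw [← hw, show σ g *ᵥ π w = π (τ g *ᵥ (w : Fin C → F)) from (hπ g w).symm] at h1
      have h2 := hdiff ⟨_, hinv g _ w.2⟩ 1
      simp only [map_one, one_mulVec] at h2
      rw [h2, ← h1]
      exact sum_congr rfl fun j _ => mul_comm _ _
    refine hx (hw ▸ funext fun i => ?_)
    show a i ⬝ᵥ (w : Fin C → F) = 0
    rw [ha, (Submodule.Quotient.mk_eq_zero Z).2 hwZ, map_zero, Finsupp.zero_apply]
  · set w : U := ∑ j, x j • u j
    have hw : π w = x := hπsum x
    have hφx : (fun j => φ ⬝ᵥ (u j : Fin C → F)) ⬝ᵥ x = φ ⬝ᵥ (w : Fin C → F) := by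
      simp only [w, Submodule.coe_sum, Submodule.coe_smul, dotProduct_sum, dotProduct_smul,
        smul_eq_mul]
      exact sum_congr rfl fun j _ => mul_comm _ _
    rw [hφx, ← hw]
    refine tendsto_pi_nhds.2 fun i => ?_
    have h := tendsto_dotProduct (a i) (hlim w)
    rw [dotProduct_smul] at h
    refine (h.congr fun N => ?_)
    rw [dotProduct_smul, Pi.smul_apply, ← hpow]

theorem IsContracting.two_le {m : ℕ} {σ : H →* Matrix (Fin m) (Fin m) F} {γ : H} {Λ : F}
    {v φ : Fin m → F} (h : IsContracting σ γ Λ v φ) (hΛ : 1 < ‖Λ‖) (hγ : γ ∈ commutator H) :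
    2 ≤ m := by
  by_contra! hm
  interval_cases m
  · simpa [dotProduct] using h.pairing
  · have hγ1 : σ γ = 1 := by
      set χ : H →* Fˣ := (Matrix.detMonoidHom.comp σ).toHomUnits
      have h1 : Matrix.det (σ γ) = 1 :=
        congrArg Units.val (MonoidHom.mem_ker.1 (Abelianization.commutator_subset_ker χ hγ))
      rw [det_fin_one] at h1
      ext i j
      fin_cases i; fin_cases j
      simpa using h1
    have h1 := h.limit v
    rw [h.pairing, one_smul] at h1
    simp only [hγ1, one_pow, one_mulVec] at h1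
    have h2 : Tendsto (fun N : ℕ => (Λ ^ N)⁻¹ • v) atTop (𝓝 0) := by
      refine tendsto_zero_iff_norm_tendsto_zero.2 ?_
      simp only [norm_smul, norm_inv, norm_pow, ← inv_pow]
      simpa using (tendsto_pow_atTop_nhds_zero_of_lt_one (inv_nonneg.2 (norm_nonneg Λ))
        (inv_lt_one_of_one_lt₀ hΛ)).mul_const ‖v‖
    have h3 := h.pairing
    rw [tendsto_nhds_unique h1 h2, dotProduct_zero] at h3
    exact one_ne_zero h3.symm

end FA.TitsAlternative

end
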