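import Fermat.Agent.TitsAlternative.PingPong
import Fermat.Agent.TitsAlternative.Reduced

/-!
# A free subgroup from a rank one limit

The conjugates `γ ^ N h γ ^ (-N)` are close to rank one maps onto the attracting line, and so are
their inverses. A second element `c` moves their hyperplanes off their points, a third `e` supplies
the partner; all three are chosen from finite families in general position.
-/

set_option autoImplicit false

noncomputable section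

open Finset Matrix Filter
open scoped Topology

namespace FA.TitsAlternative

variable {F : Type*} [NormedField F] {m : ℕ} {H : Type*} [Group H]

/-- One bound for finitely many families. -/
theorem exists_eps {ι : Type*} [Fintype ι] {N : ℕ} (w : ι → Fin N → Fin m → F)
    (hw : ∀ t, GenPos (w t)) (hm : 0 < m) :
    ∃ ε : ℝ, 0 < ε ∧ ∀ t a, (univ.filter fun i => ‖a ⬝ᵥ w t i‖ < ε * ‖a‖).card < m := by
  classical
  choose ε hε hcard using fun t => (hw t).exists_card_small_lt hm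
  refine ⟨(1 + ∑ t, (ε t)⁻¹)⁻¹,
    inv_pos.2 (add_pos_of_pos_of_nonneg one_pos (sum_nonneg fun t _ => (inv_pos.2 (hε t)).le)),
    fun t a => (card_le_card fun i hi => ?_).trans_lt (hcard t a)⟩
  simp only [mem_filter, mem_univ, true_and] at hi ⊢
  refine hi.trans_le (mul_le_mul_of_nonneg_right (inv_le_of_inv_le₀ (hε t) ?_) (norm_nonneg a))
  linarith [single_le_sum (f := fun t => (ε t)⁻¹) (fun t _ => (inv_pos.2 (hε t)).le) (mem_univ t)]

/-- Few exceptions leave one over. -/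
theorem exists_good {ι : Type*} [Fintype ι] {N : ℕ} (p : ι → Fin N → Prop)
    [∀ t i, Decidable (p t i)] (hp : ∀ t, (univ.filter (p t)).card < m)
    (hN : Fintype.card ι * (m - 1) < N) : ∃ i, ∀ t, ¬ p t i := by
  classical
  by_contra! h
  have hsub : (univ : Finset (Fin N)) ⊆ univ.biUnion fun t => univ.filter (p t) := fun i _ => by
    obtain ⟨t, ht⟩ := h i
    exact mem_biUnion.2 ⟨t, mem_univ t, mem_filter.2 ⟨mem_univ i, ht⟩⟩
  have h1 := (card_le_card hsub).trans (card_biUnion_le_card_mul _ _ (m - 1) fun t _ => by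
    have := hp t; omega)
  rw [card_univ, card_univ, Fintype.card_fin] at h1
  omega

/-- The contragredient. -/
def dualRep (σ : H →* Matrix (Fin m) (Fin m) F) : H →* Matrix (Fin m) (Fin m) F where
  toFun g := (σ g⁻¹)ᵀ
  map_one' := by rw [inv_one, map_one, transpose_one]
  map_mul' g h := by rw [_root_.mul_inv_rev, map_mul, transpose_mul]

theorem dualRep_mulVec (σ : H →* Matrix (Fin m) (Fin m) F) (g : H) (x : Fin m → F) :
    dualRep σ g *ᵥ x = x ᵥ* σ g⁻¹ := mulVec_transpose _ _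

/-- A matrix has a column comparable with its entries. -/
theorem exists_col (A : Matrix (Fin m) (Fin m) F) (hm : 0 < m) :
    ∃ j, entryNorm A ≤ (m : ℝ) ^ 2 * ‖A *ᵥ Pi.single j 1‖ := by
  obtain ⟨j, -, hj⟩ := exists_max_image (univ : Finset (Fin m))
    (fun j => ‖A *ᵥ Pi.single j 1‖) ⟨⟨0, hm⟩, mem_univ _⟩
  refine ⟨j, ?_⟩
  calc entryNorm A ≤ ∑ _i : Fin m, ∑ _k : Fin m, ‖A *ᵥ Pi.single j 1‖ :=
        sum_le_sum fun i _ => sum_le_sum fun k _ => le_trans (by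
          have h := norm_le_pi_norm (A *ᵥ Pi.single k 1) i
          rwa [mulVec_single_one] at h ⊢) (hj k (mem_univ k))
    _ = _ := by simp [pow_two, mul_assoc]

/-- The scaled powers are close to the rank one map. -/
theorem exists_close {S : Matrix (Fin m) (Fin m) F} {Λ : F} {v φ : Fin m → F}
    (h : ∀ x, Tendsto (fun N : ℕ => (Λ ^ N)⁻¹ • (S ^ N *ᵥ x)) atTop (𝓝 ((φ ⬝ᵥ x) • v)))
    (hΛ : Λ ≠ 0) {δ : ℝ} (hδ : 0 < δ) :
    ∃ N : ℕ, ∀ y, ‖S ^ N *ᵥ y - (Λ ^ N * (φ ⬝ᵥ y)) • v‖ ≤ ‖Λ ^ N‖ * δ * ‖y‖ := by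
  classical
  have hE : Tendsto (fun N : ℕ => entryNorm ((Λ ^ N)⁻¹ • S ^ N - vecMulVec v φ)) atTop (𝓝 0) := by
    rw [show (0 : ℝ) = ∑ _i : Fin m, ∑ _j : Fin m, (0 : ℝ) by simp]
    refine tendsto_finsetSum univ fun i _ => tendsto_finsetSum univ fun j _ => ?_
    have h1 := tendsto_pi_nhds.1 (h (Pi.single j 1)) i
    simp only [mulVec_single_one, Pi.smul_apply, smul_eq_mul, Matrix.col_apply,
      dotProduct_single_one] at h1
    refine tendsto_zero_iff_norm_tendsto_zero.1 ?_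
    have h2 := h1.sub (tendsto_const_nhds (x := φ j * v i))
    rw [sub_self] at h2
    refine h2.congr fun N => ?_
    simp [vecMulVec_apply, mul_comm]
  obtain ⟨N, hN⟩ := (hE.eventually (eventually_lt_nhds hδ)).exists
  refine ⟨N, fun y => ?_⟩
  have hrank : vecMulVec v φ *ᵥ y = (φ ⬝ᵥ y) • v := by
    ext i
    show ∑ k, v i * φ k * y k = (∑ k, φ k * y k) * v i
    rw [sum_mul]
    exact sum_congr rfl fun k _ => by ring
  have h1 : S ^ N *ᵥ y - (Λ ^ N * (φ ⬝ᵥ y)) • v =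
      (Λ ^ N) • (((Λ ^ N)⁻¹ • S ^ N - vecMulVec v φ) *ᵥ y) := by
    rw [sub_mulVec, smul_mulVec, hrank, smul_sub, smul_smul,
      mul_inv_cancel₀ (pow_ne_zero _ hΛ), one_smul, smul_smul]
  rw [h1, norm_smul, mul_assoc]
  exact mul_le_mul_of_nonneg_left ((norm_mulVec_le _ _).trans
    (mul_le_mul_of_nonneg_right hN.le (norm_nonneg y))) (norm_nonneg _)

variable {σ : H →* Matrix (Fin m) (Fin m) F} {γ : H} {Λ : F} {v φ : Fin m → F}

/-- A conjugate by a high power is close to rank one. -/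
theorem conj_approx {N : ℕ} {h : H} {δ B : ℝ} (hδ : 0 ≤ δ) (hB : entryNorm (σ h) ≤ B)
    (hN : ∀ y, ‖σ γ ^ N *ᵥ y - (Λ ^ N * (φ ⬝ᵥ y)) • v‖ ≤ ‖Λ ^ N‖ * δ * ‖y‖) (z : Fin m → F) :
    ‖σ (γ ^ N * h * (γ ^ N)⁻¹) *ᵥ z -
        (Λ ^ N * ((φ ᵥ* σ h ᵥ* σ (γ ^ N)⁻¹) ⬝ᵥ z)) • v‖ ≤
      ‖Λ ^ N‖ * δ * B * entryNorm (σ (γ ^ N)⁻¹) * ‖z‖ := by
  rw [map_mul, map_mul, map_pow, ← mulVec_mulVec, ← mulVec_mulVec, ← dotProduct_mulVec,
    ← dotProduct_mulVec]
  refine (hN _).trans ?_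
  rw [mul_assoc (‖Λ ^ N‖ * δ), mul_assoc (‖Λ ^ N‖ * δ)]
  refine mul_le_mul_of_nonneg_left ((norm_mulVec_le _ _).trans ?_) (by positivity)
  rw [mul_assoc]
  exact mul_le_mul hB (norm_mulVec_le _ _) (norm_nonneg _) ((entryNorm_nonneg _).trans hB)

/-- The covector of the approximation is not small. -/
theorem lower_covector (A : Matrix (Fin m) (Fin m) F) {u : Fin m → F} (j : Fin m) {ε : ℝ}
    (hε : 0 ≤ ε) (hj : entryNorm A ≤ (m : ℝ) ^ 2 * ‖A *ᵥ Pi.single j 1‖)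
    (hu : ε * ‖A *ᵥ Pi.single j 1‖ ≤ ‖(A *ᵥ Pi.single j 1) ⬝ᵥ u‖) :
    ε * entryNorm A ≤ (m : ℝ) ^ 2 * ‖u ᵥ* A‖ := by
  rw [dotProduct_comm, dotProduct_mulVec, dotProduct_single_one] at hu
  calc ε * entryNorm A ≤ (m : ℝ) ^ 2 * (ε * ‖A *ᵥ Pi.single j 1‖) := by nlinarith
    _ ≤ _ := mul_le_mul_of_nonneg_left (hu.trans (norm_le_pi_norm _ _)) (by positivity)

/-- **A rank one limit in a connected group gives a free subgroup.** -/
theorem exists_free_of_contracting {𝒜 : Subalgebra F (H → F)}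
    (hdom : ∀ f ∈ 𝒜, ∀ g ∈ 𝒜, f * g = 0 → f = 0 ∨ g = 0)
    (hσ : ∀ i j, (fun x => σ x i j) ∈ 𝒜) (hσ' : ∀ i j, (fun x => σ x⁻¹ i j) ∈ 𝒜)
    (hc : IsContracting σ γ Λ v φ) (hm : 2 ≤ m) (hΛ : 1 < ‖Λ‖) :
    ∃ f : FreeGroup (Fin 2) →* H, Function.Injective f := by
  classical
  have hm0 : 0 < m := by omega
  -- the three families
  obtain ⟨gh, hgh⟩ := exists_family (σ := dualRep σ) hdom (fun i j => hσ' j i)
    (fun i j => by simpa [dualRep] using hσ j i) hm (fun _ : Fin 1 => φ)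
    (fun _ a ha => by
      obtain ⟨g, hg⟩ := hc.coorbit a ha
      exact ⟨g⁻¹, by rwa [dualRep_mulVec, inv_inv, dotProduct_comm, ← dotProduct_mulVec]⟩)
    (2 * m - 1)
  obtain ⟨gc, hgc⟩ := exists_family hdom hσ hσ' hm (fun _ : Fin 1 => v)
    (fun _ => hc.orbit) (2 * m - 1)
  set P : Fin (2 * m - 1 + 1) → Fin m → F := Fin.cons v fun i => σ (gc i) *ᵥ v
  obtain ⟨ge, hge⟩ := exists_family hdom hσ hσ' hm P (fun l a ha => by
      cases l using Fin.cases with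
      | zero => exact hc.orbit a ha
      | succ i =>
        obtain ⟨g, hg⟩ := hc.orbit a ha
        refine ⟨g * (gc i)⁻¹, ?_⟩
        show a ⬝ᵥ σ (g * (gc i)⁻¹) *ᵥ P i.succ ≠ 0
        rw [show P i.succ = σ (gc i) *ᵥ v from Fin.cons_succ _ _ i, mulVec_mulVec, ← map_mul,
          inv_mul_cancel_right]
        exact hg)
    (8 * (m - 1) + 1)
  -- the bounds
  obtain ⟨ε₁, hε₁, hs₁⟩ := exists_eps (fun b : Bool => if b then fun i => φ ᵥ* σ (gh i)
    else fun i => φ ᵥ* σ (gh i)⁻¹) (fun b => by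
      have h := hgh 0
      simp only [dualRep_mulVec, inv_inv] at h
      cases b
      exacts [h.1, h.2.1]) hm0
  obtain ⟨ε₂, hε₂, hs₂⟩ := exists_eps (fun b : Bool => if b then fun i => σ (gc i) *ᵥ v
    else fun i => σ (gc i)⁻¹ *ᵥ v) (fun b => by cases b; exacts [(hgc 0).2.1, (hgc 0).1]) hm0
  obtain ⟨ε₃, hε₃, hs₃⟩ := exists_eps
    (fun t : Fin (2 * m - 1 + 1) × Bool => if t.2 then fun i => σ (ge i) *ᵥ P t.1
      else fun i => σ (ge i)⁻¹ *ᵥ P t.1)
    (fun ⟨l, b⟩ => by cases b; exacts [(hge l).2.1, (hge l).1]) hm0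
  set B := 1 + ∑ i, (entryNorm (σ (gh i)) + entryNorm (σ (gh i)⁻¹) + entryNorm (σ (gc i)) +
    entryNorm (σ (gc i)⁻¹)) with hB
  have hBi : ∀ i, entryNorm (σ (gh i)) ≤ B ∧ entryNorm (σ (gh i)⁻¹) ≤ B ∧
      entryNorm (σ (gc i)) ≤ B ∧ entryNorm (σ (gc i)⁻¹) ≤ B := fun i => by
    have h := single_le_sum (f := fun i => entryNorm (σ (gh i)) + entryNorm (σ (gh i)⁻¹) +
      entryNorm (σ (gc i)) + entryNorm (σ (gc i)⁻¹)) (fun k _ => by
        linarith [entryNorm_nonneg (σ (gh k)), entryNorm_nonneg (σ (gh k)⁻¹),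
          entryNorm_nonneg (σ (gc k)), entryNorm_nonneg (σ (gc k)⁻¹)]) (mem_univ i)
    refine ⟨?_, ?_, ?_, ?_⟩ <;> linarith [entryNorm_nonneg (σ (gh i)),
      entryNorm_nonneg (σ (gh i)⁻¹), entryNorm_nonneg (σ (gc i)), entryNorm_nonneg (σ (gc i)⁻¹)]
  have hB1 : 1 ≤ B := le_add_of_nonneg_right (sum_nonneg fun k _ => by
    linarith [entryNorm_nonneg (σ (gh k)), entryNorm_nonneg (σ (gh k)⁻¹),
      entryNorm_nonneg (σ (gc k)), entryNorm_nonneg (σ (gc k)⁻¹)])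
  have hB0 : 0 < B := one_pos.trans_le hB1
  set ε := min (ε₂ / B) ε₃ with hε
  have hεpos : 0 < ε := lt_min (by positivity) hε₃
  choose θ hθ hfree using fun (i : Fin (2 * m - 1)) (k : Fin (8 * (m - 1) + 1)) =>
    exists_threshold σ (σ (gc i) *ᵥ v) v (ge k) hεpos (fun r hr => by
      simp only [List.mem_cons, List.not_mem_nil, or_false] at hr
      have key : ∀ l l', σ (ge k) *ᵥ P l ∉ Submodule.span F {P l'} := fun l l' => (hge l).2.2 k l'
      rcases hr with rfl | rfl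
      · exact ⟨by simpa [P] using key i.succ i.succ, by simpa [P] using key i.succ 0⟩
      · exact ⟨by simpa [P] using key 0 i.succ, by simpa [P] using key 0 0⟩)
  set θ₀ := (1 + ∑ t : Fin (2 * m - 1) × Fin (8 * (m - 1) + 1), (θ t.1 t.2)⁻¹)⁻¹
  have hθ₀ : 0 < θ₀ :=
    inv_pos.2 (add_pos_of_pos_of_nonneg one_pos (sum_nonneg fun t _ => (inv_pos.2 (hθ _ _)).le))
  have hθle : ∀ i k, θ₀ ≤ θ i k := fun i k => by
    refine inv_le_of_inv_le₀ (hθ i k) ?_
    linarith [single_le_sum (f := fun t : Fin (2 * m - 1) × Fin (8 * (m - 1) + 1) =>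
      (θ t.1 t.2)⁻¹) (fun t _ => (inv_pos.2 (hθ _ _)).le) (mem_univ (i, k))]
  have hΛ0 : Λ ≠ 0 := norm_pos_iff.1 (one_pos.trans hΛ)
  set δ := θ₀ * ε₁ / (B ^ 3 * (m : ℝ) ^ 2) with hδ
  have hδpos : 0 < δ := by positivity
  obtain ⟨N, hN⟩ := exists_close hc.limit hΛ0 hδpos
  set A := σ (γ ^ N)⁻¹ with hA
  obtain ⟨j, hj⟩ := exists_col A hm0
  -- the element conjugated
  obtain ⟨ih, hih⟩ := exists_good (fun (b : Bool) i => ‖(A *ᵥ Pi.single j 1) ⬝ᵥ
      (if b then fun i => φ ᵥ* σ (gh i) else fun i => φ ᵥ* σ (gh i)⁻¹) i‖ <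
        ε₁ * ‖A *ᵥ Pi.single j 1‖)
    (fun b => hs₁ b _) (by simp; omega)
  have hμlow := lower_covector A j hε₁.le hj (not_lt.1 (by simpa using hih true))
  have hμ'low := lower_covector A j hε₁.le hj (not_lt.1 (by simpa using hih false))
  set μ := φ ᵥ* σ (gh ih) ᵥ* A
  set μ' := φ ᵥ* σ (gh ih)⁻¹ ᵥ* A
  have hApos : 0 < entryNorm A := by
    refine (entryNorm_nonneg A).lt_of_ne fun h0 => ?_
    have h1 : ‖v‖ ≤ 0 := by
      calc ‖v‖ = ‖A *ᵥ σ (γ ^ N) *ᵥ v‖ := by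
            rw [hA, mulVec_mulVec, ← map_mul, inv_mul_cancel, map_one, one_mulVec]
        _ ≤ entryNorm A * ‖σ (γ ^ N) *ᵥ v‖ := norm_mulVec_le _ _
        _ = 0 := by rw [← h0, zero_mul]
    have h2 := hc.pairing
    rw [norm_le_zero_iff.1 h1, dotProduct_zero] at h2
    exact zero_ne_one h2
  have hμ0 : μ ≠ 0 := fun h0 => by
    rw [h0, norm_zero, mul_zero] at hμlow
    nlinarith
  have hμ'0 : μ' ≠ 0 := fun h0 => by
    rw [h0, norm_zero, mul_zero] at hμ'low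
    nlinarith
  -- the element in front
  obtain ⟨ic, hic⟩ := exists_good (fun (b : Bool) i => ‖(if b then μ else μ') ⬝ᵥ
      (if b then fun i => σ (gc i) *ᵥ v else fun i => σ (gc i)⁻¹ *ᵥ v) i‖ <
        ε₂ * ‖if b then μ else μ'‖)
    (fun b => hs₂ b _) (by simp; omega)
  have hp : ε₂ * ‖μ‖ ≤ ‖μ ⬝ᵥ σ (gc ic) *ᵥ v‖ := not_lt.1 (by simpa using hic true)
  set ω' := μ' ᵥ* σ (gc ic)⁻¹
  have hq : ε₂ * ‖μ'‖ ≤ ‖ω' ⬝ᵥ v‖ := by
    rw [show ω' ⬝ᵥ v = μ' ⬝ᵥ σ (gc ic)⁻¹ *ᵥ v from (dotProduct_mulVec _ _ _).symm]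
    exact not_lt.1 (by simpa using hic false)
  have hω'le : ‖ω'‖ ≤ B * ‖μ'‖ :=
    (norm_vecMul_le _ _).trans (mul_le_mul_of_nonneg_right (hBi ic).2.2.2 (norm_nonneg _))
  have hμ'le : ‖μ'‖ ≤ B * ‖ω'‖ := by
    have h : μ' = ω' ᵥ* σ (gc ic) := by
      rw [vecMul_vecMul, ← map_mul, inv_mul_cancel, map_one, vecMul_one]
    rw [h]
    exact (norm_vecMul_le _ _).trans (mul_le_mul_of_nonneg_right (hBi ic).2.2.1 (norm_nonneg _))
  have hω'0 : ω' ≠ 0 := fun h0 => by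
    rw [h0, norm_zero, mul_zero, norm_le_zero_iff] at hμ'le
    exact hμ'0 hμ'le
  -- the partner
  obtain ⟨ie, hie⟩ := exists_good (fun (t : Bool × Bool × Bool) i =>
      ‖(if t.1 then μ else ω') ⬝ᵥ (if t.2.2 then fun i => σ (ge i) *ᵥ
          P (if t.2.1 then ic.succ else 0) else fun i => σ (ge i)⁻¹ *ᵥ
          P (if t.2.1 then ic.succ else 0)) i‖ < ε₃ * ‖if t.1 then μ else ω'‖)
    (fun t => hs₃ (if t.2.1 then ic.succ else 0, t.2.2) _) (by simp)
  have hall : ∀ (b1 b2 b3 : Bool), ε * ‖if b1 then μ else ω'‖ ≤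
      ‖(if b1 then μ else ω') ⬝ᵥ (if b3 then σ (ge ie) *ᵥ P (if b2 then ic.succ else 0)
        else σ (ge ie)⁻¹ *ᵥ P (if b2 then ic.succ else 0))‖ := fun b1 b2 b3 => by
    refine le_trans (mul_le_mul_of_nonneg_right (min_le_right _ _) (norm_nonneg _)) (not_lt.1 ?_)
    have h := hie (b1, b2, b3)
    cases b3 <;> simpa using h
  have hεB : ε ≤ ε₂ / B := min_le_left _ _
  refine hfree ic ie (gc ic * (γ ^ N * gh ih * (γ ^ N)⁻¹)) (Λ ^ N) (Λ ^ N) μ ω'
    (pow_ne_zero _ hΛ0) (pow_ne_zero _ hΛ0) hμ0 hω'0 (fun z => ?_) (fun z => ?_) ?_ ?_ ?_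
  · have h := conj_approx hδpos.le (hBi ih).1 hN z
    rw [map_mul, ← mulVec_mulVec, ← mulVec_smul, ← mulVec_sub]
    refine (norm_mulVec_le _ _).trans ?_
    calc entryNorm (σ (gc ic)) * _ ≤ B * (‖Λ ^ N‖ * δ * B * entryNorm A * ‖z‖) :=
          mul_le_mul (hBi ic).2.2.1 h (norm_nonneg _) hB0.le
      _ = ‖Λ ^ N‖ * (θ₀ / B) * (ε₁ * entryNorm A / (m : ℝ) ^ 2) * ‖z‖ := by
          rw [hδ]; field_simp
      _ ≤ ‖Λ ^ N‖ * θ ic ie * ‖μ‖ * ‖z‖ := by
          have h1 : θ₀ / B ≤ θ ic ie := (div_le_self hθ₀.le hB1).trans (hθle ic ie)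
          have h2 : ε₁ * entryNorm A / (m : ℝ) ^ 2 ≤ ‖μ‖ := by
            rw [div_le_iff₀ (by positivity)]
            linarith
          exact mul_le_mul_of_nonneg_right (mul_le_mul (mul_le_mul_of_nonneg_left h1
            (norm_nonneg _)) h2 (div_nonneg (mul_nonneg hε₁.le hApos.le) (sq_nonneg _))
            (mul_nonneg (norm_nonneg _) (hθ ic ie).le)) (norm_nonneg _)
      _ = _ := by ring
  · rw [show (gc ic * (γ ^ N * gh ih * (γ ^ N)⁻¹))⁻¹ =
        γ ^ N * (gh ih)⁻¹ * (γ ^ N)⁻¹ * (gc ic)⁻¹ by group, map_mul, ← mulVec_mulVec]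
    have h := conj_approx hδpos.le (hBi ih).2.1 hN (σ (gc ic)⁻¹ *ᵥ z)
    rw [show ω' ⬝ᵥ z = μ' ⬝ᵥ σ (gc ic)⁻¹ *ᵥ z from (dotProduct_mulVec _ _ _).symm]
    refine h.trans ?_
    calc ‖Λ ^ N‖ * δ * B * entryNorm A * ‖σ (gc ic)⁻¹ *ᵥ z‖
        ≤ ‖Λ ^ N‖ * δ * B * entryNorm A * (B * ‖z‖) := by
          have hA0 := entryNorm_nonneg A
          gcongr
          exact (norm_mulVec_le _ _).trans
            (mul_le_mul_of_nonneg_right (hBi ic).2.2.2 (norm_nonneg _))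
      _ = ‖Λ ^ N‖ * θ₀ * (ε₁ * entryNorm A / (m : ℝ) ^ 2 / B) * ‖z‖ := by
          rw [hδ]; field_simp
      _ ≤ ‖Λ ^ N‖ * θ ic ie * ‖ω'‖ * ‖z‖ := by
          have h2 : ε₁ * entryNorm A / (m : ℝ) ^ 2 / B ≤ ‖ω'‖ := by
            rw [div_le_iff₀ hB0, div_le_iff₀ (by positivity)]
            nlinarith [mul_le_mul_of_nonneg_right hμ'le (sq_nonneg (m : ℝ))]
          exact mul_le_mul_of_nonneg_right (mul_le_mul (mul_le_mul_of_nonneg_left (hθle ic ie)
            (norm_nonneg _)) h2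
            (div_nonneg (div_nonneg (mul_nonneg hε₁.le hApos.le) (sq_nonneg _)) hB0.le)
            (mul_nonneg (norm_nonneg _) (hθ ic ie).le)) (norm_nonneg _)
      _ = _ := by ring
  · refine le_trans ?_ hp
    exact mul_le_mul_of_nonneg_right (hεB.trans (div_le_self hε₂.le hB1)) (norm_nonneg _)
  · refine le_trans ?_ hq
    calc ε * ‖ω'‖ ≤ ε₂ / B * (B * ‖μ'‖) := mul_le_mul hεB hω'le (norm_nonneg _) (by positivity)
      _ = _ := by field_simp
  · intro r hr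
    have h0 : P 0 = v := Fin.cons_zero _ _
    have h1 : P ic.succ = σ (gc ic) *ᵥ v := Fin.cons_succ _ _ ic
    simp only [List.mem_cons, List.not_mem_nil, or_false] at hr
    rcases hr with rfl | rfl | rfl | rfl
    · exact ⟨by simpa [h1] using hall true true true, by simpa [h1] using hall false true true⟩
    · exact ⟨by simpa [h0] using hall true false true, by simpa [h0] using hall false false true⟩
    · exact ⟨by simpa [h1] using hall true true false, by simpa [h1] using hall false true false⟩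
    · exact ⟨by simpa [h0] using hall true false false, by simpa [h0] using hall false false false⟩

end FA.TitsAlternative

end
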