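import Mathlib.Analysis.Normed.Group.Constructions
import Mathlib.Analysis.Normed.Field.Basic
import Mathlib.Analysis.Normed.Module.Basic
import Mathlib.Algebra.Order.BigOperators.Ring.Finset
import Mathlib.LinearAlgebra.Basis.VectorSpace
import Mathlib.LinearAlgebra.Matrix.DotProduct
import Mathlib.LinearAlgebra.Matrix.ToLin
import Mathlib.LinearAlgebra.Dimension.Constructions
import Mathlib.LinearAlgebra.LinearIndependent.Lemmas
import Mathlib.LinearAlgebra.Dual.Lemmas

/-!
# Orbits in general position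

When the polynomial functions on a group form a domain, a vector whose orbit spans has orbit points
in general position; a covector is then small at fewer of them than the dimension. This replaces
compactness of the projective space in the proof of the Tits alternative.
-/

set_option autoImplicit false

noncomputable section

open Finset Matrix

namespace FA.TitsAlternative

variable {F : Type*} [NormedField F] {m : ℕ}

/-- A linear map of coordinate spaces is bounded. -/
theorem exists_norm_le {ι κ : Type*} [Fintype ι] [Fintype κ] (L : (ι → F) →ₗ[F] κ → F) :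
    ∃ C : ℝ, 0 < C ∧ ∀ y, ‖L y‖ ≤ C * ‖y‖ := by
  classical
  refine ⟨1 + ∑ i, ‖L (Pi.single i 1)‖,
    add_pos_of_pos_of_nonneg one_pos (sum_nonneg fun i _ => norm_nonneg _), fun y => ?_⟩
  have h : L y = ∑ i, y i • L (Pi.single i 1) := by
    conv_lhs => rw [pi_eq_sum_univ y, map_sum]
    refine sum_congr rfl fun i _ => ?_
    rw [map_smul]
    congr 2
    funext j
    simp [Pi.single_apply, eq_comm]
  rw [h]
  calc ‖∑ i, y i • L (Pi.single i 1)‖ ≤ ∑ i, ‖y i • L (Pi.single i 1)‖ := norm_sum_le _ _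
    _ ≤ ∑ i, ‖y‖ * ‖L (Pi.single i 1)‖ := sum_le_sum fun i _ => by
        rw [norm_smul]
        exact mul_le_mul_of_nonneg_right (norm_le_pi_norm y i) (norm_nonneg _)
    _ = (∑ i, ‖L (Pi.single i 1)‖) * ‖y‖ := by
        rw [sum_mul]
        exact sum_congr rfl fun i _ => mul_comm _ _
    _ ≤ _ := by nlinarith [norm_nonneg y]

/-- The sum of the norms of the entries. -/
def entryNorm (M : Matrix (Fin m) (Fin m) F) : ℝ := ∑ i, ∑ j, ‖M i j‖

theorem entryNorm_nonneg (M : Matrix (Fin m) (Fin m) F) : 0 ≤ entryNorm M :=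
  sum_nonneg fun _ _ => sum_nonneg fun _ _ => norm_nonneg _

theorem norm_mulVec_le (M : Matrix (Fin m) (Fin m) F) (z : Fin m → F) :
    ‖M *ᵥ z‖ ≤ entryNorm M * ‖z‖ := by
  refine (pi_norm_le_iff_of_nonneg (mul_nonneg (entryNorm_nonneg M) (norm_nonneg z))).2 fun i => ?_
  calc ‖(M *ᵥ z) i‖ ≤ ∑ j, ‖M i j * z j‖ := norm_sum_le univ fun j => M i j * z j
    _ ≤ ∑ j, ‖M i j‖ * ‖z‖ := sum_le_sum fun j _ => by
        rw [norm_mul]
        exact mul_le_mul_of_nonneg_left (norm_le_pi_norm z j) (norm_nonneg _)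
    _ = (∑ j, ‖M i j‖) * ‖z‖ := (sum_mul _ _ _).symm
    _ ≤ entryNorm M * ‖z‖ := mul_le_mul_of_nonneg_right
        (single_le_sum (f := fun i => ∑ j, ‖M i j‖) (fun k _ => sum_nonneg fun _ _ => norm_nonneg _)
          (mem_univ i)) (norm_nonneg _)

theorem norm_vecMul_le (M : Matrix (Fin m) (Fin m) F) (z : Fin m → F) :
    ‖z ᵥ* M‖ ≤ entryNorm M * ‖z‖ := by
  rw [← mulVec_transpose, show entryNorm M = entryNorm Mᵀ from sum_comm]
  exact norm_mulVec_le _ _

theorem norm_dotProduct_le (a z : Fin m → F) : ‖a ⬝ᵥ z‖ ≤ m * ‖a‖ * ‖z‖ := by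
  calc ‖a ⬝ᵥ z‖ ≤ ∑ i, ‖a i * z i‖ := norm_sum_le _ _
    _ ≤ ∑ _i : Fin m, ‖a‖ * ‖z‖ := sum_le_sum fun i _ => by
        rw [norm_mul]
        exact mul_le_mul (norm_le_pi_norm a i) (norm_le_pi_norm z i) (norm_nonneg _) (norm_nonneg _)
    _ = _ := by simp [mul_assoc]

/-- At most `m` of the vectors at a time are independent, all at a time as many as possible. -/
def GenPos {N : ℕ} (w : Fin N → Fin m → F) : Prop :=
  ∀ s : Finset (Fin N), s.card ≤ m → LinearIndepOn F w (s : Set (Fin N))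

/-- **General position is uniform**: a covector is small at fewer than `m` of the vectors. -/
theorem GenPos.exists_card_small_lt {N : ℕ} {w : Fin N → Fin m → F} (hw : GenPos w) (hm : 0 < m) :
    ∃ ε : ℝ, 0 < ε ∧ ∀ a : Fin m → F,
      (univ.filter fun i => ‖a ⬝ᵥ w i‖ < ε * ‖a‖).card < m := by
  classical
  have hs : ∀ s : {s : Finset (Fin N) // s.card = m}, ∃ C : ℝ, 0 < C ∧ ∀ a : Fin m → F,
      ∀ t, (∀ i ∈ s.1, ‖a ⬝ᵥ w i‖ ≤ t) → ‖a‖ ≤ C * t := by
    rintro ⟨s, hs⟩
    let T : (Fin m → F) →ₗ[F] s → F :=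
      LinearMap.pi fun i => dotProductBilin F F |>.flip (w i.1)
    have hT : ∀ a i, T a i = a ⬝ᵥ w i.1 := fun a i => rfl
    have hspan : Submodule.span F (Set.range fun i : s => w i.1) = ⊤ :=
      (hw s hs.le).linearIndependent.span_eq_top_of_card_eq_finrank' (by simp [hs])
    obtain ⟨L, hL⟩ := T.exists_leftInverse_of_injective (LinearMap.ker_eq_bot'.2 fun a ha => by
      refine dotProduct_eq_zero a fun u => ?_
      have hu : u ∈ Submodule.span F (Set.range fun i : s => w i.1) := hspan ▸ Submodule.mem_top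
      induction hu using Submodule.span_induction with
      | mem x hx =>
        obtain ⟨i, rfl⟩ := hx
        exact (hT a i).symm.trans (congrFun ha i)
      | zero => simp
      | add x y _ _ hx hy => rw [dotProduct_add, hx, hy, add_zero]
      | smul c x _ hx => rw [dotProduct_smul, hx, smul_zero])
    obtain ⟨C, hC, hbd⟩ := exists_norm_le L
    refine ⟨C, hC, fun a t ht => ?_⟩
    have h := hbd (T a)
    rw [← LinearMap.comp_apply, hL, LinearMap.id_apply] at h
    obtain ⟨i, hi⟩ := card_pos.1 (hs.symm ▸ hm)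
    exact h.trans (mul_le_mul_of_nonneg_left ((pi_norm_le_iff_of_nonneg
      ((norm_nonneg _).trans (ht i hi))).2 fun i => (hT a i).symm ▸ ht i.1 i.2) hC.le)
  choose C hC hbd using hs
  have hpos : 0 < 1 + ∑ s, C s :=
    add_pos_of_pos_of_nonneg one_pos (sum_nonneg fun s _ => (hC s).le)
  refine ⟨(1 + ∑ s, C s)⁻¹, inv_pos.2 hpos, fun a => ?_⟩
  set ε := (1 + ∑ s, C s)⁻¹
  by_contra! h
  obtain ⟨s, hsub, hs⟩ := exists_subset_card_eq h
  have h1 := hbd ⟨s, hs⟩ a (ε * ‖a‖) fun i hi => ((mem_filter.1 (hsub hi)).2).le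
  obtain ⟨i, hi⟩ := card_pos.1 (hs.symm ▸ hm)
  have h2 : 0 < ε * ‖a‖ := (norm_nonneg _).trans_lt (mem_filter.1 (hsub hi)).2
  have h3 : C ⟨s, hs⟩ < 1 + ∑ s, C s := by
    linarith [single_le_sum (fun s _ => (hC s).le) (mem_univ (⟨s, hs⟩ : {s // s.card = m}))]
  have h4 : C ⟨s, hs⟩ * ε < 1 := by
    rw [← div_eq_mul_inv, div_lt_one hpos]
    exact h3
  have h5 : 0 < ‖a‖ := pos_of_mul_pos_right h2 (inv_pos.2 hpos).le
  nlinarith

variable {H : Type*} [Group H] {σ : H →* Matrix (Fin m) (Fin m) F} {𝒜 : Subalgebra F (H → F)}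

/-- Nonzero functions of a domain have a common nonzero value. -/
theorem exists_forall_ne_zero (hdom : ∀ f ∈ 𝒜, ∀ g ∈ 𝒜, f * g = 0 → f = 0 ∨ g = 0) {ι : Type*}
    [Fintype ι] (f : ι → H → F) (hf : ∀ i, f i ∈ 𝒜) (h0 : ∀ i, ∃ x, f i x ≠ 0) :
    ∃ x, ∀ i, f i x ≠ 0 := by
  classical
  have hprod : ∀ s : Finset ι, (∏ i ∈ s, f i) ≠ 0 := fun s => by
    induction s using Finset.induction with
    | empty => exact fun h => one_ne_zero (congrFun h 1)
    | insert i s hi ih =>
      rw [prod_insert hi]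
      intro h
      rcases hdom _ (hf i) _ (prod_mem fun j _ => hf j) h with h | h
      · obtain ⟨x, hx⟩ := h0 i
        exact hx (congrFun h x)
      · exact ih h
  obtain ⟨x, hx⟩ := Function.ne_iff.1 (hprod univ)
  rw [Finset.prod_apply, Pi.zero_apply] at hx
  exact ⟨x, fun i => prod_ne_zero_iff.1 hx i (mem_univ i)⟩

/-- The matrix coefficients are regular. -/
theorem coeff_mem (hσ : ∀ i j, (fun x => σ x i j) ∈ 𝒜) (a v : Fin m → F) :
    (fun x => a ⬝ᵥ σ x *ᵥ v) ∈ 𝒜 := by
  have h : (fun x => a ⬝ᵥ σ x *ᵥ v) = ∑ i, ∑ j, (a i * v j) • fun x => σ x i j := by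
    funext x
    simp only [dotProduct, mulVec, Finset.sum_apply, Pi.smul_apply, smul_eq_mul, mul_sum]
    exact sum_congr rfl fun i _ => sum_congr rfl fun j _ => by ring
  rw [h]
  exact sum_mem fun i _ => sum_mem fun j _ => 𝒜.smul_mem (hσ i j) _

/-- An element moving the vectors out of finitely many proper subspaces, and so does its inverse. -/
theorem exists_avoiding (hdom : ∀ f ∈ 𝒜, ∀ g ∈ 𝒜, f * g = 0 → f = 0 ∨ g = 0)
    (hσ : ∀ i j, (fun x => σ x i j) ∈ 𝒜) (hσ' : ∀ i j, (fun x => σ x⁻¹ i j) ∈ 𝒜) {k : ℕ}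
    (P : Fin k → Fin m → F) (hP : ∀ l, ∀ a : Fin m → F, a ≠ 0 → ∃ g, a ⬝ᵥ σ g *ᵥ P l ≠ 0)
    (S : Finset (Submodule F (Fin m → F))) (hS : ∀ U ∈ S, U ≠ ⊤) :
    ∃ g, ∀ l, ∀ U ∈ S, σ g *ᵥ P l ∉ U ∧ σ g⁻¹ *ᵥ P l ∉ U := by
  classical
  have hann : ∀ U : S, ∃ a : Fin m → F, a ≠ 0 ∧ ∀ x ∈ U.1, a ⬝ᵥ x = 0 := fun U => by
    obtain ⟨f, hf0, hf⟩ := Submodule.exists_le_ker_of_lt_top _ (lt_top_iff_ne_top.2 (hS U.1 U.2))
    refine ⟨fun i => f (Pi.single i 1), fun h => hf0 ?_, fun x hx => ?_⟩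
    · ext i
      simpa using congrFun h i
    · rw [← LinearMap.mem_ker.1 (hf hx)]
      conv_rhs => rw [pi_eq_sum_univ x, map_sum]
      refine sum_congr rfl fun i _ => ?_
      rw [map_smul, smul_eq_mul, mul_comm]
      show x i * f (Pi.single i 1) = _
      congr 2
      funext j
      simp [Pi.single_apply, eq_comm]
  choose a ha0 ha using hann
  let σi : H → Matrix (Fin m) (Fin m) F := fun x => σ x⁻¹
  obtain ⟨g, hg⟩ := exists_forall_ne_zero hdom
    (fun q : (Fin k × S) ⊕ (Fin k × S) => q.elim (fun p x => a p.2 ⬝ᵥ σ x *ᵥ P p.1)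
      fun p x => a p.2 ⬝ᵥ σi x *ᵥ P p.1)
    (fun q => by
      rcases q with p | p
      · exact coeff_mem hσ _ _
      · have h : (fun x => a p.2 ⬝ᵥ σi x *ᵥ P p.1) =
            ∑ i, ∑ j, (a p.2 i * P p.1 j) • fun x => σ x⁻¹ i j := by
          funext x
          simp only [σi, dotProduct, mulVec, Finset.sum_apply, Pi.smul_apply, smul_eq_mul, mul_sum]
          exact sum_congr rfl fun i _ => sum_congr rfl fun j _ => by ring
        show (fun x => a p.2 ⬝ᵥ σi x *ᵥ P p.1) ∈ 𝒜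
        rw [h]
        exact sum_mem fun i _ => sum_mem fun j _ => 𝒜.smul_mem (hσ' i j) _)
    (fun q => by
      rcases q with p | p <;> obtain ⟨x, hx⟩ := hP p.1 _ (ha0 p.2)
      · exact ⟨x, hx⟩
      · exact ⟨x⁻¹, by simpa [σi] using hx⟩)
  exact ⟨g, fun l U hU => ⟨fun h => hg (.inl (l, ⟨U, hU⟩)) (ha ⟨U, hU⟩ _ h),
    fun h => hg (.inr (l, ⟨U, hU⟩)) (ha ⟨U, hU⟩ _ h)⟩⟩

theorem genPos_cons {N : ℕ} {w : Fin N → Fin m → F} (hw : GenPos w) {u : Fin m → F}
    (hu : ∀ s : Finset (Fin N), s.card < m → u ∉ Submodule.span F (w '' s)) :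
    GenPos (Fin.cons u w) := by
  classical
  intro s hs
  set t : Finset (Fin N) := univ.filter fun i => i.succ ∈ s
  have himg : ((Fin.succ '' (t : Set (Fin N))) : Set (Fin (N + 1))) = (s : Set _) \ {0} := by
    ext i
    cases i using Fin.cases with
    | zero => simp
    | succ i => simp [t, Fin.succ_ne_zero]
  have hcard : (t.map (Fin.succEmb N)).card = t.card := card_map _
  have hsub : t.map (Fin.succEmb N) ⊆ s.erase 0 := fun i hi => by
    obtain ⟨j, hj, rfl⟩ := mem_map.1 hi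
    exact mem_erase.2 ⟨Fin.succ_ne_zero _, (mem_filter.1 hj).2⟩
  have htm : t.card ≤ (s.erase 0).card := hcard ▸ card_le_card hsub
  have h1 : LinearIndepOn F (Fin.cons u w : Fin (N + 1) → Fin m → F) (Fin.succ '' (t : Set _)) :=
    LinearIndepOn.image_of_comp (f := Fin.succ) (g := Fin.cons u w)
      (by simpa [Function.comp_def] using hw t (htm.trans (card_erase_le.trans hs)))
  by_cases h0 : (0 : Fin (N + 1)) ∈ s
  · have hs' : (s : Set (Fin (N + 1))) = insert 0 (Fin.succ '' (t : Set _)) := by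
      rw [himg, Set.insert_sdiff_singleton, Set.insert_eq_of_mem]
      exact mem_coe.2 h0
    rw [hs', linearIndepOn_insert (by simp [Fin.succ_ne_zero]), ← Set.image_comp]
    refine ⟨h1, ?_⟩
    rw [Fin.cons_zero]
    simpa [Function.comp_def] using hu t (htm.trans_lt
      ((card_erase_lt_of_mem h0).trans_le hs))
  · rwa [himg, Set.sdiff_singleton_eq_self (by simpa using h0)] at h1

/-- **Orbit points in general position.** -/
theorem exists_family (hdom : ∀ f ∈ 𝒜, ∀ g ∈ 𝒜, f * g = 0 → f = 0 ∨ g = 0)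
    (hσ : ∀ i j, (fun x => σ x i j) ∈ 𝒜) (hσ' : ∀ i j, (fun x => σ x⁻¹ i j) ∈ 𝒜) (hm : 2 ≤ m)
    {k : ℕ} (P : Fin k → Fin m → F)
    (hP : ∀ l, ∀ a : Fin m → F, a ≠ 0 → ∃ g, a ⬝ᵥ σ g *ᵥ P l ≠ 0) (N : ℕ) :
    ∃ g : Fin N → H, ∀ l, GenPos (fun i => σ (g i) *ᵥ P l) ∧
      GenPos (fun i => σ (g i)⁻¹ *ᵥ P l) ∧ ∀ i l', σ (g i) *ᵥ P l ∉ Submodule.span F {P l'} := by
  classical
  induction N with
  | zero =>
    refine ⟨Fin.elim0, fun l => ?_⟩
    have h : ∀ w : Fin 0 → Fin m → F, GenPos w := fun w s _ => by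
      rw [eq_empty_of_isEmpty s, coe_empty]
      exact linearIndepOn_empty F w
    exact ⟨h _, h _, fun i => i.elim0⟩
  | succ N ih =>
    obtain ⟨g, hg⟩ := ih
    set J : Finset (Fin k × Finset (Fin N)) :=
      (univ : Finset (Fin k)) ×ˢ (univ : Finset (Finset (Fin N))).filter fun s => s.card < m with hJ
    set S : Finset (Submodule F (Fin m → F)) :=
      J.image
          (fun q => Submodule.span F ((fun i => σ (g i) *ᵥ P q.1) '' q.2)) ∪
        J.image
          (fun q => Submodule.span F ((fun i => σ (g i)⁻¹ *ᵥ P q.1) '' q.2)) ∪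
        univ.image fun l => Submodule.span F {P l}
    have hfr : ∀ T : Finset (Fin m → F), T.card < m → Submodule.span F (T : Set (Fin m → F)) ≠ ⊤ :=
      fun T hT h => by
        have h1 := finrank_span_finset_le_card (R := F) T
        rw [Set.finrank, h, finrank_top, Module.finrank_fin_fun] at h1
        omega
    have hS : ∀ U ∈ S, U ≠ ⊤ := fun U hU => by
      simp only [S, hJ, mem_union, mem_image, mem_product, mem_univ, true_and, mem_filter] at hU
      rcases hU with (⟨⟨l, s⟩, hs, rfl⟩ | ⟨⟨l, s⟩, hs, rfl⟩) | ⟨l, rfl⟩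
      · rw [← coe_image]
        exact hfr _ (card_image_le.trans_lt hs)
      · rw [← coe_image]
        exact hfr _ (card_image_le.trans_lt hs)
      · rw [← coe_singleton]
        exact hfr _ (by simp; omega)
    obtain ⟨x, hx⟩ := exists_avoiding hdom hσ hσ' P hP S hS
    refine ⟨Fin.cons x g, fun l => ⟨?_, ?_, fun i l' => ?_⟩⟩
    · rw [show (fun i => σ ((Fin.cons x g : Fin (N + 1) → H) i) *ᵥ P l) =
          Fin.cons (σ x *ᵥ P l) (fun i => σ (g i) *ᵥ P l) from
        funext fun i => by cases i using Fin.cases <;> simp]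
      exact genPos_cons (hg l).1 fun s hs => (hx l _ (mem_union_left _ (mem_union_left _
        (mem_image.2 ⟨(l, s), by simp [hJ, hs], rfl⟩)))).1
    · rw [show (fun i => σ ((Fin.cons x g : Fin (N + 1) → H) i)⁻¹ *ᵥ P l) =
          Fin.cons (σ x⁻¹ *ᵥ P l) (fun i => σ (g i)⁻¹ *ᵥ P l) from
        funext fun i => by cases i using Fin.cases <;> simp]
      exact genPos_cons (hg l).2.1 fun s hs => (hx l _ (mem_union_left _ (mem_union_right _
        (mem_image.2 ⟨(l, s), by simp [hJ, hs], rfl⟩)))).2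
    · cases i using Fin.cases with
      | zero =>
        rw [Fin.cons_zero]
        exact (hx l _ (mem_union_right _ (mem_image_of_mem _ (mem_univ l')))).1
      | succ i =>
        rw [Fin.cons_succ]
        exact (hg l).2.2 i l'

end FA.TitsAlternative

end
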