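import Fermat.Agent.Subspace.Compound
import Fermat.Agent.TitsAlternative.GeneralPosition
import Mathlib.LinearAlgebra.Eigenspace.Triangularizable
import Mathlib.LinearAlgebra.Matrix.Charpoly.Eigs
import Mathlib.LinearAlgebra.Eigenspace.Matrix
import Mathlib.LinearAlgebra.Matrix.NonsingularInverse
import Mathlib.Analysis.SpecificLimits.Normed
import Mathlib.Data.Nat.Choose.Bounds

/-!
# The dominant product of the eigenvectors

If `k` counts the eigenvalues of largest absolute value, the compound of order `k` has the product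
of their vectors as the only direction of fastest growth: suitably scaled, its powers tend to a map
of rank one.
-/

set_option autoImplicit false

noncomputable section

open Finset Matrix Filter
open scoped Topology

namespace FA.TitsAlternative

variable {F : Type*} [NormedField F] {n : ℕ}

/-- The growth of the powers on a generalised eigenvector. -/
theorem exists_bound_pow {A : Matrix (Fin n) (Fin n) F} {μ : F} (hμ : μ ≠ 0) {x : Fin n → F}
    {d : ℕ} (hx : (A - μ • 1) ^ d *ᵥ x = 0) :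
    ∃ C : ℝ, 0 ≤ C ∧ ∀ N : ℕ, ‖A ^ N *ᵥ x‖ ≤ C * ((N : ℝ) + 1) ^ d * ‖μ‖ ^ N := by
  set B := A - μ • (1 : Matrix (Fin n) (Fin n) F) with hB
  have hbig : ∀ j, d ≤ j → B ^ j *ᵥ x = 0 := fun j hj => by
    rw [← Nat.sub_add_cancel hj, pow_add, ← mulVec_mulVec, hx, mulVec_zero]
  refine ⟨∑ j ∈ range d, ‖B ^ j *ᵥ x‖ * (‖μ‖ ^ j)⁻¹, sum_nonneg fun j _ => by positivity,
    fun N => ?_⟩
  have hexp : A ^ N *ᵥ x =
      ∑ j ∈ range (N + 1), ((N.choose j : F) * μ ^ (N - j)) • (B ^ j *ᵥ x) := by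
    have h : A = B + μ • 1 := by rw [hB, sub_add_cancel]
    rw [h, ((Commute.one_right B).smul_right μ).add_pow, sum_mulVec]
    refine sum_congr rfl fun j _ => ?_
    rw [smul_pow, one_pow, mul_smul_comm, mul_one, ← nsmul_eq_mul', ← Nat.cast_smul_eq_nsmul F,
      smul_smul, smul_mulVec]
  have hN : (1 : ℝ) ≤ (N : ℝ) + 1 := by linarith [(Nat.cast_nonneg N : (0 : ℝ) ≤ N)]
  have hterm : ∀ j ∈ range (N + 1), ‖((N.choose j : F) * μ ^ (N - j)) • (B ^ j *ᵥ x)‖ ≤
      if j < d then ‖B ^ j *ᵥ x‖ * (‖μ‖ ^ j)⁻¹ * (((N : ℝ) + 1) ^ d * ‖μ‖ ^ N) else 0 := by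
    intro j hj
    split_ifs with hjd
    · rw [norm_smul, norm_mul, norm_pow]
      have h1 : ‖(N.choose j : F)‖ ≤ ((N : ℝ) + 1) ^ d := by
        refine (Nat.norm_cast_le _).trans ?_
        rw [norm_one, mul_one]
        calc ((N.choose j : ℕ) : ℝ) ≤ (N : ℝ) ^ j := by exact_mod_cast Nat.choose_le_pow N j
          _ ≤ ((N : ℝ) + 1) ^ j := by gcongr; linarith
          _ ≤ _ := pow_le_pow_right₀ hN hjd.le
      have h2 : ‖μ‖ ^ (N - j) = ‖μ‖ ^ N * (‖μ‖ ^ j)⁻¹ :=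
        pow_sub₀ _ (norm_ne_zero_iff.2 hμ) (Nat.le_of_lt_succ (mem_range.1 hj))
      rw [h2]
      calc ‖(N.choose j : F)‖ * (‖μ‖ ^ N * (‖μ‖ ^ j)⁻¹) * ‖B ^ j *ᵥ x‖
          ≤ ((N : ℝ) + 1) ^ d * (‖μ‖ ^ N * (‖μ‖ ^ j)⁻¹) * ‖B ^ j *ᵥ x‖ := by gcongr
        _ = _ := by ring
    · rw [hbig j (not_lt.1 hjd), smul_zero, norm_zero]
  rw [hexp]
  refine (norm_sum_le _ _).trans ((sum_le_sum hterm).trans ?_)
  rw [← sum_filter, mul_assoc, sum_mul]
  refine sum_le_sum_of_subset_of_nonneg (fun j hj => mem_range.2 (mem_filter.1 hj).2)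
    fun j _ _ => by positivity

/-- The growth on a sum of generalised eigenspaces. -/
theorem exists_bound_iSup {A : Matrix (Fin n) (Fin n) F} (hA : IsUnit A.det) {s : Finset F} {R : ℝ}
    (hs : ∀ μ ∈ s, ‖μ‖ ≤ R) (hs0 : ∀ μ ∈ s, μ ≠ 0) {x : Fin n → F}
    (hx : x ∈ ⨆ μ ∈ s, Module.End.maxGenEigenspace (Matrix.toLin' A) μ) :
    (∃ (C : ℝ) (d : ℕ), 0 ≤ C ∧ ∀ N : ℕ, ‖A ^ N *ᵥ x‖ ≤ C * ((N : ℝ) + 1) ^ d * R ^ N) ∧
      ∀ {r : ℝ}, (∀ μ ∈ s, r ≤ ‖μ‖) → 0 < r → ∃ (C : ℝ) (d : ℕ), 0 ≤ C ∧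
        ∀ N : ℕ, ‖A⁻¹ ^ N *ᵥ x‖ ≤ C * ((N : ℝ) + 1) ^ d * r⁻¹ ^ N := by
  have hone : ∀ N : ℕ, (1 : ℝ) ≤ (N : ℝ) + 1 := fun N => by
    linarith [(Nat.cast_nonneg N : (0 : ℝ) ≤ N)]
  have key : ∀ (M : Matrix (Fin n) (Fin n) F) (R : ℝ) (_ : ∀ μ ∈ s, ∀ x ∈
      Module.End.maxGenEigenspace (Matrix.toLin' A) μ, ∃ (C : ℝ) (d : ℕ), 0 ≤ C ∧
        ∀ N : ℕ, ‖M ^ N *ᵥ x‖ ≤ C * ((N : ℝ) + 1) ^ d * R ^ N),
      0 ≤ R → ∃ (C : ℝ) (d : ℕ), 0 ≤ C ∧
        ∀ N : ℕ, ‖M ^ N *ᵥ x‖ ≤ C * ((N : ℝ) + 1) ^ d * R ^ N := by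
    intro M R hM hR
    induction hx using Submodule.iSup_induction' with
    | mem μ y hy =>
      by_cases hμ : μ ∈ s
      · rw [iSup_pos hμ] at hy
        exact hM μ hμ y hy
      · rw [iSup_neg hμ, Submodule.mem_bot] at hy
        exact ⟨0, 0, le_rfl, fun N => by simp [hy]⟩
    | zero => exact ⟨0, 0, le_rfl, fun N => by simp⟩
    | add y z _ _ hy hz =>
      obtain ⟨C, d, hC, h1⟩ := hy
      obtain ⟨C', d', hC', h2⟩ := hz
      refine ⟨C + C', max d d', add_nonneg hC hC', fun N => ?_⟩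
      rw [mulVec_add, add_mul, add_mul]
      refine (norm_add_le _ _).trans (add_le_add ((h1 N).trans ?_) ((h2 N).trans ?_)) <;>
        gcongr
      exacts [hone N, le_max_left _ _, hone N, le_max_right _ _]
  have hpow : ∀ μ, ∀ x ∈ Module.End.maxGenEigenspace (Matrix.toLin' A) μ,
      ∃ d, (A - μ • 1) ^ d *ᵥ x = 0 := fun μ y hy => by
    obtain ⟨d, hd⟩ := (Module.End.mem_maxGenEigenspace _ _ _).1 hy
    refine ⟨d, ?_⟩
    rwa [← Matrix.toLin'_apply, Matrix.toLin'_pow, map_sub, map_smul, Matrix.toLin'_one]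
  constructor
  · rcases s.eq_empty_or_nonempty with rfl | ⟨μ₀, hμ₀⟩
    · exact ⟨0, 0, le_rfl, fun N => by simp_all⟩
    refine key A R (fun μ hμ y hy => ?_) ((norm_nonneg μ₀).trans (hs μ₀ hμ₀))
    obtain ⟨d, hd⟩ := hpow μ y hy
    obtain ⟨C, hC, h⟩ := exists_bound_pow (hs0 μ hμ) hd
    exact ⟨C, d, hC, fun N => (h N).trans (by gcongr; exact hs μ hμ)⟩
  · intro r hr hr0
    refine key A⁻¹ r⁻¹ (fun μ hμ y hy => ?_) (inv_nonneg.2 hr0.le)
    obtain ⟨d, hd⟩ := hpow μ y hy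
    have hμ0 := hs0 μ hμ
    have hid : A⁻¹ - μ⁻¹ • 1 = (-μ⁻¹ • A⁻¹) * (A - μ • 1) := by
      rw [neg_smul, neg_mul, mul_sub, smul_mul_assoc, nonsing_inv_mul _ hA, smul_mul_assoc,
        mul_smul_comm, mul_one, smul_smul, inv_mul_cancel₀ hμ0, one_smul, neg_sub]
    have hcomm : Commute (-μ⁻¹ • A⁻¹) (A - μ • (1 : Matrix (Fin n) (Fin n) F)) :=
      Commute.smul_left (Commute.sub_right (show A⁻¹ * A = A * A⁻¹ by
        rw [nonsing_inv_mul _ hA, mul_nonsing_inv _ hA]) ((Commute.one_right _).smul_right μ)) _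
    have hd' : (A⁻¹ - μ⁻¹ • 1) ^ d *ᵥ y = 0 := by
      rw [hid, hcomm.mul_pow, ← mulVec_mulVec, hd, mulVec_zero]
    obtain ⟨C, hC, h⟩ := exists_bound_pow (inv_ne_zero hμ0) hd'
    refine ⟨C, d, hC, fun N => (h N).trans ?_⟩
    rw [norm_inv]
    gcongr
    exact hr μ hμ

/-- Hadamard's bound, crudely. -/
theorem norm_wedge_le {C k : ℕ} (e : Fin C ≃ (Fin k ↪o Fin n)) (u : Fin k → Fin n → F) :
    ‖FA.Subspace.wedge e u‖ ≤ k.factorial * ∏ i, ‖u i‖ := by
  refine (pi_norm_le_iff_of_nonneg (by positivity)).2 fun σ => ?_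
  rw [FA.Subspace.wedge, det_apply]
  refine (norm_sum_le _ _).trans ?_
  calc ∑ τ : Equiv.Perm (Fin k), ‖Equiv.Perm.sign τ • ∏ i, u (τ i) (e σ i)‖
      ≤ ∑ _τ : Equiv.Perm (Fin k), ∏ i, ‖u i‖ := sum_le_sum fun τ _ => by
        have hsign : ∀ a : F, ‖Equiv.Perm.sign τ • a‖ = ‖a‖ := fun a => by
          rcases Int.units_eq_one_or (Equiv.Perm.sign τ) with h | h <;> simp [h]
        rw [hsign, norm_prod, ← Equiv.prod_comp τ fun i => ‖u i‖]
        exact prod_le_prod (fun i _ => norm_nonneg _) fun i _ => norm_le_pi_norm _ _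
    _ = _ := by simp [card_univ, Fintype.card_perm]

theorem compound_pow {C k : ℕ} (e : Fin C ≃ (Fin k ↪o Fin n)) (A : Matrix (Fin n) (Fin n) F)
    (N : ℕ) : FA.Subspace.compound e A ^ N = FA.Subspace.compound e (A ^ N) := by
  induction N with
  | zero => rw [pow_zero, pow_zero, FA.Subspace.compound_one]
  | succ N ih => rw [pow_succ, pow_succ, ih, FA.Subspace.compound_mul]

theorem wedge_sum {C k : ℕ} (e : Fin C ≃ (Fin k ↪o Fin n)) (M : Matrix (Fin k) (Fin k) F)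
    (u : Fin k → Fin n → F) :
    FA.Subspace.wedge e (fun i => ∑ j, M i j • u j) = M.det • FA.Subspace.wedge e u := by
  funext σ
  rw [Pi.smul_apply, smul_eq_mul, FA.Subspace.wedge, FA.Subspace.wedge, ← det_mul]
  congr 1
  ext i j
  simp [mul_apply, Finset.sum_apply]

theorem wedge_basis_linearIndependent {C k : ℕ} (e : Fin C ≃ (Fin k ↪o Fin n))
    {w : Fin n → Fin n → F} (hw : LinearIndependent F w) :
    LinearIndependent F fun τ => FA.Subspace.wedge e fun i => w (e τ i) := by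
  have h := ((exteriorPower.ιMulti_family_linearIndependent_field (n := k) hw).comp
    (fun τ => Set.powersetCard.ofFinEmbEquiv (e τ))
    (Set.powersetCard.ofFinEmbEquiv.injective.comp e.injective)).map'
    (FA.Subspace.coordEquiv e).toLinearMap (FA.Subspace.coordEquiv e).ker
  have e' : (fun τ => FA.Subspace.wedge e fun i => w (e τ i)) =
      ⇑(FA.Subspace.coordEquiv e).toLinearMap ∘
        exteriorPower.ιMulti_family F k w ∘ fun τ => Set.powersetCard.ofFinEmbEquiv (e τ) := by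
    funext τ
    simp [exteriorPower.ιMulti_family, FA.Subspace.coordEquiv_ιMulti, Function.comp_def]
  rw [e']
  exact h

/-- Polynomial times geometric with small ratio tends to `0`. -/
theorem tendsto_poly_geometric (C : ℝ) (d : ℕ) {q : ℝ} (h0 : 0 ≤ q) (h1 : q < 1) :
    Tendsto (fun N : ℕ => C * ((N : ℝ) + 1) ^ d * q ^ N) atTop (𝓝 0) := by
  rcases eq_or_lt_of_le h0 with rfl | hq
  · refine tendsto_const_nhds.congr' ((eventually_gt_atTop 0).mono fun N hN => ?_)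
    simp [zero_pow (Nat.pos_iff_ne_zero.1 hN)]
  have h2 : Tendsto (fun N : ℕ => (N : ℝ) ^ d * q ^ N) atTop (𝓝 0) :=
    tendsto_pow_const_mul_const_pow_of_abs_lt_one d (by rwa [abs_of_pos hq])
  have h3 : Tendsto (fun N : ℕ => C * q⁻¹ * (((N + 1 : ℕ) : ℝ) ^ d * q ^ (N + 1))) atTop (𝓝 0) := by
    have := ((h2.comp (tendsto_add_atTop_nat 1)).const_mul (C * q⁻¹))
    rwa [mul_zero] at this
  refine h3.congr fun N => ?_
  rw [pow_succ]
  push_cast
  field_simp

/-- Exponential growth cannot hide below a smaller base times a power. -/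
theorem le_of_pow_le {a b C : ℝ} {d : ℕ} (hb : 0 ≤ b)
    (h : ∀ N : ℕ, a ^ N ≤ C * ((N : ℝ) + 1) ^ d * b ^ N) : a ≤ b := by
  by_contra! hab
  have ha : 0 < a := hb.trans_lt hab
  have ht := tendsto_poly_geometric C d (q := b / a) (by positivity) ((div_lt_one ha).2 hab)
  obtain ⟨N, hN⟩ := (ht.eventually (eventually_lt_nhds one_pos)).exists
  rw [div_pow, mul_div, div_lt_one (pow_pos ha N)] at hN
  exact absurd (h N) (not_le.2 hN)

variable [IsAlgClosed F]

/-- A basis adapted to the largest absolute value of an eigenvalue. -/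
theorem exists_adapted_basis {A : Matrix (Fin n) (Fin n) F} (hA : IsUnit A.det) {μ : F}
    (hroot : A.charpoly.IsRoot μ) (hμ : 1 < ‖μ‖) :
    ∃ (r r' : ℝ) (B : Module.Basis (Fin n) F (Fin n → F)) (top : Finset (Fin n)),
      1 < r ∧ 0 ≤ r' ∧ r' < r ∧ top.Nonempty ∧
      (∀ i ∈ top, ∀ l ∉ top, B.repr (A *ᵥ B i) l = 0) ∧
      (∀ i, ∃ (c : ℝ) (d : ℕ), 0 ≤ c ∧ ∀ N : ℕ,
        ‖A ^ N *ᵥ B i‖ ≤ c * ((N : ℝ) + 1) ^ d * r ^ N) ∧
      (∀ i ∉ top, ∃ (c : ℝ) (d : ℕ), 0 ≤ c ∧ ∀ N : ℕ,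
        ‖A ^ N *ᵥ B i‖ ≤ c * ((N : ℝ) + 1) ^ d * r' ^ N) ∧
      ∀ i ∈ top, ∃ (c : ℝ) (d : ℕ), 0 ≤ c ∧ ∀ N : ℕ,
        ‖A⁻¹ ^ N *ᵥ B i‖ ≤ c * ((N : ℝ) + 1) ^ d * r⁻¹ ^ N := by
  classical
  have hne : A.charpoly ≠ 0 := A.charpoly_monic.ne_zero
  set roots := A.charpoly.roots.toFinset with hroots
  have hmem : μ ∈ roots := Multiset.mem_toFinset.2 ((Polynomial.mem_roots hne).2 hroot)
  have hroots0 : ∀ ν ∈ roots, ν ≠ 0 := fun ν hν h0 => by
    have h1 := (Polynomial.mem_roots hne).1 (Multiset.mem_toFinset.1 hν)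
    rw [h0, ← Matrix.mem_spectrum_iff_isRoot_charpoly] at h1
    exact (spectrum.zero_notMem_iff F).2 ((Matrix.isUnit_iff_isUnit_det A).2 hA) h1
  obtain ⟨μ₁, hμ₁, hmax⟩ := roots.exists_max_image (fun ν => ‖ν‖) ⟨μ, hmem⟩
  set r := ‖μ₁‖
  have hr1 : 1 < r := hμ.trans_le (hmax μ hmem)
  have hr0 : 0 < r := one_pos.trans hr1
  set S := roots.filter fun ν => ‖ν‖ = r
  set S' := roots.filter fun ν => ‖ν‖ < r
  obtain ⟨r', hr'0, hr', hrest'⟩ : ∃ r', 0 ≤ r' ∧ r' < r ∧ ∀ ν ∈ S', ‖ν‖ ≤ r' := by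
    rcases S'.eq_empty_or_nonempty with h' | h'
    · exact ⟨0, le_rfl, hr0, by simp [h']⟩
    · obtain ⟨ν, hν, hνmax⟩ := S'.exists_max_image (fun ν => ‖ν‖) h'
      exact ⟨‖ν‖, norm_nonneg _, (mem_filter.1 hν).2, hνmax⟩
  generalize hE : Module.End.maxGenEigenspace (Matrix.toLin' A) = E
  set W := ⨆ ν ∈ S, E ν
  set W' := ⨆ ν ∈ S', E ν
  have hdisj : Disjoint W W' := by
    have hsep : Disjoint (S : Set F) (S' : Set F) :=
      Set.disjoint_left.2 fun ν h1 h2 => ((mem_filter.1 h2).2).ne (mem_filter.1 h1).2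
    have hi : iSupIndep E := hE ▸ Module.End.independent_maxGenEigenspace (Matrix.toLin' A)
    simpa [W, W'] using hi.disjoint_biSup_biSup' hsep S.finite_toSet
  have hspan : W ⊔ W' = ⊤ := by
    have hsup : ⨆ ν, E ν = ⊤ :=
      hE ▸ Module.End.iSup_maxGenEigenspace_eq_top (Matrix.toLin' A)
    rw [eq_top_iff, ← hsup]
    refine iSup_le fun ν => ?_
    by_cases hν : E ν = ⊥
    · exact hν.le.trans bot_le
    rw [← hE] at hν
    have hν' : ν ∈ roots := by
      rw [hroots, Multiset.mem_toFinset, Polynomial.mem_roots hne,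
        ← Matrix.mem_spectrum_iff_isRoot_charpoly, ← Matrix.spectrum_toLin',
        ← Module.End.hasEigenvalue_iff_mem_spectrum]
      exact (Module.End.hasUnifEigenvalue_iff_hasUnifEigenvalue_one WithTop.top_pos).1 hν
    rcases eq_or_lt_of_le (hmax ν hν') with h | h
    · have hS : ν ∈ S := by rw [mem_filter]; exact ⟨hν', h⟩
      exact le_sup_of_le_left (le_iSup₂ (f := fun x (_ : x ∈ S) => E x) ν hS)
    · have hS : ν ∈ S' := by rw [mem_filter]; exact ⟨hν', h⟩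
      exact le_sup_of_le_right (le_iSup₂ (f := fun x (_ : x ∈ S') => E x) ν hS)
  obtain ⟨b, hbsub, hbspan, hbli⟩ :=
    exists_linearIndependent F ((W : Set (Fin n → F)) ∪ (W' : Set (Fin n → F)))
  have hbtop : Submodule.span F b = ⊤ := by
    rw [hbspan, Submodule.span_union, Submodule.span_eq, Submodule.span_eq, hspan]
  let B₀ : Module.Basis b F (Fin n → F) := Module.Basis.mk hbli (by simp [hbtop])
  have : Fintype b := FiniteDimensional.fintypeBasisIndex B₀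
  let B := B₀.reindex (Fintype.equivFinOfCardEq (by
    rw [← Module.finrank_eq_card_basis B₀, Module.finrank_fin_fun]))
  have hw : ∀ l, B l ∈ W ∨ B l ∈ W' := fun l => by
    simp only [B, Module.Basis.reindex_apply, B₀, Module.Basis.mk_apply]
    exact hbsub (Subtype.prop _)
  set top : Finset (Fin n) := univ.filter fun l => B l ∈ W
  have htop : ∀ l ∈ top, B l ∈ W := fun l hl => (mem_filter.1 hl).2
  have hrest : ∀ l ∉ top, B l ∈ W' := fun l hl =>
    (hw l).resolve_left fun h => hl (mem_filter.2 ⟨mem_univ l, h⟩)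
  have htopW : ∀ x ∈ W, ∀ l ∉ top, B.repr x l = 0 := by
    intro x hx l hl
    have h2 : ∑ l ∈ univ.filter (fun l => l ∉ top), B.repr x l • B l = 0 := by
      refine Submodule.disjoint_def.1 hdisj _ ?_ (sum_mem fun l hl => W'.smul_mem _
        (hrest l (mem_filter.1 hl).2))
      have h := sum_filter_add_sum_filter_not univ (fun l => l ∈ top) fun l => B.repr x l • B l
      rw [B.sum_repr] at h
      rw [eq_sub_of_add_eq' h]
      exact W.sub_mem hx (sum_mem fun l hl => W.smul_mem _ (htop l (mem_filter.1 hl).2))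
    exact linearIndependent_iff'.1 B.linearIndependent _ _ h2 l (by simp [hl])
  have hAW : ∀ x ∈ W, A *ᵥ x ∈ W := fun x hx => by
    induction hx using Submodule.iSup_induction' with
    | mem ν y hy =>
      refine le_iSup (fun ν => ⨆ _ : ν ∈ S, E ν) ν ?_
      by_cases hν : ν ∈ S
      · rw [iSup_pos hν, ← hE] at hy ⊢
        exact Module.End.mapsTo_maxGenEigenspace_of_comm (Commute.refl (Matrix.toLin' A)) ν hy
      · rw [iSup_neg hν, Submodule.mem_bot] at hy ⊢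
        rw [hy, mulVec_zero]
    | zero => rw [mulVec_zero]; exact W.zero_mem
    | add y z _ _ hy hz => rw [mulVec_add]; exact W.add_mem hy hz
  have hne' : top.Nonempty := by
    rw [nonempty_iff_ne_empty]
    intro htop'
    have hW : W = ⊥ := le_bot_iff.1 fun x hx => by
      rw [Submodule.mem_bot, ← B.sum_repr x]
      exact sum_eq_zero fun l _ => by rw [htopW x hx l (by simp [htop']), zero_smul]
    have hS : μ₁ ∈ S := by rw [mem_filter]; exact ⟨hμ₁, rfl⟩
    have h1 : E μ₁ ≤ ⊥ := (le_iSup₂ (f := fun x (_ : x ∈ S) => E x) μ₁ hS).trans hW.le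
    have h2 : Module.End.HasEigenvalue (Matrix.toLin' A) μ₁ := by
      rw [Module.End.hasEigenvalue_iff_mem_spectrum, Matrix.spectrum_toLin',
        Matrix.mem_spectrum_iff_isRoot_charpoly]
      exact (Polynomial.mem_roots hne).1 (Multiset.mem_toFinset.1 hμ₁)
    rw [← hE] at h1
    exact h2 (le_bot_iff.1
      ((Module.End.eigenspace_le_maxGenEigenspace (f := Matrix.toLin' A)).trans h1))
  subst hE
  have hS0 : ∀ ν ∈ S, ν ≠ 0 := fun ν hν => hroots0 ν (mem_filter.1 hν).1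
  have hS'0 : ∀ ν ∈ S', ν ≠ 0 := fun ν hν => hroots0 ν (mem_filter.1 hν).1
  refine ⟨r, r', B, top, hr1, hr'0, hr', hne', fun i hi l hl => htopW _ (hAW _ (htop i hi)) l hl,
    fun i => ?_, fun i hi => (exists_bound_iSup hA hrest' hS'0 (hrest i hi)).1, fun i hi =>
      (exists_bound_iSup hA (fun ν hν => (mem_filter.1 hν).2.le) hS0 (htop i hi)).2
        (fun ν hν => (mem_filter.1 hν).2.ge) hr0⟩
  rcases hw i with h | h
  · exact (exists_bound_iSup hA (fun ν hν => (mem_filter.1 hν).2.le) hS0 h).1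
  · exact (exists_bound_iSup hA (fun ν hν => (mem_filter.1 hν).2.le) hS'0 h).1

omit [IsAlgClosed F] in
/-- A bound on a wedge from bounds on its vectors. -/
theorem exists_bound_wedge {C k : ℕ} (e : Fin C ≃ (Fin k ↪o Fin n))
    (M : Matrix (Fin n) (Fin n) F) (x : Fin k → Fin n → F) (ρ : Fin k → ℝ)
    (hx : ∀ i, ∃ (c : ℝ) (d : ℕ), 0 ≤ c ∧ ∀ N : ℕ,
      ‖M ^ N *ᵥ x i‖ ≤ c * ((N : ℝ) + 1) ^ d * ρ i ^ N) :
    ∃ (c : ℝ) (d : ℕ), ∀ N : ℕ, ‖FA.Subspace.compound e M ^ N *ᵥ FA.Subspace.wedge e x‖ ≤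
      c * ((N : ℝ) + 1) ^ d * (∏ i, ρ i) ^ N := by
  choose c d hc hbd using hx
  refine ⟨k.factorial * ∏ i, c i, ∑ i, d i, fun N => ?_⟩
  rw [compound_pow, FA.Subspace.compound_mulVec_wedge]
  refine (norm_wedge_le _ _).trans ?_
  rw [mul_assoc, mul_assoc, ← mul_assoc (∏ i, c i)]
  refine mul_le_mul_of_nonneg_left ?_ (by positivity)
  rw [← prod_pow_eq_pow_sum, ← prod_pow, ← prod_mul_distrib, ← prod_mul_distrib]
  exact prod_le_prod (fun i _ => norm_nonneg _) fun i _ => hbd i N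

/-- **A rank one limit.** -/
theorem exists_dominant {A : Matrix (Fin n) (Fin n) F} (hA : IsUnit A.det) {μ : F}
    (hroot : A.charpoly.IsRoot μ) (hμ : 1 < ‖μ‖) :
    ∃ (C k : ℕ) (e : Fin C ≃ (Fin k ↪o Fin n)) (Λ : F) (v φ : Fin C → F),
      1 < ‖Λ‖ ∧ φ ⬝ᵥ v = 1 ∧ ∀ x, Tendsto
        (fun N : ℕ => (Λ ^ N)⁻¹ • (FA.Subspace.compound e A ^ N *ᵥ x)) atTop
        (𝓝 ((φ ⬝ᵥ x) • v)) := by
  classical
  obtain ⟨r, r', B, top, hr1, hr'0, hr', hne, hinv, hup, hlow, hdown⟩ :=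
    exists_adapted_basis hA hroot hμ
  have hr0 : 0 < r := one_pos.trans hr1
  generalize hk : top.card = k
  have hk0 : k ≠ 0 := hk ▸ hne.card_pos.ne'
  obtain ⟨C, ⟨e'⟩⟩ := Finite.exists_equiv_fin (Fin k ↪o Fin n)
  set o := top.orderEmbOfFin hk
  set e : Fin C ≃ (Fin k ↪o Fin n) := e'.symm
  set τ₀ := e.symm o
  have hτ₀ : ∀ i, e τ₀ i = o i := fun i => by simp [τ₀]
  set u : Fin k → Fin n → F := fun i => B (o i)
  set M : Matrix (Fin k) (Fin k) F := Matrix.of fun i j => B.repr (A *ᵥ u i) (o j)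
  have hAu : ∀ i, A *ᵥ u i = ∑ j, M i j • u j := fun i => by
    conv_lhs => rw [← B.sum_repr (A *ᵥ u i)]
    rw [← sum_subset (subset_univ top) fun l _ hl => by
      rw [hinv _ (top.orderEmbOfFin_mem hk i) l hl, zero_smul]]
    conv_lhs => rw [← map_orderEmbOfFin_univ top hk, sum_map]
    rfl
  set v := FA.Subspace.wedge e u
  set T := FA.Subspace.compound e A with hT
  set Λ := M.det
  have hTv : T *ᵥ v = Λ • v := by
    rw [hT, FA.Subspace.compound_mulVec_wedge, funext hAu, wedge_sum]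
  have hTN : ∀ N : ℕ, T ^ N *ᵥ v = Λ ^ N • v := fun N => by
    induction N with
    | zero => rw [pow_zero, pow_zero, one_mulVec, one_smul]
    | succ N ih => rw [pow_succ', ← mulVec_mulVec, ih, mulVec_smul, hTv, smul_smul, ← pow_succ]
  have hli := wedge_basis_linearIndependent e B.linearIndependent
  have : Nonempty (Fin C) := ⟨τ₀⟩
  let BC := basisOfLinearIndependentOfCardEqFinrank hli (by simp)
  have hBC : ∀ τ, BC τ = FA.Subspace.wedge e fun i => B (e τ i) := fun τ => by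
    simp [BC]
  have hv : BC τ₀ = v := by
    rw [hBC]
    exact congrArg _ (funext fun i => by rw [hτ₀])
  have hv0 : 0 < ‖v‖ := norm_pos_iff.2 (hv ▸ BC.ne_zero τ₀)
  have hΛ0 : Λ ≠ 0 := fun h0 => by
    have h := hTv
    rw [h0, zero_smul] at h
    have h1 := congrArg (FA.Subspace.compound e A⁻¹ *ᵥ ·) h
    simp only [mulVec_zero, mulVec_mulVec, hT, ← FA.Subspace.compound_mul, nonsing_inv_mul _ hA,
      FA.Subspace.compound_one, one_mulVec] at h1
    exact hv0.ne' (by rw [h1, norm_zero])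
  have hΛ : ‖Λ‖ = r ^ k := by
    obtain ⟨c, d, hc⟩ := exists_bound_wedge e A u (fun _ => r) fun i => hup (o i)
    obtain ⟨c', d', hc'⟩ := exists_bound_wedge e A⁻¹ u (fun _ => r⁻¹) fun i =>
      hdown (o i) (top.orderEmbOfFin_mem hk i)
    refine le_antisymm (le_of_pow_le (C := c / ‖v‖) (d := d) (by positivity) fun N => ?_) ?_
    · have h := hc N
      rw [← hT, hTN, norm_smul, norm_pow, prod_const, card_univ, Fintype.card_fin] at h
      rw [div_mul_eq_mul_div, div_mul_eq_mul_div, le_div_iff₀ hv0]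
      exact h
    have h1 : ‖Λ‖⁻¹ ≤ (r ^ k)⁻¹ := by
      refine le_of_pow_le (C := c' / ‖v‖) (d := d') (by positivity) fun N => ?_
      have hcomm : Commute (FA.Subspace.compound e A⁻¹) T := by
        show _ * _ = _ * _
        rw [hT, ← FA.Subspace.compound_mul, ← FA.Subspace.compound_mul, nonsing_inv_mul _ hA,
          mul_nonsing_inv _ hA]
      have hone : FA.Subspace.compound e A⁻¹ ^ N *ᵥ (T ^ N *ᵥ v) = v := by
        rw [mulVec_mulVec, ← hcomm.mul_pow, hT, ← FA.Subspace.compound_mul, nonsing_inv_mul _ hA,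
          FA.Subspace.compound_one, one_pow, one_mulVec]
      rw [hTN, mulVec_smul] at hone
      have hi : FA.Subspace.compound e A⁻¹ ^ N *ᵥ v = (Λ ^ N)⁻¹ • v :=
        (eq_inv_smul_iff₀ (pow_ne_zero _ hΛ0)).2 hone
      have h := hc' N
      rw [hi, norm_smul, norm_inv, norm_pow, prod_const, card_univ, Fintype.card_fin,
        inv_pow r k] at h
      rw [div_mul_eq_mul_div, div_mul_eq_mul_div, le_div_iff₀ hv0, inv_pow]
      exact h
    exact (inv_le_inv₀ (norm_pos_iff.2 hΛ0) (by positivity)).1 h1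
  set φ : Fin C → F := fun σ => BC.repr (Pi.single σ 1) τ₀
  have hφ : ∀ x, φ ⬝ᵥ x = BC.repr x τ₀ := fun x => by
    conv_rhs => rw [← (Pi.basisFun F (Fin C)).sum_repr x]
    simp [φ, dotProduct, mul_comm]
  refine ⟨C, k, e, Λ, v, φ, hΛ ▸ one_lt_pow₀ hr1 hk0,
    by rw [hφ, ← hv, Module.Basis.repr_self, Finsupp.single_eq_same], fun x => ?_⟩
  have hlim : ∀ τ, Tendsto (fun N : ℕ => (Λ ^ N)⁻¹ • (T ^ N *ᵥ BC τ)) atTop
      (𝓝 (if τ = τ₀ then v else 0)) := by
    intro τ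
    split_ifs with h
    · subst h
      refine tendsto_const_nhds.congr fun N => ?_
      rw [hv, hTN, smul_smul, inv_mul_cancel₀ (pow_ne_zero _ hΛ0), one_smul]
    obtain ⟨i₀, hi₀⟩ : ∃ i, e τ i ∉ top := by
      by_contra! hall
      exact h (by rw [← e.symm_apply_apply τ, Finset.orderEmbOfFin_unique' hk hall])
    obtain ⟨c, d, hc⟩ := exists_bound_wedge e A (fun i => B (e τ i))
      (fun i => if i = i₀ then r' else r) fun i => by
        by_cases hi : i = i₀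
        · subst hi
          simp only [if_true]
          exact hlow _ hi₀
        · simpa [hi] using hup (e τ i)
    rw [hBC]
    refine squeeze_zero_norm (fun N => ?_) (tendsto_poly_geometric c d (q := r' / r)
      (by positivity) ((div_lt_one hr0).2 hr'))
    rw [norm_smul, norm_inv, norm_pow, hΛ, inv_mul_le_iff₀ (by positivity)]
    refine (hc N).trans_eq ?_
    have hprod : (∏ i, if i = i₀ then r' else r) = r' / r * r ^ k := by
      rw [← mul_prod_erase univ (fun i => if i = i₀ then r' else r) (mem_univ i₀),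
        prod_congr rfl (g := fun _ => r) fun i hi => if_neg (mem_erase.1 hi).1, prod_const,
        card_erase_of_mem (mem_univ i₀), card_univ, Fintype.card_fin, if_pos rfl]
      conv_rhs => rw [show k = (k - 1) + 1 by omega, pow_succ]
      field_simp
    rw [hprod, mul_pow]
    ring
  have hx : ∀ N : ℕ, (Λ ^ N)⁻¹ • (T ^ N *ᵥ x) =
      ∑ τ, BC.repr x τ • ((Λ ^ N)⁻¹ • (T ^ N *ᵥ BC τ)) := fun N => by
    conv_lhs => rw [← BC.sum_repr x]
    rw [mulVec_sum, smul_sum]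
    exact sum_congr rfl fun τ _ => by rw [mulVec_smul, smul_comm]
  rw [funext hx]
  have h := tendsto_finsetSum univ fun τ _ => (hlim τ).const_smul (BC.repr x τ)
  rw [hφ]
  simpa using h

end FA.TitsAlternative

end
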