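import Mathlib.FieldTheory.IsAlgClosed.Classification
import Mathlib.FieldTheory.RatFunc.AsPolynomial
import Mathlib.NumberTheory.Padics.Complex
import Mathlib.NumberTheory.NumberField.InfinitePlace.Embeddings
import Mathlib.Analysis.Complex.Cardinality
import Mathlib.Analysis.Complex.Polynomial.Basic
import Mathlib.Topology.Algebra.Module.Cardinality
import Mathlib.RingTheory.Algebraic.Cardinality
import Mathlib.Algebra.AlgebraicCard
import Mathlib.RingTheory.AlgebraicIndependent.Transcendental
import Mathlib.RingTheory.IntegralClosure.IntegrallyClosed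

/-!
# An absolute value that moves a given number

If `z` in a countable field of characteristic zero is not a root of unity, some embedding into `ℂ`
or an algebraic closure of some `ℚ_q` takes it off the unit circle: for transcendental `z` any
transcendental image will do, for an algebraic integer this is Kronecker's theorem, and otherwise a
coefficient of its minimal polynomial is large at some prime.
-/

set_option autoImplicit false
set_option linter.style.haveILetI false

noncomputable section

open Cardinal Polynomial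

namespace FA.TitsAlternative

/-- Embeddings of countable fields extend to countable extensions. -/
theorem exists_ringHom_extending {k K : Type} {F : Type} [Field k] [Countable k] [Field K]
    [Countable K] [Field F] [IsAlgClosed F] (hF : ℵ₀ < #F) (a : k →+* K) (b : k →+* F) :
    ∃ ι : K →+* F, ι.comp a = b := by
  classical
  let : Algebra k K := a.toAlgebra
  let : Algebra k F := b.toAlgebra
  obtain ⟨t, ht⟩ := exists_isTranscendenceBasis k K
  obtain ⟨s, hs⟩ := exists_isTranscendenceBasis k F
  have hs' : ℵ₀ ≤ #s :=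
    (IsAlgClosed.cardinal_eq_cardinal_transcendence_basis_of_aleph0_lt' _ hs
      Cardinal.mk_le_aleph0 hF) ▸ hF.le
  haveI : Infinite s := Cardinal.infinite_iff.2 hs'
  obtain ⟨g, hg⟩ := Countable.exists_injective_nat (↥t)
  have hind : AlgebraicIndependent k fun j : t => ((Infinite.natEmbedding s (g j) : s) : F) :=
    hs.1.comp _ ((Infinite.natEmbedding s).injective.comp hg)
  let A := MvPolynomial t k
  let : Algebra A K := (MvPolynomial.aeval ((↑) : t → K)).toRingHom.toAlgebra
  let : Algebra A F :=
    (MvPolynomial.aeval fun j : t => ((Infinite.natEmbedding s (g j) : s) : F)).toRingHom.toAlgebra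
  haveI : Algebra.IsAlgebraic A K := by
    haveI := ht.isAlgebraic
    refine ⟨fun z => ?_⟩
    have hz := Algebra.IsAlgebraic.isAlgebraic (R := Algebra.adjoin k (Set.range ((↑) : t → K))) z
    exact hz.of_ringHom_of_comp_eq (ht.1.aevalEquiv : A →+* _) (RingHom.id K)
      ht.1.aevalEquiv.surjective Function.injective_id (RingHom.ext fun p => rfl)
  haveI : Module.IsTorsionFree A K := Module.isTorsionFree_iff_algebraMap_injective.2 ht.1
  haveI : Module.IsTorsionFree A F := Module.isTorsionFree_iff_algebraMap_injective.2 hind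
  refine ⟨(IsAlgClosed.lift (R := A) (S := K) (M := F)).toRingHom, RingHom.ext fun x => ?_⟩
  have h := (IsAlgClosed.lift (R := A) (S := K) (M := F)).commutes (MvPolynomial.C x)
  simp only [RingHom.algebraMap_toAlgebra, AlgHom.toRingHom_eq_coe, RingHom.coe_coe] at h
  exact ((congrArg _ (MvPolynomial.aeval_C _ x)).symm.trans h).trans (MvPolynomial.aeval_C _ x)

theorem aleph0_lt_complex : ℵ₀ < #ℂ := by
  rw [Cardinal.mk_complex]
  exact Cardinal.aleph0_lt_continuum

theorem aleph0_lt_padicAlgCl (q : ℕ) [Fact q.Prime] : ℵ₀ < #(PadicAlgCl q) :=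
  (Cardinal.aleph0_lt_continuum.trans_le
    (continuum_le_cardinal_of_nontriviallyNormedField ℚ_[q])).trans_le
      (Cardinal.mk_le_of_injective (algebraMap ℚ_[q] (PadicAlgCl q)).injective)

/-- A rational that is not an integer is large at some prime. -/
theorem exists_one_lt_padicNorm {r : ℚ} (hr : r.den ≠ 1) :
    ∃ (q : ℕ) (_ : Fact q.Prime), 1 < ‖(r : ℚ_[q])‖ := by
  obtain ⟨q, hq, hqd⟩ := Nat.exists_prime_and_dvd hr
  have := Fact.mk hq
  refine ⟨q, this, not_le.1 fun hle => ?_⟩
  have hnum : ¬ q ∣ r.num.natAbs := fun h =>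
    hq.ne_one (Nat.eq_one_of_dvd_one (r.reduced ▸ Nat.dvd_gcd h hqd))
  have h1 : (r : ℚ_[q]) * ((r.den : ℤ) : ℚ_[q]) = ((r.num : ℤ) : ℚ_[q]) := by
    have h := congrArg (fun x : ℚ => (x : ℚ_[q])) (Rat.mul_den_eq_num r)
    push_cast at h ⊢
    exact h
  have h2 : ‖((r.den : ℤ) : ℚ_[q])‖ < 1 := (Padic.norm_intCast_lt_one_iff).2 (Int.natCast_dvd.2
    (by simpa using hqd))
  have h3 : ‖((r.num : ℤ) : ℚ_[q])‖ = 1 :=
    le_antisymm (Padic.norm_int_le_one _) (not_lt.1 fun h =>
      hnum (Int.natCast_dvd.1 ((Padic.norm_intCast_lt_one_iff).1 h)))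
  rw [← h1, norm_mul] at h3
  nlinarith [norm_nonneg (r : ℚ_[q]), norm_nonneg ((r.den : ℤ) : ℚ_[q])]

/-- A monic polynomial with small roots has small coefficients. -/
theorem norm_coeff_le_one {q : ℕ} [Fact q.Prime] {f : (PadicAlgCl q)[X]} (hf : f.Monic)
    (hroots : ∀ x, f.IsRoot x → ‖x‖ ≤ 1) (i : ℕ) : ‖f.coeff i‖ ≤ 1 := by
  have key : ∀ s : Multiset (PadicAlgCl q), (∀ x ∈ s, ‖x‖ ≤ 1) → ∀ i,
      ‖((s.map fun a => X - C a).prod).coeff i‖ ≤ 1 := fun s => by
    induction s using Multiset.induction_on with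
    | empty =>
      intro _ i
      rw [Multiset.map_zero, Multiset.prod_zero, coeff_one]
      split_ifs <;> simp
    | cons a s ih =>
      intro hs i
      rw [Multiset.map_cons, Multiset.prod_cons, sub_mul, coeff_sub, coeff_C_mul, sub_eq_add_neg]
      refine (IsUltrametricDist.norm_add_le_max _ _).trans (max_le ?_ ?_) <;>
        have ih' := ih (fun x hx => hs x (Multiset.mem_cons_of_mem hx))
      · cases i with
        | zero => simp
        | succ i => rw [coeff_X_mul]; exact ih' i
      · rw [norm_neg, norm_mul]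
        exact mul_le_one₀ (hs a (Multiset.mem_cons_self a s)) (norm_nonneg _) (ih' i)
  rw [(IsAlgClosed.splits f).eq_prod_roots_of_monic hf]
  exact key _ (fun x hx => hroots x (isRoot_of_mem_roots hx)) i

/-- **An embedding off the unit circle.** -/
theorem exists_norm_ne_one {K : Type} [Field K] [CharZero K] [Countable K] {z : K}
    (hz : ¬ IsOfFinOrder z) :
    (∃ ι : K →+* ℂ, ‖ι z‖ ≠ 1) ∨
      ∃ (q : ℕ) (_ : Fact q.Prime) (ι : K →+* PadicAlgCl q), ‖ι z‖ ≠ 1 := by
  by_cases htr : Transcendental ℚ z
  · left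
    obtain ⟨w, hw1, hw⟩ : ∃ w : ℂ, ‖w‖ ≠ 1 ∧ Transcendental ℚ w := by
      by_contra! h
      have hsub : ((↑) : ℝ → ℂ) '' Set.Ioi 2 ⊆ {w : ℂ | IsAlgebraic ℚ w} := by
        rintro _ ⟨t, ht, rfl⟩
        have ht' : (2 : ℝ) < t := ht
        by_contra halg
        refine h (t : ℂ) ?_ halg
        rw [Complex.norm_real, Real.norm_of_nonneg (by linarith)]
        linarith
      have hc : (Set.Ioi (2 : ℝ)).Countable :=
        Set.countable_of_injective_of_countable_image Complex.ofReal_injective.injOn
          ((Algebraic.countable ℚ ℂ).mono hsub)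
      exact absurd (Cardinal.le_aleph0_iff_set_countable.2 hc) (by
        rw [Cardinal.mk_Ioi_real]; exact not_le.2 Cardinal.aleph0_lt_continuum)
    have : Countable (RatFunc ℚ) := by
      have : Countable ℚ[X] := Cardinal.mk_le_aleph0_iff.1
        (Polynomial.cardinalMk_le_max.trans (max_le Cardinal.mk_le_aleph0 le_rfl))
      exact Function.Surjective.countable
        (f := fun x : ℚ[X] × ℚ[X] => algebraMap ℚ[X] (RatFunc ℚ) x.1 / algebraMap _ _ x.2)
        fun x => ⟨(x.num, x.denom), x.num_div_denom⟩
    set a : RatFunc ℚ →+* K :=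
      RatFunc.liftRingHom (aeval z).toRingHom fun p hp => by
        simpa [mem_nonZeroDivisors_iff_ne_zero] using fun h0 =>
          htr ⟨p, nonZeroDivisors.ne_zero hp, h0⟩
    set b : RatFunc ℚ →+* ℂ :=
      RatFunc.liftRingHom (aeval w).toRingHom fun p hp => by
        simpa [mem_nonZeroDivisors_iff_ne_zero] using fun h0 =>
          hw ⟨p, nonZeroDivisors.ne_zero hp, h0⟩
    obtain ⟨ι, hι⟩ := exists_ringHom_extending aleph0_lt_complex a b
    refine ⟨ι, ?_⟩
    have h := congrArg (fun f : RatFunc ℚ →+* ℂ => f (algebraMap ℚ[X] (RatFunc ℚ) X)) hι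
    simp only [a, b, RingHom.comp_apply, RatFunc.liftRingHom_algebraMap, AlgHom.toRingHom_eq_coe,
      RingHom.coe_coe, aeval_X] at h
    rwa [h]
  · have halg : IsIntegral ℚ z := (not_not.1 htr : IsAlgebraic ℚ z).isIntegral
    set f := minpoly ℚ z
    have : Fact (Irreducible f) := ⟨minpoly.irreducible halg⟩
    set k := AdjoinRoot f
    have : FiniteDimensional ℚ k := (AdjoinRoot.powerBasis (minpoly.ne_zero halg)).finite
    have : CharZero k := charZero_of_injective_algebraMap (algebraMap ℚ k).injective
    have : NumberField k := ⟨⟩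
    have : Countable ℚ[X] := Cardinal.mk_le_aleph0_iff.1
      (Polynomial.cardinalMk_le_max.trans (max_le Cardinal.mk_le_aleph0 le_rfl))
    have : Countable k := (AdjoinRoot.mk_surjective (g := f)).countable
    set a : k →+* K := (AdjoinRoot.liftAlgHom f (Algebra.ofId ℚ K) z (minpoly.aeval ℚ z)).toRingHom
    have ha : a (AdjoinRoot.root f) = z := AdjoinRoot.liftAlgHom_root _ _ _ _
    by_cases hint : IsIntegral ℤ z
    · left
      by_contra! h
      obtain ⟨m, hm, hpow⟩ := NumberField.Embeddings.pow_eq_one_of_norm_eq_one k ℂ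
        (x := AdjoinRoot.root f) ((isIntegral_algHom_iff (f := a.toIntAlgHom) a.injective).1
          (by simpa [RingHom.toIntAlgHom] using ha.symm ▸ hint)) fun φ => by
          obtain ⟨ι, hι⟩ := exists_ringHom_extending aleph0_lt_complex a φ
          rw [← hι, RingHom.comp_apply, ha, h]
      refine hz (isOfFinOrder_iff_pow_eq_one.2 ⟨m, hm, ?_⟩)
      rw [← ha, ← map_pow, hpow, map_one]
    · right
      have hden : ∃ i, (f.coeff i).den ≠ 1 := by
        by_contra! h
        refine hint ?_
        obtain ⟨g, hg, -, hgm⟩ := lifts_and_natDegree_eq_and_monic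
          (f := Int.castRingHom ℚ) (p := f) ((lifts_iff_coeff_lifts _).2 fun i =>
            ⟨(f.coeff i).num, (Rat.den_eq_one_iff _).1 (h i)⟩) (minpoly.monic halg)
        refine ⟨g, hgm, ?_⟩
        have h0 : aeval z (g.map (Int.castRingHom ℚ)) = 0 := hg.symm ▸ minpoly.aeval ℚ z
        rwa [show g.map (Int.castRingHom ℚ) = g.map (algebraMap ℤ ℚ) from rfl,
          aeval_map_algebraMap] at h0
      obtain ⟨i, hi⟩ := hden
      obtain ⟨q, hq, hbig⟩ := exists_one_lt_padicNorm hi
      refine ⟨q, hq, ?_⟩
      by_contra! h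
      set j : ℚ →+* PadicAlgCl q := algebraMap ℚ (PadicAlgCl q)
      have hj : j (f.coeff i) = algebraMap ℚ_[q] (PadicAlgCl q) (f.coeff i : ℚ_[q]) :=
        (congrArg (fun φ : ℚ →+* PadicAlgCl q => φ (f.coeff i)) (RingHom.ext_rat j
          ((algebraMap ℚ_[q] (PadicAlgCl q)).comp (Rat.castHom ℚ_[q]))) :)
      have hle := norm_coeff_le_one ((minpoly.monic halg).map j) (fun x hx => ?_) i
      · rw [coeff_map, hj, PadicAlgCl.norm_extends] at hle
        linarith
      have hx' : f.eval₂ j x = 0 := by rw [← eval_map]; exact hx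
      set φ : k →+* PadicAlgCl q := AdjoinRoot.lift j x hx'
      obtain ⟨ι, hι⟩ := exists_ringHom_extending (aleph0_lt_padicAlgCl q) a φ
      have := congrArg (fun g : k →+* PadicAlgCl q => g (AdjoinRoot.root f)) hι
      rw [RingHom.comp_apply, ha] at this
      exact le_of_eq ((congrArg (‖·‖) (this.trans (AdjoinRoot.lift_root hx'))).symm.trans (h ι))

end FA.TitsAlternative

end
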