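import Mathlib.LinearAlgebra.Trace
import Mathlib.LinearAlgebra.FreeModule.Finite.Basic
import Mathlib.LinearAlgebra.FiniteDimensional.Basic
import Mathlib.Algebra.Algebra.Operations
import Mathlib.RingTheory.IntegralClosure.IsIntegralClosure.Basic
import Mathlib.RingTheory.IntegralClosure.Algebra.Basic
import Mathlib.FieldTheory.Minpoly.Field
import Mathlib.GroupTheory.Solvable
import Mathlib.RingTheory.Nilpotent.Basic
import Mathlib.RingTheory.Artinian.Module
import Mathlib.LinearAlgebra.Eigenspace.Minpoly
import Mathlib.LinearAlgebra.FiniteDimensional.Lemmas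

/-!
# Groups of unipotent operators

For a group of unipotent operators in characteristic zero the span `J` of the `g - 1` is closed
under products and has no element with trace other than `0`, so no element of `J` fixes a vector
that is not `0`. Hence a flag is lowered by `J`, so `J ^ N = 0` and the group is solvable (Kolchin).
-/

set_option autoImplicit false

noncomputable section

open Polynomial
open scoped commutatorElement

namespace FA.TitsAlternative

variable {K : Type*} [Field K] [CharZero K] {V : Type*} [AddCommGroup V] [Module K V]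
  [FiniteDimensional K V]

/-- If the positive powers are in a submodule of trace zero, no vector but `0` is fixed. -/
theorem eq_zero_of_trace_pow {a : Module.End K V}
    (h : ∀ k, LinearMap.trace K V (a ^ (k + 1)) = 0) {u : V} (hu : a u = u) : u = 0 := by
  by_contra hu0
  have hint : IsIntegral K a := Algebra.IsIntegral.isIntegral a
  obtain ⟨q, hq, hndvd⟩ := exists_eq_pow_rootMultiplicity_mul_and_not_dvd (minpoly K a)
    (minpoly.ne_zero hint) 0
  rw [map_zero, sub_zero] at hq hndvd
  set k := (minpoly K a).rootMultiplicity 0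
  obtain ⟨f, g, hfg⟩ : IsCoprime ((X : K[X]) ^ (k + 1)) q :=
    ((irreducible_X.coprime_iff_not_dvd).2 hndvd).pow_left
  set e := aeval a (f * X ^ (k + 1))
  have he : e * e = e := by
    have h0 : aeval a (f * g * X * (X ^ k * q)) = 0 := by
      rw [map_mul, ← hq, minpoly.aeval, mul_zero]
    rw [← map_mul, ← sub_eq_zero, ← map_sub, show f * X ^ (k + 1) * (f * X ^ (k + 1)) -
        f * X ^ (k + 1) = -(f * g * X * (X ^ k * q)) by linear_combination (f * X ^ (k + 1)) * hfg,
      map_neg, h0, neg_zero]
  have heu : e u = (f * X ^ (k + 1)).eval 1 • u :=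
    Module.End.aeval_apply_of_mem_apply_eq_smul (by simpa using hu)
  have h1 : (f * X ^ (k + 1)).eval 1 = 1 := by
    have hm : (minpoly K a).eval 1 = 0 := by
      have h2 := Module.End.aeval_apply_of_mem_apply_eq_smul (f := a) (μ := 1) (x := u)
        (p := minpoly K a) (by simpa using hu)
      rw [minpoly.aeval, LinearMap.zero_apply] at h2
      exact (smul_eq_zero.1 h2.symm).resolve_right hu0
    rw [hq, eval_mul, eval_pow, eval_X, one_pow, one_mul] at hm
    have h3 := congrArg (eval (1 : K)) hfg
    rw [eval_add, eval_mul (p := g), hm, mul_zero, add_zero, eval_one] at h3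
    exact h3
  rw [h1, one_smul] at heu
  have hproj : LinearMap.IsProj (LinearMap.range e) e := by
    refine ⟨fun x => LinearMap.mem_range_self e x, ?_⟩
    rintro _ ⟨y, rfl⟩
    rw [← Module.End.mul_apply, he]
  have htr : LinearMap.trace K V e = 0 := by
    have h2 : ∀ f' : K[X], LinearMap.trace K V (aeval a f' * a ^ (k + 1)) = 0 := fun f' => by
      induction f' using Polynomial.induction_on' with
      | add p q hp hq => rw [map_add, add_mul, map_add, hp, hq, add_zero]
      | monomial n c =>
        rw [aeval_monomial, ← Algebra.smul_def, smul_mul_assoc, ← pow_add, map_smul, ← add_assoc,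
          h, smul_zero]
    simp only [e, map_mul, aeval_X_pow, h2]
  rw [hproj.trace, Nat.cast_eq_zero, Submodule.finrank_eq_zero] at htr
  exact hu0 (heu ▸ (Submodule.mem_bot K).1 (htr ▸ LinearMap.mem_range_self e u))

variable {G : Type*} [Group G] (r : G →* Module.End K V)

/-- The span of the `r g - 1`. -/
def augment (D : Subgroup G) : Submodule K (Module.End K V) :=
  Submodule.span K (Set.range fun g : D => r g - 1)

omit [CharZero K] [FiniteDimensional K V] in
theorem augment_mul_le (D : Subgroup G) : augment r D * augment r D ≤ augment r D := by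
  rw [augment, Submodule.span_mul_span, Submodule.span_le]
  rintro _ ⟨_, ⟨g, rfl⟩, _, ⟨h, rfl⟩, rfl⟩
  have heq : (r g - 1) * (r h - 1) = (r (g * h : D) - 1) - (r g - 1) - (r h - 1) := by
    rw [Subgroup.coe_mul, map_mul, sub_mul, mul_sub, mul_sub, mul_one, one_mul, one_mul]
    abel
  show (r g - 1) * (r h - 1) ∈ Submodule.span K _
  rw [heq]
  exact Submodule.sub_mem _ (Submodule.sub_mem _ (Submodule.subset_span ⟨_, rfl⟩)
    (Submodule.subset_span ⟨g, rfl⟩)) (Submodule.subset_span ⟨h, rfl⟩)

/-- No element of the span fixes a vector. -/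
theorem eq_zero_of_mem_augment {D : Subgroup G} (hD : ∀ g ∈ D, IsNilpotent (r g - 1))
    {a : Module.End K V} (ha : a ∈ augment r D) {u : V} (hu : a u = u) : u = 0 := by
  refine eq_zero_of_trace_pow (fun k => ?_) hu
  have hmem : a ^ (k + 1) ∈ augment r D := by
    induction k with
    | zero => rwa [pow_one]
    | succ k ih => exact augment_mul_le r D (pow_succ a (k + 1) ▸ Submodule.mul_mem_mul ih ha)
  generalize a ^ (k + 1) = b at hmem
  induction hmem using Submodule.span_induction with
  | mem x hx =>
    obtain ⟨g, rfl⟩ := hx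
    exact (LinearMap.isNilpotent_trace_of_isNilpotent (hD g g.2)).eq_zero
  | zero => exact map_zero _
  | add x y _ _ hx hy => rw [map_add, hx, hy, add_zero]
  | smul c x _ hx => rw [map_smul, hx, smul_zero]

/-- The flag lowered by the span. -/
def flag (D : Subgroup G) : ℕ → Submodule K V
  | 0 => ⊥
  | i + 1 => ⨅ a ∈ augment r D, (flag D i).comap a

omit [CharZero K] [FiniteDimensional K V] in
theorem mem_flag_succ (D : Subgroup G) (i : ℕ) (x : V) :
    x ∈ flag r D (i + 1) ↔ ∀ a ∈ augment r D, a x ∈ flag r D i := by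
  simp [flag, Submodule.mem_iInf]

omit [CharZero K] [FiniteDimensional K V] in
theorem flag_le_succ (D : Subgroup G) (i : ℕ) : flag r D i ≤ flag r D (i + 1) := by
  induction i with
  | zero => exact bot_le
  | succ i ih =>
    intro x hx
    exact (mem_flag_succ r D _ x).2 fun a ha => ih ((mem_flag_succ r D i x).1 hx a ha)

/-- The flag grows until it is everything. -/
theorem flag_lt_succ {D : Subgroup G} (hD : ∀ g ∈ D, IsNilpotent (r g - 1)) (i : ℕ)
    (hi : flag r D i ≠ ⊤) : flag r D i < flag r D (i + 1) := by
  refine (flag_le_succ r D i).lt_of_not_ge fun hge => ?_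
  set F := flag r D i
  have hinv : ∀ a ∈ augment r D, ∀ x ∈ F, a x ∈ F := fun a ha x hx =>
    (mem_flag_succ r D i x).1 (flag_le_succ r D i hx) a ha
  -- a smallest invariant space above
  obtain ⟨U, ⟨hFU, hU⟩, hmin⟩ := IsArtinian.set_has_minimal
    {U : Submodule K V | F < U ∧ ∀ a ∈ augment r D, ∀ x ∈ U, a x ∈ U}
    ⟨⊤, hi.lt_top, fun _ _ _ _ => Submodule.mem_top⟩
  obtain ⟨u, huU, hu⟩ := SetLike.exists_of_lt hFU
  set W := F ⊔ (augment r D).map (LinearMap.applyₗ u)
  have hWU : W ≤ U := sup_le hFU.le (by rintro _ ⟨a, ha, rfl⟩; exact hU a ha u huU)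
  have hWinv : ∀ a ∈ augment r D, ∀ x ∈ W, a x ∈ W := by
    intro a ha x hx
    obtain ⟨y, hy, z, ⟨b, hb, rfl⟩, rfl⟩ := Submodule.mem_sup.1 hx
    rw [map_add]
    exact Submodule.add_mem_sup (hinv a ha y hy)
      ⟨a * b, augment_mul_le r D (Submodule.mul_mem_mul ha hb), rfl⟩
  rcases eq_or_lt_of_le (le_sup_left : F ≤ W) with h | h
  · refine hu (hge ((mem_flag_succ r D i u).2 fun a ha => ?_))
    show a u ∈ F
    exact h ▸ Submodule.mem_sup_right ⟨a, ha, rfl⟩
  have hWeq : W = U := hWU.eq_of_not_lt (hmin W ⟨h, hWinv⟩)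
  obtain ⟨y, hy, z, ⟨a, ha, rfl⟩, huz⟩ := Submodule.mem_sup.1 (hWeq.symm ▸ huU : u ∈ W)
  -- `a` fixes `u` modulo `F`
  set a' : Module.End K (V ⧸ F) := F.mapQ F a fun x hx => hinv a ha x hx
  refine hu ((Submodule.Quotient.mk_eq_zero F).1 ?_)
  have hfix : a' (Submodule.Quotient.mk u) = Submodule.Quotient.mk u := by
    rw [Submodule.mapQ_apply, Submodule.Quotient.eq]
    have hz : y + a u = u := huz
    rw [show a u - u = -y by
      rw [eq_neg_iff_add_eq_zero, sub_add_eq_add_sub, add_comm, hz, sub_self]]
    exact F.neg_mem hy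
  let r' : D →* Module.End K (V ⧸ F) :=
    { toFun := fun g => F.mapQ F (r g) fun x hx => by
        have h := F.add_mem (hinv _ (Submodule.subset_span ⟨g, rfl⟩) x hx) hx
        simpa using h
      map_one' := by ext x; simp
      map_mul' := fun g h => by ext x; simp }
  have hr' : ∀ g : D, ∀ x, r' g (Submodule.Quotient.mk x) = Submodule.Quotient.mk (r g x) :=
    fun _ _ => rfl
  refine eq_zero_of_mem_augment r' (D := ⊤) (fun g _ => ?_) (a := a') ?_ hfix
  · obtain ⟨N, hN⟩ := hD g g.2
    refine ⟨N, ?_⟩
    have hpow : ∀ (j : ℕ) (x : V), ((r' g - 1) ^ j) (Submodule.Quotient.mk x) =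
        Submodule.Quotient.mk (((r g - 1) ^ j) x) := fun j => by
      induction j with
      | zero => exact fun x => rfl
      | succ j ih =>
        intro x
        rw [pow_succ, pow_succ, Module.End.mul_apply, Module.End.mul_apply,
          LinearMap.sub_apply, LinearMap.sub_apply, Module.End.one_apply, Module.End.one_apply,
          hr', ← Submodule.Quotient.mk_sub, ih]
    ext x
    simp [hpow, hN]
  · have hclosed : ∀ b ∈ augment r D, ∃ b' ∈ augment r' ⊤, ∀ x,
        b' (Submodule.Quotient.mk x) = Submodule.Quotient.mk (b x) := fun b hb => by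
      induction hb using Submodule.span_induction with
      | mem x hx =>
        obtain ⟨g, rfl⟩ := hx
        exact ⟨r' g - 1, Submodule.subset_span ⟨⟨g, trivial⟩, rfl⟩, fun x => by simp [hr']⟩
      | zero => exact ⟨0, zero_mem _, fun x => rfl⟩
      | add x y _ _ hx hy =>
        obtain ⟨b1, h1, e1⟩ := hx
        obtain ⟨b2, h2, e2⟩ := hy
        exact ⟨b1 + b2, add_mem h1 h2, fun z => by simp [e1, e2]⟩
      | smul c x _ hx =>
        obtain ⟨b1, h1, e1⟩ := hx
        exact ⟨c • b1, Submodule.smul_mem _ c h1, fun z => by simp [e1]⟩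
    obtain ⟨b', hb', hbe⟩ := hclosed a ha
    have : a' = b' := by ext x; simp [a', hbe]
    exact this ▸ hb'

theorem exists_flag_eq_top {D : Subgroup G} (hD : ∀ g ∈ D, IsNilpotent (r g - 1)) :
    ∃ N, flag r D N = ⊤ := by
  by_contra! h
  have hmono : ∀ i, i ≤ Module.finrank K (flag r D i) := fun i => by
    induction i with
    | zero => exact Nat.zero_le _
    | succ i ih =>
      exact ih.trans_lt (Submodule.finrank_lt_finrank_of_lt (flag_lt_succ r hD i (h i)))
  exact absurd ((hmono (Module.finrank K V + 1)).trans (Submodule.finrank_le _)) (by omega)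

omit [CharZero K] [FiniteDimensional K V] in
/-- The powers of the span decrease. -/
theorem augment_pow_le (D : Subgroup G) {i j : ℕ} (hi : 1 ≤ i) (hij : i ≤ j) :
    augment r D ^ j ≤ augment r D ^ i := by
  induction hij with
  | refl => exact le_rfl
  | @step j hij ih =>
    obtain ⟨l, rfl⟩ : ∃ l, j = l + 1 := ⟨j - 1, by have : i ≤ j := hij; omega⟩
    refine le_trans ?_ ih
    rw [pow_succ, pow_succ, mul_assoc]
    exact mul_le_mul_right (augment_mul_le r D) _

/-- A power of the span vanishes. -/
theorem exists_augment_pow_eq_bot {D : Subgroup G} (hD : ∀ g ∈ D, IsNilpotent (r g - 1)) :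
    ∃ N, augment r D ^ (N + 1) = ⊥ := by
  obtain ⟨N, hN⟩ := exists_flag_eq_top r hD
  have hlower : ∀ i, ∀ a ∈ augment r D ^ (i + 1), ∀ x ∈ flag r D (i + 1), a x = 0 := by
    intro i
    induction i with
    | zero =>
      intro a ha x hx
      rw [pow_one] at ha
      exact (Submodule.mem_bot K).1 ((mem_flag_succ r D 0 x).1 hx a ha)
    | succ i ih =>
      intro a ha x hx
      rw [pow_succ] at ha
      refine Submodule.mul_induction_on ha (fun b hb c hc => ?_) fun b c hb hc => ?_
      · exact ih b hb _ ((mem_flag_succ r D _ x).1 hx c hc)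
      · rw [LinearMap.add_apply, hb, hc, add_zero]
  refine ⟨N, (Submodule.eq_bot_iff _).2 fun a ha => LinearMap.ext fun x => ?_⟩
  exact hlower N a ha x (flag_le_succ r D N (hN ▸ Submodule.mem_top))

/-- **A group of unipotent operators is solvable**, up to the kernel. -/
theorem exists_derivedSeries_map_eq_one (D : Subgroup G)
    (hD : ∀ g ∈ D, IsNilpotent (r g - 1)) :
    ∃ k, ∀ g ∈ derivedSeries D k, r g = 1 := by
  obtain ⟨N, hN⟩ := exists_augment_pow_eq_bot r hD
  set J := augment r D
  have hanti : ∀ {i j : ℕ}, 1 ≤ i → i ≤ j → J ^ j ≤ J ^ i := augment_pow_le r D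
  have hder : ∀ k, ∀ g ∈ derivedSeries D k, r g - 1 ∈ J ^ 2 ^ k := by
    intro k
    induction k with
    | zero =>
      intro g _
      rw [pow_zero, pow_one]
      exact Submodule.subset_span ⟨g, rfl⟩
    | succ k ih =>
      let S : Subgroup D :=
        { carrier := {g : D | r g - 1 ∈ J ^ 2 ^ (k + 1)}
          one_mem' := by simp
          mul_mem' := fun {g h} hg hh => by
            have e : r (g * h : D) - 1 = (r g - 1) * (r h - 1) + (r g - 1) + (r h - 1) := by
              rw [Subgroup.coe_mul, map_mul, sub_mul, mul_sub, mul_sub, mul_one, one_mul, one_mul]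
              abel
            show r (g * h : D) - 1 ∈ J ^ 2 ^ (k + 1)
            rw [e]
            refine add_mem (add_mem (hanti Nat.one_le_two_pow
              (Nat.le_add_right _ (2 ^ (k + 1))) ?_) hg) hh
            rw [pow_add]
            exact Submodule.mul_mem_mul hg hh
          inv_mem' := fun {g} hg => by
            have e : r (g⁻¹ : D) - 1 = -((r g - 1) + (r (g⁻¹ : D) - 1) * (r g - 1)) := by
              rw [sub_mul, mul_sub, ← map_mul, ← Subgroup.coe_mul, inv_mul_cancel,
                Subgroup.coe_one, map_one, one_mul, mul_one]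
              abel
            show r (g⁻¹ : D) - 1 ∈ J ^ 2 ^ (k + 1)
            rw [e]
            refine neg_mem (add_mem hg
              (hanti Nat.one_le_two_pow (Nat.le_add_left _ 1) ?_))
            rw [pow_add, pow_one]
            exact Submodule.mul_mem_mul (Submodule.subset_span ⟨_, rfl⟩) hg }
      rw [derivedSeries_succ]
      refine Subgroup.commutator_le (H₃ := S) |>.2 fun g hg h hh => ?_
      have hm : (r g - 1) * (r h - 1) - (r h - 1) * (r g - 1) ∈ J ^ 2 ^ (k + 1) := by
        rw [pow_succ 2, mul_two, pow_add]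
        exact sub_mem (Submodule.mul_mem_mul (ih g hg) (ih h hh))
          (Submodule.mul_mem_mul (ih h hh) (ih g hg))
      set w : D := (g⁻¹ * h⁻¹)
      have e : r ((⁅g, h⁆ : D) : G) - 1 = ((r g - 1) * (r h - 1) - (r h - 1) * (r g - 1)) +
          ((r g - 1) * (r h - 1) - (r h - 1) * (r g - 1)) * (r w - 1) := by
        have hid : (r g - 1) * (r h - 1) - (r h - 1) * (r g - 1) = r g * r h - r h * r g := by
          rw [sub_mul, mul_sub, mul_sub, sub_mul, mul_sub, mul_sub]
          simp only [mul_one, one_mul]
          abel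
        rw [hid, mul_sub, mul_one, add_sub_cancel, sub_mul, ← map_mul, ← map_mul, ← map_mul,
          ← map_mul]
        congr 1
        · exact congrArg r (by simp [w, commutatorElement_def, mul_assoc])
        · rw [← map_one r]
          exact congrArg r (by simp [w, mul_assoc])
      show r ((⁅g, h⁆ : D) : G) - 1 ∈ J ^ 2 ^ (k + 1)
      rw [e]
      refine add_mem hm (hanti Nat.one_le_two_pow (Nat.le_add_right _ 1) ?_)
      rw [pow_add, pow_one]
      exact Submodule.mul_mem_mul hm (Submodule.subset_span ⟨w, rfl⟩)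
  refine ⟨N + 1, fun g hg => sub_eq_zero.1 ((Submodule.eq_bot_iff _).1 hN _ ?_)⟩
  exact hanti (Nat.succ_pos N) (Nat.lt_two_pow_self).le (hder _ g hg)

end FA.TitsAlternative

end
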