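import Fermat.Agent.TitsAlternative.Connected
import Fermat.Agent.TitsAlternative.Congruence
import Fermat.Agent.TitsAlternative.Contracting
import Fermat.Agent.TitsAlternative.Dominant
import Fermat.Agent.TitsAlternative.Fields
import Fermat.Agent.TitsAlternative.Unipotent
import Mathlib.GroupTheory.Finiteness
import Mathlib.RingTheory.Algebraic.Cardinality

/-!
# The Tits alternative

In a dense subgroup of finite index of the congruence subgroup either the derived group is
unipotent,
hence solvable, or one of its elements has an eigenvalue off the unit circle for some absolute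
value, and the group contains a free group of rank two.
-/

set_option autoImplicit false
set_option linter.style.haveILetI false

noncomputable section

open Matrix
open scoped commutatorElement

namespace FA.TitsAlternative

section Coefficients

variable {F : Type*} [Field F] {H : Type*} [Group H] {𝒜 : Subalgebra F (H → F)}

omit [Group H] in
/-- A determinant of regular functions is regular. -/
theorem det_mem {k : ℕ} (M : H → Matrix (Fin k) (Fin k) F)
    (hM : ∀ i j, (fun x => M x i j) ∈ 𝒜) : (fun x => (M x).det) ∈ 𝒜 := by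
  have h : (fun x => (M x).det) =
      ∑ τ : Equiv.Perm (Fin k), Equiv.Perm.sign τ • ∏ i, fun x => M x (τ i) i := by
    funext x
    simp [det_apply, Finset.sum_apply, Finset.prod_apply]
  rw [h]
  refine sum_mem fun τ _ => ?_
  rw [Units.smul_def]
  exact zsmul_mem (prod_mem fun i _ => hM (τ i) i) _

end Coefficients

section Eigenvalue

variable {F : Type*} [NormedField F] [IsAlgClosed F] {H : Type*} [Group H] {n : ℕ}

/-- The exterior power of a representation. -/
def compoundHom {C k : ℕ} (e : Fin C ≃ (Fin k ↪o Fin n)) (r : H →* Matrix (Fin n) (Fin n) F) :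
    H →* Matrix (Fin C) (Fin C) F where
  toFun g := FA.Subspace.compound e (r g)
  map_one' := by rw [map_one, FA.Subspace.compound_one]
  map_mul' g h := by rw [map_mul, FA.Subspace.compound_mul]

/-- **An eigenvalue off the unit circle of a product of commutators gives a free subgroup.** -/
theorem exists_free_of_eigenvalue (r : H →* Matrix (Fin n) (Fin n) F) {𝒜 : Subalgebra F (H → F)}
    (hdom : ∀ f ∈ 𝒜, ∀ g ∈ 𝒜, f * g = 0 → f = 0 ∨ g = 0)
    (hr : ∀ i j, (fun x => r x i j) ∈ 𝒜) (hr' : ∀ i j, (fun x => r x⁻¹ i j) ∈ 𝒜) {γ : H}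
    (hγ : γ ∈ commutator H) {μ : F} (hroot : (r γ).charpoly.IsRoot μ) (hμ : ‖μ‖ ≠ 1) :
    ∃ f : FreeGroup (Fin 2) →* H, Function.Injective f := by
  classical
  have hunit : ∀ g, IsUnit (r g).det := fun g => (Matrix.isUnit_iff_isUnit_det _).1
    ⟨⟨r g, r g⁻¹, by rw [← map_mul, mul_inv_cancel, map_one],
      by rw [← map_mul, inv_mul_cancel, map_one]⟩, rfl⟩
  obtain ⟨γ', hγ', μ', hroot', hμ'⟩ :
      ∃ γ' ∈ commutator H, ∃ μ', (r γ').charpoly.IsRoot μ' ∧ 1 < ‖μ'‖ := by
    rcases lt_or_gt_of_ne hμ with h | h
    · have hμ0 : μ ≠ 0 := fun h0 => by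
        rw [h0, ← Matrix.mem_spectrum_iff_isRoot_charpoly] at hroot
        exact (spectrum.zero_notMem_iff F).2 ((Matrix.isUnit_iff_isUnit_det _).2 (hunit γ)) hroot
      refine ⟨γ⁻¹, inv_mem hγ, μ⁻¹, ?_, ?_⟩
      · rw [← Matrix.mem_spectrum_iff_isRoot_charpoly] at hroot ⊢
        let u : (Matrix (Fin n) (Fin n) F)ˣ := r.toHomUnits γ
        have hu : μ ∈ spectrum F (u : Matrix (Fin n) (Fin n) F) := hroot
        have hu' : (↑u⁻¹ : Matrix (Fin n) (Fin n) F) = r γ⁻¹ := by
          rw [← map_inv]
          rfl
        rw [← hu']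
        exact spectrum.inv_mem_iff (r := Units.mk0 μ hμ0).1 hu
      · rw [norm_inv]
        exact (one_lt_inv₀ (norm_pos_iff.2 hμ0)).2 h
    · exact ⟨γ, hγ, μ, hroot, h⟩
  obtain ⟨C, k, e, Λ, v, φ, hΛ, hφv, hlim⟩ := exists_dominant (hunit γ') hroot' hμ'
  set τ := compoundHom e r
  obtain ⟨m, σ, v', φ', hσ, hσ', hc⟩ := exists_contracting (τ := τ) (𝒜 := 𝒜)
    (fun i j => det_mem (fun x => Matrix.of fun a b => r x (e i b) (e j a)) fun a b => hr _ _)
    (fun i j => det_mem (fun x => Matrix.of fun a b => r x⁻¹ (e i b) (e j a)) fun a b => hr' _ _)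
    hφv hlim
  exact exists_free_of_contracting hdom hσ hσ' hc (hc.two_le hΛ hγ') hΛ

end Eigenvalue

section Double

variable {K : Type*} [Field K] {G : Type*} [Group G] {n : ℕ}

/-- A representation together with its contragredient. -/
def double (r : G →* Matrix (Fin n) (Fin n) K) :
    G →* Matrix (Fin n ⊕ Fin n) (Fin n ⊕ Fin n) K where
  toFun g := Matrix.fromBlocks (r g) 0 0 (r g⁻¹)ᵀ
  map_one' := by rw [inv_one, map_one, transpose_one, fromBlocks_one]
  map_mul' g h := by
    rw [fromBlocks_multiply, map_mul, _root_.mul_inv_rev, map_mul, transpose_mul]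
    simp

end Double

/-- A finitely generated group is countable. -/
theorem countable_of_fg (G : Type*) [Group G] [Group.FG G] : Countable G := by
  obtain ⟨S, hS, f, hf⟩ : ∃ (S : Set G), S.Finite ∧
      ∃ f : FreeGroup S →* G, Function.Surjective f := by
    obtain ⟨S, hS, hfin⟩ := Group.fg_iff.1 ‹Group.FG G›
    refine ⟨S, hfin, FreeGroup.lift (fun s => (s : G)), MonoidHom.range_eq_top.1 ?_⟩
    rw [FreeGroup.range_lift_eq_closure, Subtype.range_coe, hS]
  have : Countable S := hS.countable.to_subtype
  have : Countable (FreeGroup S) :=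
    Function.Surjective.countable (f := FreeGroup.mk) (Quot.mk_surjective)
  exact hf.countable

/-- A group with abelian quotient by a solvable commutator subgroup is solvable. -/
theorem isSolvable_of_commutator {H : Type*} [Group H] [Group.IsSolvable (commutator H)] :
    Group.IsSolvable H :=
  Group.isSolvable_of_ker_le_range (commutator H).subtype Abelianization.of (by
    rw [Subgroup.range_subtype, Abelianization.ker_of])

/-- A finitely generated linear group in characteristic zero contains a free group of rank two, or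
it has an injective representation over some `ℚ_p`-closure in which a subgroup of finite index has
eigenvalues near `1` and unipotent derived group. -/
theorem exists_unipotent_or_free {K : Type*} [Field K] [CharZero K] {n : ℕ}
    {G : Subgroup (GL (Fin n) K)} (hG : G.FG) :
    (∃ (p : ℕ) (_ : Fact p.Prime) (ρ : G →* Module.End (PadicAlgCl p) (Fin n → PadicAlgCl p)),
      p ≠ 2 ∧ Function.Injective ρ ∧ ∃ H : Subgroup G, H.FiniteIndex ∧
        (∀ h ∈ H, ∀ μ, Module.End.HasEigenvalue (ρ h) μ → ‖μ - 1‖ ≤ (p : ℝ)⁻¹) ∧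
        ∀ d ∈ ⁅H, H⁆, IsNilpotent (ρ d - 1)) ∨
      ∃ f : FreeGroup (Fin 2) →* G, Function.Injective f := by
  classical
  have : Group.FG G := (Group.fg_iff_subgroup_fg G).2 hG
  have : Countable G := countable_of_fg G
  obtain ⟨p, hp, hp2, f, hf⟩ := FA.LinearGroups.exists_hom_padic hG
  have := hp
  have : NeZero (p ^ 1) := ⟨by simp [hp.out.ne_zero]⟩
  set G₁ := ((FA.LinearGroups.reduction (Fin n) p 1).comp f).ker
  have : G₁.FiniteIndex := Subgroup.finiteIndex_ker _
  let emb : Matrix (Fin n) (Fin n) ℤ_[p] →* Matrix (Fin n) (Fin n) (PadicAlgCl p) :=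
    (toPadicAlgCl p).mapMatrix.toMonoidHom
  let r : G →* Matrix (Fin n) (Fin n) (PadicAlgCl p) := emb.comp ((Units.coeHom _).comp f)
  have hrinj : Function.Injective r := by
    have h1 : Function.Injective (toPadicAlgCl p) :=
      (algebraMap ℚ_[p] (PadicAlgCl p)).injective.comp Subtype.val_injective
    exact (Matrix.map_injective h1).comp (Units.val_injective.comp hf)
  -- a countable field with the entries and the eigenvalues
  set T : Set (PadicAlgCl p) :=
    (⋃ g : G, Set.range fun ij : Fin n × Fin n => r g ij.1 ij.2) ∪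
      ⋃ g : G, {μ | μ ∈ (r g).charpoly.roots}
  set K₀ := Subfield.closure T
  have hT : T.Countable :=
    (Set.countable_iUnion fun g => (Set.finite_range _).countable).union
      (Set.countable_iUnion fun g => (r g).charpoly.roots.toFinset.countable_toSet.mono
        fun μ hμ => Finset.mem_coe.2 (Multiset.mem_toFinset.2 hμ))
  have : Countable K₀ := Cardinal.mk_le_aleph0_iff.1
    ((Subfield.cardinalMk_closure_le_max T).trans
      (max_le (Cardinal.le_aleph0_iff_set_countable.2 hT) le_rfl))
  have hentry : ∀ g i j, r g i j ∈ K₀ := fun g i j =>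
    Subfield.subset_closure (Or.inl (Set.mem_iUnion.2 ⟨g, (i, j), rfl⟩))
  let r₀ : G →* Matrix (Fin n) (Fin n) K₀ :=
    { toFun := fun g => Matrix.of fun i j => ⟨r g i j, hentry g i j⟩
      map_one' := Matrix.map_injective (f := K₀.subtype) Subtype.val_injective (by
        show r 1 = (1 : Matrix (Fin n) (Fin n) K₀).map K₀.subtype
        rw [map_one, Matrix.map_one _ (map_zero _) (map_one _)])
      map_mul' := fun g h => Matrix.map_injective (f := K₀.subtype) Subtype.val_injective (by
        show r (g * h) = ((Matrix.of fun i j => ⟨r g i j, hentry g i j⟩) *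
          (Matrix.of fun i j => ⟨r h i j, hentry h i j⟩) : Matrix (Fin n) (Fin n) K₀).map K₀.subtype
        rw [map_mul, Matrix.map_mul]
        rfl) }
  have hr₀ : ∀ g, (r₀ g).map K₀.subtype = r g := fun g => rfl
  obtain ⟨H', hH', hdense⟩ := exists_isDense ((double r₀).comp G₁.subtype)
  by_cases hall : ∀ d ∈ commutator H', ∀ μ : PadicAlgCl p,
      (r (d : G)).charpoly.IsRoot μ → IsOfFinOrder μ
  · left
    let L := (Matrix.toLinAlgEquiv' :
      Matrix (Fin n) (Fin n) (PadicAlgCl p) ≃ₐ[PadicAlgCl p] _)
    have hcong : ∀ g ∈ G₁, FA.LinearGroups.Congruent 1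
        ((f g : Matrix (Fin n) (Fin n) ℤ_[p])) := fun g hg =>
      (FA.LinearGroups.congruent_iff_map 1 _).2 (by
        rw [← FA.LinearGroups.coe_reduction,
          show FA.LinearGroups.reduction (Fin n) p 1 (f g) = 1 from hg, Units.val_one])
    refine ⟨p, hp, L.toMonoidHom.comp r, hp2, L.injective.comp hrinj, H'.map G₁.subtype,
      ⟨?_⟩, ?_, fun d hd => ?_⟩
    · rw [Subgroup.index_map_subtype]
      exact mul_ne_zero hH'.index_ne_zero Subgroup.FiniteIndex.index_ne_zero
    · rintro _ ⟨h, -, rfl⟩ μ hμ
      refine norm_root_sub_one_le (hcong _ h.2) ?_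
      rw [← Matrix.mem_spectrum_iff_isRoot_charpoly, ← Matrix.spectrum_toLin',
        ← Module.End.hasEigenvalue_iff_mem_spectrum]
      exact hμ
    · rw [← Subgroup.map_commutator] at hd
      obtain ⟨d, hd, rfl⟩ := hd
      obtain ⟨N, hN⟩ := isNilpotent_sub_one hp2 (hcong _ d.2) fun μ hμ => by
        obtain ⟨d', hd', rfl⟩ : ∃ d' ∈ commutator H', H'.subtype d' = d := by
          rw [← H'.map_subtype_commutator] at hd
          exact hd
        exact hall d' hd' μ hμ
      refine ⟨N, ?_⟩
      show (L (r (d : G)) - 1) ^ N = 0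
      rw [← map_one L, ← map_sub, ← map_pow]
      exact (congrArg L hN).trans (map_zero L)
  · right
    push Not at hall
    obtain ⟨γ, hγ, μ, hroot, hμ⟩ := hall
    have hne : (r (γ : G)).charpoly ≠ 0 := (Matrix.charpoly_monic _).ne_zero
    set z : K₀ := ⟨μ, Subfield.subset_closure (Or.inr (Set.mem_iUnion.2
      ⟨(γ : G), (Polynomial.mem_roots hne).2 hroot⟩))⟩
    have hzroot : (r₀ (γ : G)).charpoly.IsRoot z := by
      refine Polynomial.IsRoot.of_map (f := K₀.subtype) ?_ Subtype.val_injective
      rwa [← Matrix.charpoly_map, hr₀]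
    have hzfin : ¬ IsOfFinOrder z := fun h => hμ (K₀.subtype.toMonoidHom.isOfFinOrder h)
    have key : ∀ {F : Type} [NormedField F] [IsAlgClosed F] (ι : K₀ →+* F), ‖ι z‖ ≠ 1 →
        ∃ g : FreeGroup (Fin 2) →* G, Function.Injective g := by
      intro F _ _ ι hι
      obtain ⟨𝒜, hdom, hmem⟩ := hdense.exists_domain ι
      let rF : H' →* Matrix (Fin n) (Fin n) F :=
        ι.mapMatrix.toMonoidHom.comp (r₀.comp (G₁.subtype.comp H'.subtype))
      obtain ⟨g, hg⟩ := exists_free_of_eigenvalue rF hdom
        (fun i j => hmem (Sum.inl i) (Sum.inl j)) (fun i j => hmem (Sum.inr j) (Sum.inr i)) hγ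
        (μ := ι z) (by
          show ((r₀ (γ : G)).map ι).charpoly.IsRoot (ι z)
          rw [Matrix.charpoly_map]
          exact hzroot.map) hι
      exact ⟨(G₁.subtype.comp H'.subtype).comp g,
        (G₁.subtype_injective.comp H'.subtype_injective).comp hg⟩
    rcases exists_norm_ne_one hzfin with ⟨ι, hι⟩ | ⟨q, hq, ι, hι⟩
    · exact key ι hι
    · exact key ι hι

/-- **The Tits alternative** (Tits 1972): a finitely generated linear group in characteristic zero
has a solvable subgroup of finite index or contains a free group of rank two. -/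
theorem tits_alternative {K : Type*} [Field K] [CharZero K] {n : ℕ}
    {G : Subgroup (GL (Fin n) K)} (hG : G.FG) :
    (∃ H : Subgroup G, H.FiniteIndex ∧ Group.IsSolvable H) ∨
      ∃ f : FreeGroup (Fin 2) →* G, Function.Injective f := by
  refine (exists_unipotent_or_free hG).imp (fun ⟨p, hp, ρ, hp2, hinj, H, hH, _, hD⟩ => ?_) id
  refine ⟨H, hH, ?_⟩
  obtain ⟨k, hk⟩ := exists_derivedSeries_map_eq_one (ρ.comp H.subtype) (commutator H)
    fun d hd => hD d (H.map_subtype_commutator ▸ Subgroup.mem_map_of_mem H.subtype hd)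
  have : Group.IsSolvable (commutator H) := ⟨k, (Subgroup.eq_bot_iff_forall _).2 fun d hd =>
    Subtype.ext (Subtype.ext (hinj ((hk d hd).trans (map_one ρ).symm)))⟩
  exact isSolvable_of_commutator

end FA.TitsAlternative

end
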