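import Fermat.Agent.TitsAlternative.GeneralPosition
import Mathlib.GroupTheory.CoprodI
import Mathlib.GroupTheory.FreeGroup.Basic

/-!
# Ping-pong

Two conjugate elements which, with their inverses, are close to rank one maps generate a free group:
the cones around their attracting points play ping-pong on the vectors.
-/

set_option autoImplicit false

noncomputable section

open Finset Matrix
open scoped Pointwise

namespace FA.TitsAlternative

variable {F : Type*} [NormedField F] {m : ℕ}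

/-- The cone of radius `η` around the line of a vector. -/
def Near (r : Fin m → F) (η : ℝ) : Set (Fin m → F) := {z | ∃ s : F, s ≠ 0 ∧ ‖z - s • r‖ ≤ η * ‖s‖}

theorem mem_near_self (r : Fin m → F) {η : ℝ} (hη : 0 ≤ η) : r ∈ Near r η :=
  ⟨1, one_ne_zero, by simpa using hη⟩

/-- Thin cones around different lines are disjoint. -/
theorem exists_disjoint_near {r r' : Fin m → F} (hr' : r' ≠ 0)
    (h : r ∉ Submodule.span F {r'}) :
    ∃ η₀ : ℝ, 0 < η₀ ∧ ∀ η < η₀, Disjoint (Near r η) (Near r' η) := by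
  classical
  let T : (Fin 2 → F) →ₗ[F] Fin m → F :=
    Matrix.toLin' (Matrix.of fun i j => ![r, r'] j i)
  have hT : ∀ y, T y = y 0 • r + y 1 • r' := fun y => by
    ext i
    simp [T, Matrix.toLin'_apply, mulVec, dotProduct, Fin.sum_univ_two, mul_comm]
  obtain ⟨L, hL⟩ := T.exists_leftInverse_of_injective (LinearMap.ker_eq_bot'.2 fun y hy => by
    rw [hT] at hy
    have h0 : y 0 = 0 := by
      by_contra h0
      refine h (Submodule.mem_span_singleton.2 ⟨-(y 1 / y 0), ?_⟩)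
      rw [← smul_right_inj h0, eq_neg_of_add_eq_zero_left hy, smul_smul, ← neg_smul,
        mul_neg, mul_div_cancel₀ _ h0]
    rw [h0, zero_smul, zero_add, smul_eq_zero] at hy
    ext i
    fin_cases i
    · exact h0
    · exact hy.resolve_right hr')
  obtain ⟨C, hC, hbd⟩ := exists_norm_le L
  refine ⟨(2 * C)⁻¹, by positivity, fun η hη => Set.disjoint_left.2 ?_⟩
  rintro z ⟨s, hs, hz⟩ ⟨s', hs', hz'⟩
  have h1 := hbd (T ![s, -s'])
  rw [← LinearMap.comp_apply, hL, LinearMap.id_apply, hT] at h1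
  simp only [Matrix.cons_val_zero, Matrix.cons_val_one, neg_smul, ← sub_eq_add_neg] at h1
  have h2 : ‖s • r - s' • r'‖ ≤ η * ‖s‖ + η * ‖s'‖ := by
    calc ‖s • r - s' • r'‖ = ‖(z - s' • r') - (z - s • r)‖ := by congr 1; abel
      _ ≤ ‖z - s' • r'‖ + ‖z - s • r‖ := norm_sub_le _ _
      _ ≤ _ := by linarith
  have h3 : ‖s‖ ≤ ‖![s, -s']‖ := norm_le_pi_norm ![s, -s'] 0
  have h4 : ‖s'‖ ≤ ‖![s, -s']‖ := by simpa using norm_le_pi_norm ![s, -s'] 1
  have h5 : 0 < ‖![s, -s']‖ := (norm_pos_iff.2 hs).trans_le h3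
  have h6 : 0 ≤ η := nonneg_of_mul_nonneg_left ((norm_nonneg _).trans hz) (norm_pos_iff.2 hs)
  have h7 : C * (η * (2 * ‖![s, -s']‖)) < ‖![s, -s']‖ := by
    have : η * (2 * C) < 1 := by rwa [← lt_div_iff₀ (by positivity), one_div]
    nlinarith
  have h8 : C * ‖s • r - s' • r'‖ ≤ C * (η * (2 * ‖![s, -s']‖)) :=
    mul_le_mul_of_nonneg_left (h2.trans (by nlinarith)) hC.le
  linarith

/-- A matrix takes a thin cone into a thin cone. -/
theorem mulVec_mem_near {M : Matrix (Fin m) (Fin m) F} {r z : Fin m → F} {η B : ℝ}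
    (hM : entryNorm M ≤ B) (hB : 0 ≤ B) (hz : z ∈ Near r η) : M *ᵥ z ∈ Near (M *ᵥ r) (B * η) := by
  obtain ⟨s, hs, h⟩ := hz
  refine ⟨s, hs, ?_⟩
  rw [← mulVec_smul, ← mulVec_sub, mul_assoc]
  exact (norm_mulVec_le M _).trans (mul_le_mul hM h (norm_nonneg _) hB)

/-- An almost rank one map takes the cones off its hyperplane near its point. -/
theorem mem_near_of_approx {M : Matrix (Fin m) (Fin m) F} {p r z ω : Fin m → F} {a : F}
    {η η' ε θ : ℝ} (ha : a ≠ 0) (hω : ω ≠ 0)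
    (happ : ∀ z, ‖M *ᵥ z - (a * (ω ⬝ᵥ z)) • p‖ ≤ θ * ‖a‖ * ‖ω‖ * ‖z‖)
    (hr : ε * ‖ω‖ ≤ ‖ω ⬝ᵥ r‖) (hε : 0 < ε) (hη : 0 ≤ η) (hθ0 : 0 ≤ θ)
    (hη' : m * η' ≤ ε / 2) (hθ : θ * (‖r‖ + η') ≤ η * (ε / 2)) (hz : z ∈ Near r η') :
    M *ᵥ z ∈ Near p η := by
  obtain ⟨s, hs, hzs⟩ := hz
  have hω' : 0 < ‖ω‖ := norm_pos_iff.2 hω
  have hd : ε / 2 * ‖ω‖ * ‖s‖ ≤ ‖ω ⬝ᵥ z‖ := by
    have h1 : ‖s * (ω ⬝ᵥ r)‖ - ‖ω ⬝ᵥ z‖ ≤ ‖ω ⬝ᵥ (z - s • r)‖ := by
      rw [dotProduct_sub, dotProduct_smul, smul_eq_mul, ← norm_neg (ω ⬝ᵥ z - _), neg_sub]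
      exact norm_sub_norm_le _ _
    have h2 := norm_dotProduct_le ω (z - s • r)
    have h3 : (m : ℝ) * ‖ω‖ * ‖z - s • r‖ ≤ ε / 2 * ‖ω‖ * ‖s‖ :=
      calc (m : ℝ) * ‖ω‖ * ‖z - s • r‖ ≤ m * ‖ω‖ * (η' * ‖s‖) := by gcongr
        _ = m * η' * ‖ω‖ * ‖s‖ := by ring
        _ ≤ _ := by gcongr
    rw [norm_mul] at h1
    nlinarith [mul_le_mul_of_nonneg_left hr (norm_nonneg s)]
  have hpos : 0 < ε / 2 * ‖ω‖ * ‖s‖ := by
    have := norm_pos_iff.2 hs
    positivity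
  refine ⟨a * (ω ⬝ᵥ z), mul_ne_zero ha (norm_pos_iff.1 (hpos.trans_le hd)), (happ z).trans ?_⟩
  have hzn : ‖z‖ ≤ (‖r‖ + η') * ‖s‖ := by
    calc ‖z‖ = ‖(z - s • r) + s • r‖ := by rw [sub_add_cancel]
      _ ≤ ‖z - s • r‖ + ‖s • r‖ := norm_add_le _ _
      _ ≤ η' * ‖s‖ + ‖s‖ * ‖r‖ := by rw [norm_smul]; linarith
      _ = _ := by ring
  rw [norm_mul]
  calc θ * ‖a‖ * ‖ω‖ * ‖z‖ ≤ θ * ‖a‖ * ‖ω‖ * ((‖r‖ + η') * ‖s‖) := by gcongr
    _ = θ * (‖r‖ + η') * (‖a‖ * ‖ω‖ * ‖s‖) := by ring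
    _ ≤ η * (ε / 2) * (‖a‖ * ‖ω‖ * ‖s‖) := by gcongr
    _ = η * (‖a‖ * (ε / 2 * ‖ω‖ * ‖s‖)) := by ring
    _ ≤ η * (‖a‖ * ‖ω ⬝ᵥ z‖) := by gcongr

variable {H : Type*} [Group H]

/-- Ping-pong: all powers but the zeroth of a generator take the other set into its own. -/
theorem free_of_ping_pong {α : Type*} [MulAction H α] (g : Fin 2 → H) (X : Fin 2 → Set α)
    (hne : ∀ i, (X i).Nonempty) (hdisj : Disjoint (X 0) (X 1))
    (hpp : ∀ i j, i ≠ j → ∀ n : ℕ, 0 < n → g i ^ n • X j ⊆ X i ∧ (g i)⁻¹ ^ n • X j ⊆ X i) :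
    Function.Injective (FreeGroup.lift g) := by
  have h : FreeGroup.lift g =
      (Monoid.CoprodI.lift fun i => FreeGroup.lift fun _ : Unit => g i).comp
        (@freeGroupEquivCoprodI (Fin 2)).toMonoidHom := by
    ext i
    simp
  rw [h, MonoidHom.coe_comp]
  refine Function.Injective.comp ?_ (MulEquiv.injective freeGroupEquivCoprodI)
  refine Monoid.CoprodI.lift_injective_of_ping_pong _ ?_ X hne ?_ ?_
  · refine Or.inr ⟨0, ?_⟩
    have : Infinite (FreeGroup Unit) :=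
      Infinite.of_injective _ FreeGroup.freeGroupUnitEquivInt.symm.injective
    exact (Cardinal.natCast_lt_aleph0 (n := 3)).le.trans (Cardinal.aleph0_le_mk _)
  · intro i j hij
    fin_cases i <;> fin_cases j
    exacts [absurd rfl hij, hdisj, hdisj.symm, absurd rfl hij]
  · intro i j hij w hw
    obtain ⟨k, rfl⟩ := FreeGroup.freeGroupUnitEquivInt.symm.surjective w
    have hk : k ≠ 0 := fun h0 => hw (by subst h0; simp [FreeGroup.freeGroupUnitEquivInt])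
    show FreeGroup.lift (fun _ : Unit => g i) (FreeGroup.of () ^ k) • X j ⊆ X i
    rw [map_zpow, FreeGroup.lift_apply_of]
    obtain ⟨n, rfl | rfl⟩ := Int.eq_nat_or_neg k
    · rw [zpow_natCast]
      exact (hpp i j hij n (Nat.pos_of_ne_zero fun h0 => hk (by simp [h0]))).1
    · rw [zpow_neg, zpow_natCast, ← inv_pow]
      exact (hpp i j hij n (Nat.pos_of_ne_zero fun h0 => hk (by simp [h0]))).2

variable (σ : H →* Matrix (Fin m) (Fin m) F)

/-- The action on vectors through a matrix representation. -/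
@[implicit_reducible]
def vecAction : MulAction H (Fin m → F) where
  smul h z := σ h *ᵥ z
  one_smul z := show σ 1 *ᵥ z = z by rw [map_one, one_mulVec]
  mul_smul g h z := show σ (g * h) *ᵥ z = σ g *ᵥ σ h *ᵥ z by rw [map_mul, mulVec_mulVec]

theorem ne_zero_of_lower {ε : ℝ} {ω r : Fin m → F} (hε : 0 < ε) (hω : ω ≠ 0)
    (h : ε * ‖ω‖ ≤ ‖ω ⬝ᵥ r‖) : r ≠ 0 := fun h0 => by
  rw [h0, dotProduct_zero, norm_zero] at h
  nlinarith [norm_pos_iff.2 hω]

/-- **Two conjugate contracting elements generate a free group.** -/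
theorem exists_threshold (p q : Fin m → F) (e : H) {ε : ℝ} (hε : 0 < ε)
    (hsep : ∀ r ∈ [p, q], σ e *ᵥ r ∉ Submodule.span F {p} ∧ σ e *ᵥ r ∉ Submodule.span F {q}) :
    ∃ θ : ℝ, 0 < θ ∧ ∀ (x : H) (a a' : F) (ω ω' : Fin m → F), a ≠ 0 → a' ≠ 0 → ω ≠ 0 → ω' ≠ 0 →
      (∀ z, ‖σ x *ᵥ z - (a * (ω ⬝ᵥ z)) • p‖ ≤ θ * ‖a‖ * ‖ω‖ * ‖z‖) →
      (∀ z, ‖σ x⁻¹ *ᵥ z - (a' * (ω' ⬝ᵥ z)) • q‖ ≤ θ * ‖a'‖ * ‖ω'‖ * ‖z‖) →
      ε * ‖ω‖ ≤ ‖ω ⬝ᵥ p‖ → ε * ‖ω'‖ ≤ ‖ω' ⬝ᵥ q‖ →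
      (∀ r ∈ [σ e *ᵥ p, σ e *ᵥ q, σ e⁻¹ *ᵥ p, σ e⁻¹ *ᵥ q],
        ε * ‖ω‖ ≤ ‖ω ⬝ᵥ r‖ ∧ ε * ‖ω'‖ ≤ ‖ω' ⬝ᵥ r‖) →
      ∃ f : FreeGroup (Fin 2) →* H, Function.Injective f := by
  classical
  set B := 1 + entryNorm (σ e) + entryNorm (σ e⁻¹) with hB
  have hB1 : 1 ≤ B := by linarith [entryNorm_nonneg (σ e), entryNorm_nonneg (σ e⁻¹)]
  have hB0 : 0 < B := one_pos.trans_le hB1
  -- the radius of disjointness
  have hdisj : ∃ η₀ : ℝ, 0 < η₀ ∧ (p ≠ 0 → q ≠ 0 → ∀ η < η₀, ∀ r ∈ [p, q], ∀ r' ∈ [p, q],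
      Disjoint (Near (σ e *ᵥ r) η) (Near r' η)) := by
    by_cases hpq : p ≠ 0 ∧ q ≠ 0
    · obtain ⟨η1, h1, H1⟩ := exists_disjoint_near hpq.1 (hsep p (by simp)).1
      obtain ⟨η2, h2, H2⟩ := exists_disjoint_near hpq.2 (hsep p (by simp)).2
      obtain ⟨η3, h3, H3⟩ := exists_disjoint_near hpq.1 (hsep q (by simp)).1
      obtain ⟨η4, h4, H4⟩ := exists_disjoint_near hpq.2 (hsep q (by simp)).2
      refine ⟨min (min η1 η2) (min η3 η4), lt_min (lt_min h1 h2) (lt_min h3 h4),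
        fun _ _ η hη r hr r' hr' => ?_⟩
      simp only [lt_min_iff] at hη
      simp only [List.mem_cons, List.not_mem_nil, or_false] at hr hr'
      rcases hr with rfl | rfl <;> rcases hr' with rfl | rfl
      exacts [H1 η hη.1.1, H2 η hη.1.2, H3 η hη.2.1, H4 η hη.2.2]
    · exact ⟨1, one_pos, fun h1 h2 => absurd ⟨h1, h2⟩ hpq⟩
  obtain ⟨η₀, hη₀, hdisj⟩ := hdisj
  set η := min (η₀ / (2 * B)) (ε / (2 * (m + 1) * B)) with hη
  have hηpos : 0 < η := by positivity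
  have hη1 : B * η < η₀ := by
    have h := (le_div_iff₀ (by positivity)).1 (min_le_left (η₀ / (2 * B)) (ε / (2 * (m + 1) * B)))
    rw [← hη] at h
    nlinarith
  have hη2 : m * (B * η) ≤ ε / 2 := by
    have h := (le_div_iff₀ (by positivity)).1 (min_le_right (η₀ / (2 * B)) (ε / (2 * (m + 1) * B)))
    rw [← hη] at h
    nlinarith [mul_pos hηpos (lt_of_lt_of_le one_pos hB1)]
  set R := 1 + ‖p‖ + ‖q‖
  have hR : 1 ≤ R := by linarith [norm_nonneg p, norm_nonneg q]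
  have hR0 : 0 < R := one_pos.trans_le hR
  refine ⟨η * (ε / 2) / (B * R + B * η), by positivity,
    fun x a a' ω ω' ha ha' hω hω' hx hx' hp hq hall => ?_⟩
  have hp0 := ne_zero_of_lower hε hω hp
  have hq0 := ne_zero_of_lower hε hω' hq
  set θ := η * (ε / 2) / (B * R + B * η)
  have hθ : ∀ r : Fin m → F, ‖r‖ ≤ B * R → θ * (‖r‖ + B * η) ≤ η * (ε / 2) := fun r hr => by
    calc θ * (‖r‖ + B * η) ≤ θ * (B * R + B * η) :=
          mul_le_mul_of_nonneg_left (add_le_add hr le_rfl) (by positivity)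
      _ = η * (ε / 2) := div_mul_cancel₀ _ (by positivity)
  let := vecAction σ
  set X := Near p η ∪ Near q η
  have hsmul : ∀ (h : H) z, h • z = σ h *ᵥ z := fun h z => rfl
  -- the sources
  have hstep : ∀ r, ‖r‖ ≤ B * R → ∀ η', 0 ≤ η' → η' ≤ B * η → ∀ z ∈ Near r η',
      (ε * ‖ω‖ ≤ ‖ω ⬝ᵥ r‖ → x • z ∈ Near p η) ∧
        (ε * ‖ω'‖ ≤ ‖ω' ⬝ᵥ r‖ → x⁻¹ • z ∈ Near q η) := by
    intro r hr η' _ hle z hz
    have hm' : (m : ℝ) * η' ≤ ε / 2 := le_trans (by gcongr) hη2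
    have ht : θ * (‖r‖ + η') ≤ η * (ε / 2) :=
      le_trans (mul_le_mul_of_nonneg_left (by linarith) (by positivity)) (hθ r hr)
    exact ⟨fun h => mem_near_of_approx ha hω hx h hε hηpos.le (by positivity) hm' ht hz,
      fun h => mem_near_of_approx ha' hω' hx' h hε hηpos.le (by positivity) hm' ht hz⟩
  have hnorm : ∀ r ∈ [p, q], ‖r‖ ≤ R := fun r hr => by
    simp only [List.mem_cons, List.not_mem_nil, or_false] at hr
    rcases hr with h | h <;> rw [h] <;> linarith [norm_nonneg p, norm_nonneg q]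
  have hBbd : ∀ M ∈ [σ e, σ e⁻¹], entryNorm M ≤ B := fun M hM => by
    simp only [List.mem_cons, List.not_mem_nil, or_false] at hM
    rcases hM with rfl | rfl <;> linarith [entryNorm_nonneg (σ e), entryNorm_nonneg (σ e⁻¹)]
  have hX : ∀ n : ℕ, 0 < n → ∀ z, (z ∈ e • X ∨ z ∈ e⁻¹ • X) →
      x ^ n • z ∈ Near p η ∧ x⁻¹ ^ n • z ∈ Near q η := by
    intro n hn z hz
    have h0 : ∃ r, ‖r‖ ≤ B * R ∧ ε * ‖ω‖ ≤ ‖ω ⬝ᵥ r‖ ∧ ε * ‖ω'‖ ≤ ‖ω' ⬝ᵥ r‖ ∧
        z ∈ Near r (B * η) := by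
      rcases hz with ⟨w, hw | hw, rfl⟩ | ⟨w, hw | hw, rfl⟩
      · exact ⟨σ e *ᵥ p, (norm_mulVec_le _ _).trans (mul_le_mul (hBbd _ (by simp))
          (hnorm p (by simp)) (norm_nonneg _) (by linarith)), (hall _ (by simp)).1,
          (hall _ (by simp)).2, mulVec_mem_near (hBbd _ (by simp)) (by linarith) hw⟩
      · exact ⟨σ e *ᵥ q, (norm_mulVec_le _ _).trans (mul_le_mul (hBbd _ (by simp))
          (hnorm q (by simp)) (norm_nonneg _) (by linarith)), (hall _ (by simp)).1,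
          (hall _ (by simp)).2, mulVec_mem_near (hBbd _ (by simp)) (by linarith) hw⟩
      · exact ⟨σ e⁻¹ *ᵥ p, (norm_mulVec_le _ _).trans (mul_le_mul (hBbd _ (by simp))
          (hnorm p (by simp)) (norm_nonneg _) (by linarith)), (hall _ (by simp)).1,
          (hall _ (by simp)).2, mulVec_mem_near (hBbd _ (by simp)) (by linarith) hw⟩
      · exact ⟨σ e⁻¹ *ᵥ q, (norm_mulVec_le _ _).trans (mul_le_mul (hBbd _ (by simp))
          (hnorm q (by simp)) (norm_nonneg _) (by linarith)), (hall _ (by simp)).1,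
          (hall _ (by simp)).2, mulVec_mem_near (hBbd _ (by simp)) (by linarith) hw⟩
    obtain ⟨r, hr, hr1, hr2, hzr⟩ := h0
    have hpB : ‖p‖ ≤ B * R := (hnorm p (by simp)).trans (le_mul_of_one_le_left (by linarith) hB1)
    have hqB : ‖q‖ ≤ B * R := (hnorm q (by simp)).trans (le_mul_of_one_le_left (by linarith) hB1)
    have hηB : η ≤ B * η := le_mul_of_one_le_left hηpos.le hB1
    induction n, hn using Nat.le_induction with
    | base =>
      simp only [pow_one]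
      exact ⟨(hstep r hr _ (by positivity) le_rfl z hzr).1 hr1,
        (hstep r hr _ (by positivity) le_rfl z hzr).2 hr2⟩
    | succ k _ ih =>
      rw [pow_succ', pow_succ', mul_smul, mul_smul]
      exact ⟨(hstep p hpB η hηpos.le hηB _ ih.1).1 hp, (hstep q hqB η hηpos.le hηB _ ih.2).2 hq⟩
  have hXne : X.Nonempty := ⟨p, Or.inl (mem_near_self p hηpos.le)⟩
  refine ⟨FreeGroup.lift ![x, e * x * e⁻¹], free_of_ping_pong _ ![X, e • X] (fun i => ?_) ?_ ?_⟩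
  · fin_cases i
    · exact hXne
    · exact hXne.smul_set
  · refine Set.disjoint_left.2 fun z hz hz' => ?_
    obtain ⟨w, hw, rfl⟩ := hz'
    have hm' : ∀ r ∈ [p, q], w ∈ Near r η → σ e *ᵥ w ∈ Near (σ e *ᵥ r) (B * η) :=
      fun r _ h => mulVec_mem_near (hBbd _ (by simp)) (by linarith) h
    have hz1 : ∀ r ∈ [p, q], σ e *ᵥ w ∈ Near r η → σ e *ᵥ w ∈ Near r (B * η) := by
      rintro r - ⟨s, hs, h⟩
      exact ⟨s, hs, h.trans (mul_le_mul_of_nonneg_right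
        (le_mul_of_one_le_left hηpos.le hB1) (norm_nonneg _))⟩
    rcases hw with hw | hw <;> rcases hz with hz | hz
    · exact (hdisj hp0 hq0 _ hη1 p (by simp) p (by simp)).ne_of_mem (hm' p (by simp) hw)
        (hz1 p (by simp) hz) rfl
    · exact (hdisj hp0 hq0 _ hη1 p (by simp) q (by simp)).ne_of_mem (hm' p (by simp) hw)
        (hz1 q (by simp) hz) rfl
    · exact (hdisj hp0 hq0 _ hη1 q (by simp) p (by simp)).ne_of_mem (hm' q (by simp) hw)
        (hz1 p (by simp) hz) rfl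
    · exact (hdisj hp0 hq0 _ hη1 q (by simp) q (by simp)).ne_of_mem (hm' q (by simp) hw)
        (hz1 q (by simp) hz) rfl
  · intro i j hij n hn
    fin_cases i <;> fin_cases j
    · exact absurd rfl hij
    · exact ⟨Set.smul_set_subset_iff.2 fun z hz => Or.inl (hX n hn z (Or.inl hz)).1,
        Set.smul_set_subset_iff.2 fun z hz => Or.inr (hX n hn z (Or.inl hz)).2⟩
    · show (e * x * e⁻¹) ^ n • X ⊆ e • X ∧ (e * x * e⁻¹)⁻¹ ^ n • X ⊆ e • X
      rw [show (e * x * e⁻¹)⁻¹ = e * x⁻¹ * e⁻¹ by group, conj_pow, conj_pow, mul_smul, mul_smul,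
        mul_smul, mul_smul]
      exact ⟨Set.smul_set_mono (Set.smul_set_subset_iff.2 fun z hz =>
          Or.inl (hX n hn z (Or.inr hz)).1),
        Set.smul_set_mono (Set.smul_set_subset_iff.2 fun z hz =>
          Or.inr (hX n hn z (Or.inr hz)).2)⟩
    · exact absurd rfl hij

end FA.TitsAlternative

end
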